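import Fermat.Agent.MR.Spec
import Fermat.Agent.G.Kron.Main

/-!
# Program MR, block `mro` (TRANSFER-OUT), leaf (mro-RED): literal statements (helper5)

Prefix `mror` / `Mror`.  Nothing is proved in this file.

`M` a level, `p ∤ M`, `𝔸` a valuation ring of `ℚ̄` over `p`, `k = 𝔸/𝔪`, `red = reductionModL 𝔸 M :
J₀(M)(ℚ̄) → Pic⁰(F_k(M))`, `r_N = placeReductionModL` the Prelude's place reduction at level `N`.

THE POINT: the lift `y` of the class `ξ = [div ψ / p]` under `red` is NOT a torsion class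
(surjectivity of `red` on `p`-torsion is not available), so the compatibility of `red` with `T_ℓ`
is needed on ALL classes, i.e. at the level of DIVISORS (`MrorDivKerSpec`), not only on principal
divisors (`MrhHeckeFunSpec`).

* `MrorPullKerSpec` (C-β) : `r_{M*} E = 0 ⟹ r_{Mℓ*} (β^* E) = 0`;
* `MrorPushKerSpec` (C-α) : `r_{Mℓ*} E' = 0 ⟹ r_{M*} (α_* E') = 0`  (place compatibility
  `r_M (P'|F(M)) = (r_{Mℓ} P')|F_k(M)`);
* `MrorDivKerSpec` (L-div) : `r_{M*} E = 0 ⟹ r_{M*} (T_ℓ^div E) = 0`;
* `MrorOntoSpec` : `red` is onto;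
* `MrorKerStableSpec` (A) : `red w = 0 ⟹ red (T_ℓ w) = 0`;
* `MrorEigenSpec` (B) : a class `y` over a Kummer class `[div ψ / p]` with
  `T̄_ℓ ψ = c ψ^a h^p` has `red (T_ℓ y) = a • red y`;
* `MrorClassSpec` : the class `ξ = [div ψ / p]` of a Kummer function, `ξ ≠ 0` iff `ψ` is not a constant
  times a `p`-th power;
* `MrorMainSpec` : the leaf (mro-RED): `MraEigenFun ⟹` a nonzero eigenclass in `J₀(M)(ℚ̄)[p]`
  (= the hypothesis of helper22's exit (X2) `MrolExitJSpec`).
-/

set_option autoImplicit false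
set_option synthInstance.maxHeartbeats 400000

noncomputable section

namespace Fermat.Agent.MR

open ModularCurve AlgebraicCurve IsLocalRing

local notation "Qb" => AlgebraicClosure ℚ

section Div

variable (M ℓ : ℕ) [NeZero M] [NeZero ℓ] (A : ValuationSubring Qb)

/-- **(C-β)** pull-back along `β` (`q ↦ q ^ ℓ`) preserves the divisors with trivial reduction. -/
def MrorPullKerSpec : Prop :=
  ∀ (hM : ReductionInputsModL A M) (hMℓ : ReductionInputsModL A (M * ℓ))
    (hβ : HeckeBetaBarIntegral Qb M ℓ)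
    [HasPrincipalDivisors Qb (modularFunctionFieldBar (M * ℓ))]
    (E : Divisor Qb (modularFunctionFieldBar M)),
    Finsupp.mapDomain (placeReductionModL hM) E = 0 →
      Finsupp.mapDomain (placeReductionModL hMℓ)
        (Divisor.pullbackAlong (heckeBetaBar Qb M ℓ) hβ E) = 0

/-- **(C-α)** push-forward along `α` (the inclusion) preserves the divisors with trivial
reduction. -/
def MrorPushKerSpec : Prop :=
  ∀ (hM : ReductionInputsModL A M) (hMℓ : ReductionInputsModL A (M * ℓ))
    (hα : HeckeAlphaBarIntegral Qb M ℓ)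
    (E : Divisor Qb (modularFunctionFieldBar (M * ℓ))),
    Finsupp.mapDomain (placeReductionModL hMℓ) E = 0 →
      Finsupp.mapDomain (placeReductionModL hM)
        (Divisor.pushforwardAlong (heckeAlphaBar Qb M ℓ) hα E) = 0

/-- **(L-div)** the Hecke correspondence preserves the divisors with trivial reduction. -/
def MrorDivKerSpec : Prop :=
  ∀ (hM : ReductionInputsModL A M)
    (hα : HeckeAlphaBarIntegral Qb M ℓ) (hβ : HeckeBetaBarIntegral Qb M ℓ)
    [HasPrincipalDivisors Qb (modularFunctionFieldBar (M * ℓ))]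
    (E : Divisor Qb (modularFunctionFieldBar M)),
    Finsupp.mapDomain (placeReductionModL hM) E = 0 →
      Finsupp.mapDomain (placeReductionModL hM) (heckeDivBar hα hβ E) = 0

end Div

section Class

variable (M : ℕ) [NeZero M] (A : ValuationSubring Qb)

/-- `red` is onto. -/
def MrorOntoSpec : Prop := Function.Surjective (reductionModL A M)

/-- **(A)** the kernel of `red` is stable under `T_ℓ`. -/
def MrorKerStableSpec (ℓ : Nat.Primes) : Prop :=
  ∀ w : JZero M, reductionModL A M w = 0 → reductionModL A M (heckeOperatorBar M ℓ w) = 0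

/-- **(B)** `red (T_ℓ y) = a • red y` for a class `y` over the Kummer class `[div ψ / n]` of an
eigenfunction `ψ` of `T̄_ℓ` modulo constants and `n`-th powers. -/
def MrorEigenSpec (ℓ : Nat.Primes) : Prop :=
  haveI : NeZero (ℓ : ℕ) := ⟨ℓ.2.ne_zero⟩
  ∀ (n : ℕ) (a : ℤ) (ψ h : modularFunctionFieldFullC (ResidueField A) M) (c : ResidueField A)
    (Dk : Divisor.degZero (K := ResidueField A) (F := modularFunctionFieldFullC (ResidueField A) M))
    (y : JZero M),
    0 < n → ψ ≠ 0 → (∀ Q, (n : ℤ) * (Dk : Divisor (ResidueField A) (modularFunctionFieldFullC (ResidueField A) M)) Q = Q.ord ψ) →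
    mraTbar (ResidueField A) M ℓ ψ = algebraMap (ResidueField A) _ c * ψ ^ a * h ^ n →
    reductionModL A M y = Pic0.mk Dk →
    reductionModL A M (heckeOperatorBar M ℓ y) = a • reductionModL A M y

/-- the Kummer class of a function whose divisor is divisible by `n`. -/
def MrorClassSpec : Prop :=
  ∀ (n : ℕ) (ψ : modularFunctionFieldFullC (ResidueField A) M), 0 < n → ψ ≠ 0 →
    (∀ Q : Place (ResidueField A) (modularFunctionFieldFullC (ResidueField A) M),
      (n : ℤ) ∣ Q.ord ψ) →
    ∃ Dk : Divisor.degZero (K := ResidueField A)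
        (F := modularFunctionFieldFullC (ResidueField A) M),
      (∀ Q, (n : ℤ) * (Dk : Divisor (ResidueField A) (modularFunctionFieldFullC (ResidueField A) M)) Q = Q.ord ψ) ∧
      (n • (Pic0.mk Dk : JZeroC (ResidueField A) M) = 0) ∧
      ((Pic0.mk Dk : JZeroC (ResidueField A) M) = 0 →
        ∃ (c : ResidueField A) (h : modularFunctionFieldFullC (ResidueField A) M),
          ψ = algebraMap (ResidueField A) _ c * h ^ n)

end Class

/-- the conclusion of (mro-RED) = the hypothesis of the exit (X2) of (mro-DS). -/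
def MrorEigenClass (p M : ℕ) [NeZero M] (W : WeierstrassCurve ℤ) : Prop :=
  ∃ x : JZero M, (p : ℤ) • x = 0 ∧ x ≠ 0 ∧
    ∀ (ℓ : ℕ) (hℓ : ℓ.Prime), W.IsGoodPrimeFor ℓ → ¬ ℓ ∣ M → ℓ ≠ p →
      heckeOperatorBar M ⟨ℓ, hℓ⟩ x = (W.apOfModel ℓ : ℤ) • x

/-- **(mro-RED)**. -/
def MrorMainSpec : Prop :=
  ∀ (P : FreyPackage) (M : ℕ) [NeZero M] (W : WeierstrassCurve ℤ), ¬ P.p ∣ M →
    ∀ 𝔸 : ValuationSubring Qb, 𝔸.LiesOverPrime P.p →
      MraEigenFun P M W 𝔸 → MrorEigenClass P.p M W

end Fermat.Agent.MR
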