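/-
(MR) block `mro` (TRANSFER-OUT), leaf (C-α) by ROUTE 1 (prefix `mrorg`, helper18) :
PUSH-FORWARD ALONG `α` PRESERVES THE DIVISORS WITH TRIVIAL REDUCTION.

`p ∤ M ℓ`, `𝔸` over `p`, `k = 𝔸/𝔪`, `r_N = placeReductionModL` the Prelude's (arbitrarily chosen)
place reduction at the level `N`, `α : F(M) → F(M ℓ)` the inclusion, `ᾱ : F_k(M) → F_k(M ℓ)`.

* `mrorg_val_restrict` : values at a restricted place;
* `mrorg_isInt_up`, `mrorg_inChart_iff`, `mrorg_rel_down` : the chart ring, the chart and the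
  reduction relation `GrdRel` go down from the level `M ℓ` to the level `M`;
* `mrorg_isRed_of_reduction` : ANY `r` with the Prelude property `IsPlaceReductionAlong` is THE
  explicit reduction of G/Red (`GrdIsRed`) - the Prelude's uniqueness theorem;
* **`mrorg_place`** (F1) : `r_M (P'|F(M)) = (r_{M ℓ} P')|F_k(M)`;
* **`mrorg_pushKer`** : `MrorPushKerSpec M ℓ 𝔸` (helper5's literal), for atlases `(τ, τ')` at both
  levels; `mrorg_pushKer_large` : the instance `p ≥ 5` (atlas `(j, j⁻¹)`).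
-/
import Mathlib
import Fermat.Agent.MR.Out.RedSpec
import Fermat.Agent.MR.Hecke.Level
import Fermat.Agent.MR.Hecke.DegSep
import Fermat.Agent.G.Red.Spec
import Fermat.Agent.V.Div.Modular
import Fermat.Agent.SS.Val.ModAL

set_option autoImplicit false
set_option linter.unusedSectionVars false
set_option linter.unusedVariables false
set_option linter.style.haveILetI false
set_option synthInstance.maxHeartbeats 400000

noncomputable section

namespace Fermat.Agent.MR

open ModularCurve AlgebraicCurve IsLocalRing Polynomial Fermat.Agent.S18 Fermat.Agent.S24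
  Fermat.Agent.G Fermat.Agent.SS

local notation "Qb" => AlgebraicClosure ℚ

/-! ### Values at a restricted place -/

section Restrict

variable {K F F' : Type*} [Field K] [Field F] [Field F'] [Algebra K F] [Algebra K F']

/-- the value of `x` at the restriction of `w` along `φ` is the value of `φ x` at `w` -/
theorem mrorg_val_restrict (φ : F →ₐ[K] F') (hφ : φ.toRingHom.IsIntegral) (w : Place K F')
    (x : F) (a : K) : GrdVal (w.restrictAlong φ hφ) x a ↔ GrdVal w (φ x) a := by
  unfold GrdVal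
  have h1 : (w.restrictAlong φ hφ).toValuationSubring =
      w.toValuationSubring.comap φ.toRingHom := rfl
  rw [h1, ssvma_nonunits_comap]
  have h2 : φ.toRingHom (x - algebraMap K F a) = φ x - algebraMap K F' a := by
    rw [map_sub]
    show φ x - φ (algebraMap K F a) = _
    rw [φ.commutes]
  rw [h2]

end Restrict

/-! ### From the level `M ℓ` down to the level `M` -/

section Down

variable (M ℓ : ℕ) [NeZero M] [NeZero ℓ] (A : ValuationSubring Qb)

/-- `F_k(M) ≤ F_k(M ℓ)` -/
theorem mrorg_fullC_le :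
    modularFunctionFieldFullC (ResidueField A) M ≤
      modularFunctionFieldFullC (ResidueField A) (M * ℓ) :=
  full_degeneracyC_le _ (dvd_mul_right M ℓ)

theorem mrorg_alpha_coe (x : modularFunctionFieldBar M) :
    ((heckeAlphaBar Qb M ℓ x : modularFunctionFieldBar (M * ℓ)) : LaurentSeries Qb) = x :=
  coe_heckeAlphaBar M ℓ x

/-- `α x` lies in the Gauss ring of level `M ℓ` -/
theorem mrorg_alpha_mem {x : modularFunctionFieldBar M} (hx : x ∈ grdO M A) :
    heckeAlphaBar Qb M ℓ x ∈ grdO (M * ℓ) A :=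
  mrh_id_mem M (M * ℓ) A (heckeAlphaBar Qb M ℓ).toRingHom (mrorg_alpha_coe M ℓ)
    (mrorg_fullC_le M ℓ A) hx

/-- `red (α x) = ᾱ (red x)` -/
theorem mrorg_alpha_red {x : modularFunctionFieldBar M} (hx : x ∈ grdO M A) :
    grdRed (M * ℓ) A ⟨heckeAlphaBar Qb M ℓ x, mrorg_alpha_mem M ℓ A hx⟩ =
      ssvmdIncl (ResidueField A) M ℓ (grdRed M A ⟨x, hx⟩) := by
  apply Subtype.ext
  rw [ssvmdIncl_coe]
  exact mrh_id_red M (M * ℓ) A (heckeAlphaBar Qb M ℓ).toRingHom (mrorg_alpha_coe M ℓ)
    (mrorg_fullC_le M ℓ A) hx (mrorg_alpha_mem M ℓ A hx)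

/-- integrality over `A[u]` goes up along `α` -/
theorem mrorg_isInt_up {u x : modularFunctionFieldBar M} (h : GrdIsInt M A u x) :
    GrdIsInt (M * ℓ) A (heckeAlphaBar Qb M ℓ u) (heckeAlphaBar Qb M ℓ x) := by
  obtain ⟨q, hq, hqx⟩ := h
  refine ⟨q, hq, ?_⟩
  have hcomp : (Polynomial.eval₂RingHom (grdInclA (M * ℓ) A) (heckeAlphaBar Qb M ℓ u)) =
      ((heckeAlphaBar Qb M ℓ).toRingHom).comp (Polynomial.eval₂RingHom (grdInclA M A) u) := by
    apply Polynomial.ringHom_ext
    · intro a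
      simp only [Polynomial.coe_eval₂RingHom, Polynomial.eval₂_C, RingHom.comp_apply]
      show _ = heckeAlphaBar Qb M ℓ (grdInclA M A a)
      unfold grdInclA
      rw [RingHom.comp_apply, RingHom.comp_apply, AlgHom.commutes]
    · simp only [Polynomial.coe_eval₂RingHom, Polynomial.eval₂_X, RingHom.comp_apply]
      rfl
  have h := Polynomial.hom_eval₂ q (Polynomial.eval₂RingHom (grdInclA M A) u)
    ((heckeAlphaBar Qb M ℓ).toRingHom) x
  rw [hqx, map_zero] at h
  rw [hcomp]
  exact h.symm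

variable {M ℓ A}

/-- the chart `u` at the level `M` and the chart `α u` at the level `M ℓ` -/
theorem mrorg_inChart_iff (hα : HeckeAlphaBarIntegral Qb M ℓ) (u : modularFunctionFieldBar M)
    (P' : Place Qb (modularFunctionFieldBar (M * ℓ))) :
    GrdInChart M A u (P'.restrictAlong (heckeAlphaBar Qb M ℓ) hα) ↔
      GrdInChart (M * ℓ) A (heckeAlphaBar Qb M ℓ u) P' := by
  unfold GrdInChart
  exact exists_congr fun a => mrorg_val_restrict _ hα P' u _

/-- **the reduction relation goes down** -/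
theorem mrorg_rel_down (hα : HeckeAlphaBarIntegral Qb M ℓ)
    (hαk : (ssvmdIncl (ResidueField A) M ℓ).toRingHom.IsIntegral)
    (u : modularFunctionFieldBar M)
    (P' : Place Qb (modularFunctionFieldBar (M * ℓ)))
    (Q' : Place (ResidueField A) (modularFunctionFieldFullC (ResidueField A) (M * ℓ)))
    (h : GrdRel (M * ℓ) A (heckeAlphaBar Qb M ℓ u) P' Q') :
    GrdRel M A u (P'.restrictAlong (heckeAlphaBar Qb M ℓ) hα)
      (Q'.restrictAlong (ssvmdIncl (ResidueField A) M ℓ) hαk) := by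
  intro x hx hint a hval
  have hval' := (mrorg_val_restrict (heckeAlphaBar Qb M ℓ) hα P' x _).1 hval
  have h1 := h (heckeAlphaBar Qb M ℓ x) (mrorg_alpha_mem M ℓ A hx) (mrorg_isInt_up M ℓ A hint) a hval'
  rw [mrorg_alpha_red M ℓ A hx] at h1
  exact (mrorg_val_restrict (ssvmdIncl (ResidueField A) M ℓ) hαk Q' _ _).2 h1

end Down

/-! ### Uniqueness : ANY Prelude place reduction is THE explicit one -/

section Unique

variable (M : ℕ) [NeZero M] {p : ℕ} [Fact p.Prime] (A : ValuationSubring Qb)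

/-- **the Prelude's uniqueness theorem at work** : any `r` with `IsPlaceReductionAlong` is the
explicit reduction of G/Red. -/
theorem mrorg_isRed_of_reduction (hpM : ¬ p ∣ M) (hA : A.LiesOverPrime p)
    {τ τ' : LaurentSeries ℤ} (hat : GrdAtlas M A τ τ')
    (r : Place Qb (modularFunctionFieldBar M) →
      Place (ResidueField A) (modularFunctionFieldFullC (ResidueField A) M))
    (hr : IsPlaceReductionAlong A (residue A) M r) :
    GrdIsRed M A hat.c.mem hat.c'.mem r := by
  haveI : IsAlgClosed (ResidueField A) := grd_isAlgClosed_residue A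
  obtain ⟨r₀, hr₀⟩ := grd_exists_isRed M A hpM hA hat
  have hr₀' := grd_isPlaceReductionAlong M A hpM hA hat r₀ hr₀
  have heq : r = r₀ := by
    refine IsPlaceReductionAlong.eq_of_agree (ggn_principalGeneratedByIntegral M A hpM hA)
      ?_ ?_ ?_ ?_ ?_
    · rintro D ⟨y, hy, hyk, hne, hDy⟩
      ext Q
      rw [hr.2 y hy hyk hne D hDy Q, hr₀'.2 y hy hyk hne D hDy Q]
    · exact fun P => hat.c.sepQ.deg_eq_one P
    · rintro D ⟨f, hf, hD⟩
      exact hat.c.sepQ.degree_eq_zero_of_forall_ord hf D hD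
    · intro n hn x
      exact Fermat.Agent.V.v27dv_JZero_divisible M n (Nat.pos_of_ne_zero hn) x
    · have hu0 : grdQ M hat.c.mem ≠ 0 := fun h0 =>
        hat.c.sepQ.transcendental (h0 ▸ isAlgebraic_zero)
      haveI := hat.c.sepQ.hasPrincipalDivisors
      obtain ⟨D, hD, -⟩ := HasPrincipalDivisors.exists_divisor
        (K := Qb) (grdQ M hat.c.mem) hu0
      refine ⟨D, ⟨grdQ M hat.c.mem, hu0, hD⟩, ?_⟩
      have hgood := grdga_good_ser M A hat.c.mem
      have hk0 : grdK M A hat.c.mem ≠ 0 := fun h0 =>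
        hat.c.sepK.transcendental (h0 ▸ isAlgebraic_zero)
      have hne : coeffMap (residue A) (grdSer τ A) ≠ 0 := by
        intro h0
        apply hk0
        rw [← grdga_spec_ser M A hat.c.mem]
        exact Subtype.ext h0
      have hDy : ∀ P, D P = P.ord (⟨coeffMap A.subtype (grdSer τ A), hgood.1⟩ :
          modularFunctionFieldBar M) := by
        intro P
        rw [hD P]
        congr 1
      obtain ⟨Q, hQ⟩ := hat.c.sepK.exists_ord_pos
      intro h0
      have h1 := hr.2 (grdSer τ A) hgood.1 hgood.2 hne D hDy Q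
      rw [h0, Finsupp.zero_apply] at h1
      have h2 : (⟨coeffMap (residue A) (grdSer τ A), hgood.2⟩ :
          modularFunctionFieldFullC (ResidueField A) M) = grdK M A hat.c.mem :=
        grdga_spec_ser M A hat.c.mem
      rw [h2] at h1
      omega
  rw [heq]
  exact hr₀

end Unique

/-! ### Place compatibility (F1) -/

section PlaceCompat

variable (M ℓ : ℕ) [NeZero M] [NeZero ℓ] {p : ℕ} [Fact p.Prime] (A : ValuationSubring Qb)

/-- `ᾱ` is integral (`F_k(M ℓ) / F_k(M)` is separable, a fortiori algebraic), any `ℓ ≥ 1` -/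
theorem mrorg_alphaK_isIntegral (hpMℓ : ¬ p ∣ M * ℓ) (hA : A.LiesOverPrime p) :
    (ssvmdIncl (ResidueField A) M ℓ).toRingHom.IsIntegral := by
  letI := algebraAlong (ssvmdIncl (ResidueField A) M ℓ)
  haveI := mrhd_sepAlong M A ℓ hpMℓ hA
  intro x
  exact Algebra.IsSeparable.isIntegral (modularFunctionFieldFullC (ResidueField A) M) x

variable {M ℓ A}

/-- the chart coordinate of level `M ℓ` is `α` of the chart coordinate of level `M` -/
theorem mrorg_grdQ_up {υ : LaurentSeries ℤ} (hυ : GrdSerMem M υ) (hυ' : GrdSerMem (M * ℓ) υ) :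
    heckeAlphaBar Qb M ℓ (grdQ M hυ) = grdQ (M * ℓ) hυ' := by
  have h1 : ((grdQ M hυ : modularFunctionFieldBar M) : LaurentSeries Qb) = grdSer υ Qb := rfl
  have h2 : ((grdQ (M * ℓ) hυ' : modularFunctionFieldBar (M * ℓ)) : LaurentSeries Qb) =
      grdSer υ Qb := rfl
  apply Subtype.ext
  rw [mrorg_alpha_coe M ℓ (grdQ M hυ), h1, h2]

/-- **(F1)** `r_M (P'|F(M)) = (r_{M ℓ} P')|F_k(M)` -/
theorem mrorg_place (hpM : ¬ p ∣ M) (hA : A.LiesOverPrime p) {τ τ' : LaurentSeries ℤ}
    (hat : GrdAtlas M A τ τ') (hat' : GrdAtlas (M * ℓ) A τ τ')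
    (hα : HeckeAlphaBarIntegral Qb M ℓ)
    (hαk : (ssvmdIncl (ResidueField A) M ℓ).toRingHom.IsIntegral)
    (r₁ : Place Qb (modularFunctionFieldBar M) →
      Place (ResidueField A) (modularFunctionFieldFullC (ResidueField A) M))
    (hr₁ : GrdIsRed M A hat.c.mem hat.c'.mem r₁)
    (r₂ : Place Qb (modularFunctionFieldBar (M * ℓ)) →
      Place (ResidueField A) (modularFunctionFieldFullC (ResidueField A) (M * ℓ)))
    (hr₂ : GrdIsRed (M * ℓ) A hat'.c.mem hat'.c'.mem r₂)
    (P' : Place Qb (modularFunctionFieldBar (M * ℓ))) :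
    r₁ (P'.restrictAlong (heckeAlphaBar Qb M ℓ) hα) =
      (r₂ P').restrictAlong (ssvmdIncl (ResidueField A) M ℓ) hαk := by
  by_cases hch : GrdInChart M A (grdQ M hat.c.mem) (P'.restrictAlong (heckeAlphaBar Qb M ℓ) hα)
  · have hch' : GrdInChart (M * ℓ) A (grdQ (M * ℓ) hat'.c.mem) P' := by
      rw [← mrorg_grdQ_up hat.c.mem hat'.c.mem]
      exact (mrorg_inChart_iff hα _ P').1 hch
    have h2 := (hr₂ P').1 hch'
    rw [← mrorg_grdQ_up hat.c.mem hat'.c.mem] at h2
    have h3 := mrorg_rel_down hα hαk _ P' _ h2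
    exact (grd_rel_exists M A hpM hA hat.c _ hch).unique ((hr₁ _).1 hch) h3
  · have hch' : ¬ GrdInChart (M * ℓ) A (grdQ (M * ℓ) hat'.c.mem) P' := by
      rw [← mrorg_grdQ_up hat.c.mem hat'.c.mem]
      exact fun h => hch ((mrorg_inChart_iff hα _ P').2 h)
    have h2 := (hr₂ P').2 hch'
    rw [← mrorg_grdQ_up hat.c'.mem hat'.c'.mem] at h2
    have h3 := mrorg_rel_down hα hαk _ P' _ h2
    exact (grd_rel_exists M A hpM hA hat.c' _ (grda_inChart' M A hat _ hch)).unique
      ((hr₁ _).2 hch) h3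

end PlaceCompat

/-! ### Push-forward and `mapDomain` -/

section Push

variable {K F F' : Type*} [Field K] [Field F] [Field F'] [Algebra K F] [Algebra K F']

/-- inertia degree one when all places have degree one -/
theorem mrorg_inertia_one (φ : F →ₐ[K] F') (hφ : φ.toRingHom.IsIntegral) (w : Place K F')
    (hdeg : ∀ v : Place K F, v.deg = 1) (hw : w.deg = 1) : w.inertiaDegAlong φ hφ = 1 := by
  letI := algebraAlong φ
  haveI := isScalarTower_along φ
  haveI := isIntegral_along φ hφ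
  have h := w.deg_restrict_mul_inertiaDeg (F := F)
  rw [hdeg, hw, one_mul] at h
  exact h

variable {k Fk Fk' : Type*} [Field k] [Field Fk] [Field Fk'] [Algebra k Fk] [Algebra k Fk']

/-- `r₁ ∘ (α_*) = (ᾱ_*) ∘ r₂` on divisors, when it holds on places and all degrees are one -/
theorem mrorg_push_map (φ : F →ₐ[K] F') (hφ : φ.toRingHom.IsIntegral)
    (hdeg : ∀ v : Place K F, v.deg = 1) (hdeg' : ∀ w : Place K F', w.deg = 1)
    (r₁ : Place K F → Place k Fk) (r₂ : Place K F' → Place k Fk')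
    (ρ : Place k Fk' → Place k Fk)
    (h : ∀ w : Place K F', r₁ (w.restrictAlong φ hφ) = ρ (r₂ w)) (E : Divisor K F') :
    Finsupp.mapDomain r₁ (Divisor.pushforwardAlong φ hφ E) =
      Finsupp.mapDomain ρ (Finsupp.mapDomain r₂ E) := by
  induction E using Finsupp.induction with
  | zero => simp
  | single_add w n E _ _ ih =>
    rw [map_add, Finsupp.mapDomain_add, Finsupp.mapDomain_add, Finsupp.mapDomain_add, ih,
      Divisor.pushforwardAlong_single, mrorg_inertia_one φ hφ w hdeg (hdeg' w), Nat.cast_one,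
      mul_one, Finsupp.mapDomain_single, Finsupp.mapDomain_single, Finsupp.mapDomain_single, h]

end Push

/-! ### The leaf (C-α) -/

section Main

variable (M ℓ : ℕ) [NeZero M] [NeZero ℓ] {p : ℕ} [Fact p.Prime] (A : ValuationSubring Qb)

/-- **(C-α)** push-forward along `α` preserves the divisors with trivial reduction, for atlases
`(τ, τ')` at both levels. -/
theorem mrorg_pushKer (hpMℓ : ¬ p ∣ M * ℓ) (hA : A.LiesOverPrime p) {τ τ' : LaurentSeries ℤ}
    (hat : GrdAtlas M A τ τ') (hat' : GrdAtlas (M * ℓ) A τ τ') : MrorPushKerSpec M ℓ A := by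
  intro hM hMℓ hα E hE
  have hpM : ¬ p ∣ M := fun h => hpMℓ (Dvd.dvd.mul_right h ℓ)
  have hαk := mrorg_alphaK_isIntegral M ℓ A hpMℓ hA
  have hr₁ := mrorg_isRed_of_reduction M A hpM hA hat _
    (isPlaceReductionModL_placeReductionModL hM)
  have hr₂ := mrorg_isRed_of_reduction (M * ℓ) A hpMℓ hA hat' _
    (isPlaceReductionModL_placeReductionModL hMℓ)
  rw [mrorg_push_map (heckeAlphaBar Qb M ℓ) hα (fun v => hat.c.sepQ.deg_eq_one v)
    (fun w => hat'.c.sepQ.deg_eq_one w) (placeReductionModL hM) (placeReductionModL hMℓ)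
    (fun Q' => Q'.restrictAlong (ssvmdIncl (ResidueField A) M ℓ) hαk)
    (fun w => mrorg_place hpM hA hat hat' hα hαk _ hr₁ _ hr₂ w) E, hE, Finsupp.mapDomain_zero]

/-- **(C-α) for `p ≥ 5`** (atlas `(j, j⁻¹)` at both levels) : no further hypothesis. -/
theorem mrorg_pushKer_large (hpMℓ : ¬ p ∣ M * ℓ) (hA : A.LiesOverPrime p) (h5 : 5 ≤ p) :
    MrorPushKerSpec M ℓ A := by
  have hpM : ¬ p ∣ M := fun h => hpMℓ (Dvd.dvd.mul_right h ℓ)
  obtain ⟨τ', hτ'⟩ := grd_exists_jinv
  exact mrorg_pushKer M ℓ A hpMℓ hA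
    ⟨hτ', grd_chart_j M A hpM hA h5, grd_chart_jinv M A hpM hA h5 τ' hτ'⟩
    ⟨hτ', grd_chart_j (M * ℓ) A hpMℓ hA h5, grd_chart_jinv (M * ℓ) A hpMℓ hA h5 τ' hτ'⟩

end Main

end Fermat.Agent.MR
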