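/-
(MR) block `mro` (TRANSFER-OUT), leaf (mro-GEN) (prefix `mrogn`, helper18) :
THE RIEMANN-ROCH GENUS OF `ℚ̄(X₀(N))` IS AT MOST `dim S₂(Γ₀(N))`.

Abstract part (`K` algebraically closed of characteristic zero, `F / K(x)` finite, the setting of
`S20/FFMain`) : for ANY Riemann-Roch package `R : V27RR K F g`,

* `mrogn_mem_ffLam_iff`, `mrogn_mem_twist_ffLamInf_iff` : the two lattices of integral elements in
  terms of places;
* `mrogn_inf_eq` : `Λ ∩ X^m Λ' = L(m (x)_∞)`;
* `mrogn_degree` : `deg (m (x)_∞) = m [F : K(x)]`;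
* `mrogn_latH0_twist` : `h⁰(Λ, X^m Λ') = n m + 1 - h¹(Λ, Λ')` for `m ≫ 0` (Dedekind-Weber basis);
* **`mrogn_genus_eq`** : `g = h¹(Λ, Λ')`;
* **`mrogn_genus_eq_holo`** : `g = dim_K {f | f dx regular everywhere}` (`ffHolo`, lattice Serre
  duality `latH1_eq_latH0_dual`).

Modular part : **`mrogn_main N : genusFF ℚ̄ F(N) ≤ dim_ℂ S₂(Γ₀(N))`** (main's `mwgt_rr_X0` and
`finrank_le_finrank_cuspForm`).
-/
import Mathlib
import Fermat.Agent.S20.FFMain
import Fermat.Agent.S20.HolDiff
import Fermat.Agent.MW.GT.X0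

set_option autoImplicit false
set_option linter.unusedSectionVars false
set_option linter.unusedVariables false
set_option linter.style.haveILetI false

noncomputable section

namespace Fermat.Agent.MR

open Polynomial Module IsDedekindDomain HeightOneSpectrum WithZero AlgebraicCurve
  IntermediateField KaehlerDifferential Fermat.Agent.S24 Fermat.Agent.S20 Fermat.Agent.V.RR

/-! ### Integral closures in terms of places -/

section Side

variable {K F : Type*} [Field K] [Field F] [Algebra K F]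
  (A : Type*) [CommRing A] [Algebra A F] [IsDedekindDomain A] [Algebra K A] [IsScalarTower K A F]
  [IsDedekindDomain (integralClosure A F)] [IsFractionRing (integralClosure A F) F]

/-- an element of `F` is integral over `A` iff it is regular at all the places of the primes of
the integral closure. -/
theorem mrogn_mem_integralClosure_iff (g : F) :
    g ∈ integralClosure A F ↔
      ∀ P : HeightOneSpectrum (integralClosure A F), g = 0 ∨ 0 ≤ (placeOfPrime K F P).ord g := by
  have key : ∀ P : HeightOneSpectrum (integralClosure A F),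
      P.valuation F g ≤ 1 ↔ (g = 0 ∨ 0 ≤ (placeOfPrime K F P).ord g) := by
    intro P
    have h := ffside_valuation_le_exp_iff (K := K) A P g 0
    rwa [exp_zero, neg_zero] at h
  constructor
  · intro hg P
    rw [← key P]
    exact P.valuation_le_one (K := F) (⟨g, hg⟩ : integralClosure A F)
  · intro h
    obtain ⟨b, rfl⟩ := HeightOneSpectrum.mem_integers_of_valuation_le_one F g
      (fun P => (key P).2 (h P))
    exact b.2

end Side

/-! ### The function field setting of `S20/FFMain` -/

section Main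

variable {K F : Type*} [Field K] [Field F] [Algebra K F] [Algebra K[X] F] [Algebra (RatFunc K) F]
  [IsScalarTower K[X] (RatFunc K) F] [IsScalarTower K (RatFunc K) F] [IsScalarTower K K[X] F]
  [FiniteDimensional (RatFunc K) F] [CharZero K] [IsAlgClosed K]

/-- the finite integers : regular at all the places where `x` is. -/
theorem mrogn_mem_ffLam_iff (g : F) :
    g ∈ ffLam K F ↔ ∀ v : Place K F, 0 ≤ v.ord (ffX K F) → g = 0 ∨ 0 ≤ v.ord g := by
  rw [Subalgebra.mem_toSubmodule, mrogn_mem_integralClosure_iff (K := K) K[X] g]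
  constructor
  · intro h v hv
    have h1 := h (fffinEquiv.symm ⟨v, hv⟩)
    have h2 : placeOfPrime K F (fffinEquiv.symm ⟨v, hv⟩) = v := by
      rw [← fffinEquiv_apply, Equiv.apply_symm_apply]
    rwa [h2] at h1
  · intro h P
    have hv : 0 ≤ (placeOfPrime K F P).ord (ffX K F) := by
      rw [← fffinEquiv_apply]; exact (fffinEquiv P).2
    exact h _ hv

/-- the infinite integers : regular at all the poles of `x`. -/
theorem mrogn_mem_ffLamInf_iff (g : F) :
    g ∈ ffLamInf K F ↔ ∀ v : Place K F, v.ord (ffX K F) < 0 → g = 0 ∨ 0 ≤ v.ord g := by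
  rw [Subalgebra.mem_toSubmodule, mrogn_mem_integralClosure_iff (K := K) (Rinf K) g]
  constructor
  · intro h v hv
    have h1 := h (ffinfEquiv.symm ⟨v, hv⟩)
    have h2 : placeOfPrime K F (ffinfEquiv.symm ⟨v, hv⟩) = v := by
      rw [← ffinfEquiv_apply, Equiv.apply_symm_apply]
    rwa [h2] at h1
  · intro h P
    exact h _ (ffinf_ord_pos P)

/-- the twisted infinite integers : poles of order at most `m · (-ord x)` at the poles of `x`. -/
theorem mrogn_mem_twist_ffLamInf_iff (m : ℤ) (g : F) :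
    g ∈ twist m (ffLamInf K F) ↔
      ∀ v : Place K F, v.ord (ffX K F) < 0 → g = 0 ∨ m * v.ord (ffX K F) ≤ v.ord g := by
  rw [mem_twist, mrogn_mem_ffLamInf_iff]
  have hsmul : (RatFunc.X : RatFunc K) ^ (-m) • g = ffX K F ^ (-m) * g := by
    rw [Algebra.smul_def, ffX_eq, map_zpow₀]
  rw [hsmul]
  refine forall_congr' fun v => forall_congr' fun hv => ?_
  have hx0 : ffX K F ≠ 0 := by rintro h; rw [h] at hv; simp at hv
  rcases eq_or_ne g 0 with rfl | hg
  · simp
  have h2 : ffX K F ^ (-m) * g ≠ 0 := mul_ne_zero (zpow_ne_zero _ hx0) hg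
  simp only [h2, hg, false_or]
  rw [v.ord_mul (zpow_ne_zero _ hx0) hg, v.ord_zpow]
  constructor <;> intro h <;> linarith

variable (hx : Transcendental K (ffX K F)) [FiniteDimensional K⟮ffX K F⟯ F]
  [Algebra.IsSeparable K⟮ffX K F⟯ F]

/-- the divisor `m (x)_∞` -/
theorem mrogn_exists_pole (m : ℕ) :
    ∃ D : Divisor K F, ∀ v : Place K F,
      D v = if v.ord (ffX K F) < 0 then -((m : ℤ) * v.ord (ffX K F)) else 0 := by
  classical
  obtain ⟨hfin, -⟩ := ffinf_sum_ord (K := K) (F := F)
  have hfin' : {v : Place K F | v.ord (ffX K F) < 0}.Finite := Set.finite_coe_iff.mp hfin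
  refine ⟨Finsupp.onFinset hfin'.toFinset
    (fun v => if v.ord (ffX K F) < 0 then -((m : ℤ) * v.ord (ffX K F)) else 0) ?_, fun v => rfl⟩
  intro v hv
  rw [Set.Finite.mem_toFinset]
  by_contra hneg
  exact hv (if_neg hneg)

/-- **`Λ ∩ X^m Λ' = L(m (x)_∞)`** -/
theorem mrogn_inf_eq (m : ℕ) (D : Divisor K F)
    (hD : ∀ v : Place K F,
      D v = if v.ord (ffX K F) < 0 then -((m : ℤ) * v.ord (ffX K F)) else 0) :
    kSub (ffLam K F) ⊓ kSubInf (twist (m : ℤ) (ffLamInf K F)) = riemannRochSpace D := by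
  ext g
  rw [Submodule.mem_inf, mem_kSub, mem_kSubInf, mrogn_mem_ffLam_iff,
    mrogn_mem_twist_ffLamInf_iff, mem_riemannRochSpace_iff]
  constructor
  · rintro ⟨h1, h2⟩ v
    rw [hD v]
    by_cases hv : v.ord (ffX K F) < 0
    · rw [if_pos hv, neg_neg]
      exact h2 v hv
    · rw [if_neg hv, neg_zero]
      exact h1 v (not_lt.mp hv)
  · intro h
    refine ⟨fun v hv => ?_, fun v hv => ?_⟩
    · have := h v
      rwa [hD v, if_neg (not_lt.mpr hv), neg_zero] at this
    · have := h v
      rwa [hD v, if_pos hv, neg_neg] at this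

include hx in
/-- **`deg (m (x)_∞) = m [F : K(x)]`** -/
theorem mrogn_degree (m : ℕ) (D : Divisor K F)
    (hD : ∀ v : Place K F,
      D v = if v.ord (ffX K F) < 0 then -((m : ℤ) * v.ord (ffX K F)) else 0) :
    Divisor.degree D = (m : ℤ) * (finrank (RatFunc K) F : ℤ) := by
  obtain ⟨hfinite, hn⟩ := ffinf_sum_ord (K := K) (F := F)
  have hdeg := ffmain_degree_eq D (fun v => place_deg_eq_one v hx)
    (fun v => 0 ≤ v.ord (ffX K F)) (fun v => v.ord (ffX K F) < 0) (fun v => not_le.symm)
  have hD1 : (fun v : {v : Place K F // 0 ≤ v.ord (ffX K F)} => D v.1) = fun _ => 0 :=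
    funext fun v => by rw [hD v.1, if_neg (not_lt.mpr v.2)]
  have hD2 : (fun v : {v : Place K F // v.ord (ffX K F) < 0} => D v.1) =
      fun v => (m : ℤ) * (-(v.1.ord (ffX K F))) := funext fun v => by
    rw [hD v.1, if_pos v.2]
    ring
  rw [hD1, hD2, finsum_zero, zero_add] at hdeg
  have := Fintype.ofFinite {v : Place K F // v.ord (ffX K F) < 0}
  rw [finsum_eq_sum_of_fintype] at hdeg hn
  rw [hdeg, ← Finset.mul_sum, hn]

/-- **the Hilbert function of the lattice pair** : `h⁰(Λ, X^m Λ') = n m + 1 - h¹(Λ, Λ')` for all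
large `m`. -/
theorem mrogn_latH0_twist :
    ∃ m₀ : ℕ, ∀ m : ℕ, m₀ ≤ m →
      (latH0 (ffLam K F) (twist (m : ℤ) (ffLamInf K F)) : ℤ) =
        (finrank (RatFunc K) F : ℤ) * m + 1 - latH1 (ffLam K F) (ffLamInf K F) := by
  classical
  obtain ⟨b, d, h⟩ := exists_isDWBasis (ffLam K F) (ffLamInf K F)
  refine ⟨∑ i, (-d i).toNat, fun m hm => ?_⟩
  have hchi := h.chi_eq
  rw [fflat_latH0_eq_one] at hchi
  have hge : ∀ i, 0 ≤ d i + (m : ℤ) + 1 := by
    intro i
    have h1 : (-d i).toNat ≤ ∑ j, (-d j).toNat :=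
      Finset.single_le_sum (f := fun j => (-d j).toNat) (fun j _ => Nat.zero_le _)
        (Finset.mem_univ i)
    have h2 : ((-d i).toNat : ℤ) ≤ (m : ℤ) := by exact_mod_cast h1.trans hm
    have h3 : -d i ≤ ((-d i).toNat : ℤ) := Int.self_le_toNat _
    linarith
  rw [(h.twist (m : ℤ)).latH0_eq]
  push_cast
  have hsum : ∑ i, ((d i + (m : ℤ) + 1).toNat : ℤ) = ∑ i, ((d i + 1) + (m : ℤ)) := by
    refine Finset.sum_congr rfl fun i _ => ?_
    rw [Int.toNat_of_nonneg (hge i)]
    ring
  rw [hsum, Finset.sum_add_distrib, ← hchi]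
  simp only [Finset.sum_const, Finset.card_univ, Fintype.card_fin, nsmul_eq_mul]
  push_cast
  ring

include hx in
/-- **the Riemann-Roch genus is `h¹` of the lattice pair.** -/
theorem mrogn_genus_eq {g : ℕ} (R : V27RR K F g) :
    g = latH1 (ffLam K F) (ffLamInf K F) := by
  obtain ⟨m₀, hm₀⟩ := mrogn_latH0_twist (K := K) (F := F)
  set m : ℕ := max m₀ (2 * g) with hm
  obtain ⟨D, hD⟩ := mrogn_exists_pole (K := K) (F := F) m
  have hdeg := mrogn_degree hx m D hD
  have hn : 0 < finrank (RatFunc K) F := Module.finrank_pos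
  have hbig : 2 * (g : ℤ) - 2 < Divisor.degree D := by
    rw [hdeg]
    have h1 : (2 * g : ℤ) ≤ (m : ℤ) := by exact_mod_cast le_max_right m₀ (2 * g)
    have h2 : (1 : ℤ) ≤ (finrank (RatFunc K) F : ℤ) := by exact_mod_cast hn
    nlinarith
  have hRR := (R.finrank_of_lt hbig).1
  have hlat := hm₀ m (le_max_left _ _)
  have hH0 : latH0 (ffLam K F) (twist (m : ℤ) (ffLamInf K F)) =
      finrank K (riemannRochSpace D) := by
    rw [latH0, mrogn_inf_eq m D hD]
  rw [hH0, hRR, hdeg] at hlat
  have : (g : ℤ) = (latH1 (ffLam K F) (ffLamInf K F) : ℤ) := by linarith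
  exact_mod_cast this

/-- lattice Serre duality : `h¹(Λ, Λ') = dim {f | f dx regular everywhere}` -/
theorem mrogn_latH1_eq_holo :
    latH1 (ffLam K F) (ffLamInf K F) = finrank K (ffHolo K F) :=
  latH1_eq_latH0_dual (ffLam K F) (ffLamInf K F) (Algebra.traceForm (RatFunc K) F)
    (traceForm_nondegenerate (RatFunc K) F)

include hx in
/-- **the Riemann-Roch genus is the dimension of the space of regular differentials `f dx`.** -/
theorem mrogn_genus_eq_holo {g : ℕ} (R : V27RR K F g) : g = finrank K (ffHolo K F) := by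
  rw [mrogn_genus_eq hx R, mrogn_latH1_eq_holo]

end Main

/-! ### The intrinsic form -/

section Intrinsic

/-- **intrinsic form** : `K` algebraically closed of characteristic zero, `x ∈ F` transcendental with
`F / K(x)` finite, `R` a Riemann-Roch package of genus `g`; then the space of the `f` with `f dx`
regular everywhere has dimension `g`. -/
theorem mrogn_exists_holo {K F : Type*} [Field K] [Field F] [Algebra K F] [IsAlgClosed K]
    [CharZero K] (x : F) (hx : Transcendental K x) [FiniteDimensional K⟮x⟯ F] {g : ℕ}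
    (R : V27RR K F g) :
    ∃ V : Submodule K F,
      (∀ f : F, f ∈ V ↔ ∀ v : Place K F, f = 0 ∨
        0 ≤ v.ord f + v.ordDifferential (KaehlerDifferential.D K F x)) ∧
      finrank K V = g := by
  let e : RatFunc K ≃ₐ[K] K⟮x⟯ := RatFunc.algEquivOfTranscendental x hx
  letI algP : Algebra K[X] F := (aeval x : K[X] →ₐ[K] F).toRingHom.toAlgebra
  letI algR : Algebra (RatFunc K) F :=
    ((algebraMap K⟮x⟯ F).comp (e : RatFunc K →+* K⟮x⟯)).toAlgebra
  have hP : ∀ p : K[X], algebraMap K[X] F p = aeval x p := fun p => rfl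
  have hR : ∀ r : RatFunc K, algebraMap (RatFunc K) F r = ((e r : K⟮x⟯) : F) := fun r => rfl
  haveI t1 : IsScalarTower K[X] (RatFunc K) F := IsScalarTower.of_algebraMap_eq fun p => by
    rw [hP, hR, RatFunc.algEquivOfTranscendental_algebraMap]
    simp
  haveI t2 : IsScalarTower K K[X] F := IsScalarTower.of_algebraMap_eq fun c => by
    rw [hP, Polynomial.algebraMap_apply, Algebra.algebraMap_self_apply, aeval_C]
  haveI t3 : IsScalarTower K (RatFunc K) F := IsScalarTower.of_algebraMap_eq fun c => by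
    rw [hR, e.commutes]
    rfl
  haveI fd : FiniteDimensional (RatFunc K) F :=
    Module.Finite.of_equiv_equiv (A₁ := K⟮x⟯) (B₁ := F) (A₂ := RatFunc K) (B₂ := F)
      e.symm.toRingEquiv (RingEquiv.refl F) (by
        ext r
        simp [hR])
  have hX : ffX K F = x := by
    rw [ffX, hP, aeval_X]
  have hx' : Transcendental K (ffX K F) := by rw [hX]; exact hx
  haveI fd' : FiniteDimensional K⟮ffX K F⟯ F := by rw [hX]; infer_instance
  haveI sep : Algebra.IsSeparable K⟮ffX K F⟯ F := inferInstance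
  refine ⟨ffHolo K F, fun f => ?_, (mrogn_genus_eq_holo hx' R).symm⟩
  rw [ffmain_mem_ffHolo_iff hx' f, hX]

end Intrinsic

/-! ### The modular curve -/

section Modular

open ModularCurve

/-- **(mro-GEN)** : the Riemann-Roch genus of `ℚ̄(X₀(N))` is at most `dim S₂(Γ₀(N))`. -/
theorem mrogn_main (N : ℕ) [NeZero N] :
    genusFF (AlgebraicClosure ℚ) ↥(modularFunctionFieldBar N) ≤
      Module.finrank ℂ (CuspForm (CongruenceSubgroup.Gamma0 N) 2) := by
  have hsep := isSepGen_jBar N
  haveI := hsep.finite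
  obtain ⟨V, hV, hdim⟩ := mrogn_exists_holo (jBar N) hsep.transcendental (Fermat.Agent.MW.mwgt_rr_X0 N)
  rw [← hdim]
  exact finrank_le_finrank_cuspForm N V fun g hg v => (hV g).1 hg v

end Modular

end Fermat.Agent.MR
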