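import Fermat.Agent.S41.Top
import Fermat.Agent.G.Unr.Theta
import Fermat.Agent.MW.GT.X0
import Fermat.Prelude.Def_FLTPrelim_ModularRep

/-!
# Program MR, block `mro` (TRANSFER-OUT), leaf (mro-DS) : literal statements (helper22)

Prefix `mrol` / `Mrol`.  Nothing is proved in this file; `MR/Out/Lift.lean` proves
`MrolExitIntSpec` (the integral exit) and, from `MrolGenSpec` + `MrolRankSpec`-free counting,
`MrolMainSpec`.

The chain of the leaf, for a level `M` (`p ∤ M` is NOT used):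

* `L_M := gprHomPE M ℤ = Hom_pe(Γ₀(M)^ab, ℤ)` (characters killing parabolic and elliptic elements);
* `Θ_p : Hom_pe(Γ₀(M)^ab, ℤ/p) ↪ J₀(M)(ℚ̄)[p]`, injective and `T_ℓ`-equivariant (`gun_theta`, landed);
* `|J₀(M)(ℚ̄)[p]| = p^(2 genusFF)` (S27, landed) and `rank L_M = 2 dim S₂(Γ₀(M))` (S21, landed);
* **(mro-GEN)** `genusFF(ℚ̄(X₀(M))) ≤ dim S₂(Γ₀(M))` : NOT on main (main only has the Kähler genus,
  S24/S20) -- `MrolGenSpec`, a separate leaf;
* hence `L_M / p → J₀(M)[p]` is ONTO: every `p`-torsion class is `Θ_p (y mod p)`, `y ∈ L_M`;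
* Deligne-Serre lifting on `L_M` (`s41as_lift` pattern) + Eichler-Shimura exit (`s41es_main`
  pattern) give the eigenform.

The consumer (mro-RED, helper5) provides an abstract reduction `red : J₀(M) →+ Y` (with
`Y = Pic⁰(F_k(M))`), operators `u ℓ` on `Y` with `red ∘ T_ℓ = u ℓ ∘ red`, and an eigenclass
`ξ ∈ Y` in the image of the `p`-torsion.  With `Y := J₀(M)`, `red := id` this is the
"eigenclass in `J₀(M)[p]`" shape.
-/

set_option autoImplicit false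

noncomputable section

namespace Fermat.Agent.MR

open WeierstrassCurve CongruenceSubgroup Fermat.Agent.S16LB Fermat.Agent.G ModularCurve
  AlgebraicCurve
open scoped MatrixGroups

/-- **(mro-GEN)** the Riemann-Roch genus of `ℚ̄(X₀(M))` is at most `dim S₂(Γ₀(M))`. -/
def MrolGenSpec (M : ℕ) [NeZero M] : Prop :=
  genusFF (AlgebraicClosure ℚ) ↥(modularFunctionFieldBar M)
    ≤ Module.finrank ℂ (CuspForm (Gamma0 M) 2)

/-- **(mro-DS), integral exit.** `y ∈ Hom_pe(Γ₀(M)^ab, ℤ)`, not divisible by `p`, an eigenvector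
mod `p` of the `T_ℓ` (good `ℓ ∤ M p`) with eigenvalues `a_ℓ(W)`: then `W` is residually modular
of level `M`. -/
def MrolExitIntSpec : Prop :=
  ∀ (W : WeierstrassCurve ℤ) (p M : ℕ) [NeZero M], p.Prime →
    ∀ y : s16lbAb M →+ ℤ, y ∈ gprHomPE M ℤ →
      (¬ ∃ z : s16lbAb M →+ ℤ, y = (p : ℤ) • z) →
      (∀ ℓ : ℕ, ℓ.Prime → W.IsGoodPrimeFor ℓ → ¬ ℓ ∣ M → ℓ ≠ p →
        ∃ z : s16lbAb M →+ ℤ, y.comp (gprT M ℓ) - (W.apOfModel ℓ : ℤ) • y = (p : ℤ) • z) →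
      W.IsResiduallyModularOfLevel p M

/-- **(mro-DS), main form.**  `red : J₀(M)(ℚ̄) →+ Y` any additive map, `u ℓ` additive operators
of `Y` with `red (T_ℓ x) = u ℓ (red x)` on `p`-torsion `x`; `ξ ∈ Y` nonzero, the image of a
`p`-torsion class, with `u ℓ ξ = a_ℓ(W) ξ`.  Then `W` is residually modular of level `M`. -/
def MrolMainSpec : Prop :=
  ∀ (W : WeierstrassCurve ℤ) (p M : ℕ) [NeZero M], p.Prime → MrolGenSpec M →
    ∀ (Y : Type) [AddCommGroup Y] (red : JZero M →+ Y) (u : ℕ → Y →+ Y),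
      (∀ (ℓ : ℕ) (hℓ : ℓ.Prime), W.IsGoodPrimeFor ℓ → ¬ ℓ ∣ M → ℓ ≠ p →
        ∀ x : JZero M, (p : ℤ) • x = 0 → red (heckeOperatorBar M ⟨ℓ, hℓ⟩ x) = u ℓ (red x)) →
      ∀ ξ : Y, ξ ≠ 0 → (∃ x : JZero M, (p : ℤ) • x = 0 ∧ red x = ξ) →
      (∀ ℓ : ℕ, ℓ.Prime → W.IsGoodPrimeFor ℓ → ¬ ℓ ∣ M → ℓ ≠ p →
        u ℓ ξ = (W.apOfModel ℓ : ℤ) • ξ) →
      W.IsResiduallyModularOfLevel p M

/-- **(mro-DS), Frey form**: the conclusion in the shape of S44. -/
def MrolFreySpec : Prop :=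
  ∀ (P : FreyPackage) (W : WeierstrassCurve ℤ), W.IsIntegralModelOf P.freyCurve →
    ∀ M : ℕ, W.IsResiduallyModularOfLevel P.p M → P.ModularRepOfLevel M

end Fermat.Agent.MR
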