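import Mathlib
import Fermat.Agent.MR.Out.Gen
import Fermat.Agent.MR.Out.LiftSpec

/-!
# Program MR, block `mro`, leaf (mro-GEN) : the plug into `MrolGenSpec` (helper22's literal)
-/

set_option autoImplicit false

namespace Fermat.Agent.MR

/-- **(mro-GEN)** : `MrolGenSpec M` holds for every level `M`. -/
theorem mrogn_genSpec (M : ℕ) [NeZero M] : MrolGenSpec M :=
  mrogn_main M

end Fermat.Agent.MR
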