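import Fermat.Agent.MR.Out.Desc
import Fermat.Agent.MR.Out.GenPlug

/-!
# Program MR, block `mro`, leaf (mro-DS): HYPOTHESIS-FREE exits (helper22)

`MrolGenSpec M` is a theorem (`mrogn_genSpec`, helper18's `MR/Out/Gen.lean`), so all the exits of
`Main.lean` / `Desc.lean` hold unconditionally.
-/

set_option autoImplicit false

noncomputable section

namespace Fermat.Agent.MR

open WeierstrassCurve CongruenceSubgroup Fermat.Agent.S16LB Fermat.Agent.G ModularCurve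
open scoped MatrixGroups

/-- **(e)** `Θ_p` is injective, ONTO `J₀(M)(ℚ̄)[p]`, `T_ℓ`-equivariant; `mod p` is onto. -/
theorem mrolf_theta (p M : ℕ) [NeZero M] (hp : p.Prime) :
    (∃ Θ : gprHomPE M (ZMod p) →+ JZero M, Function.Injective Θ ∧
      (∀ x : JZero M, (p : ℤ) • x = 0 → ∃ χ, Θ χ = x) ∧ (∀ χ, (p : ℤ) • Θ χ = 0) ∧
      ∀ (ℓ : ℕ) (hℓ : ℓ.Prime) (_ : ¬ ℓ ∣ M) (_ : ¬ ℓ ∣ p) (χ χ' : gprHomPE M (ZMod p)),
        (χ' : s16lbAb M →+ ZMod p) = (χ : s16lbAb M →+ ZMod p).comp (gprT M ℓ) →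
          Θ χ' = heckeOperatorBar M ⟨ℓ, hℓ⟩ (Θ χ)) ∧
    ∀ c : s16lbAb M →+ ZMod p, c ∈ gprHomPE M (ZMod p) →
      ∃ y : s16lbAb M →+ ℤ, y ∈ gprHomPE M ℤ ∧ (Int.castAddHom (ZMod p)).comp y = c :=
  mrol_theta p M hp (mrogn_genSpec M)

/-- **(X1)** a nonzero eigen-character mod `p` ⟹ residually modular of level `M`. -/
theorem mrolf_exit_modp (W : WeierstrassCurve ℤ) (p M : ℕ) [NeZero M] (hp : p.Prime)
    (c : s16lbAb M →+ ZMod p) (hc : c ∈ gprHomPE M (ZMod p)) (hc0 : c ≠ 0)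
    (heig : ∀ ℓ : ℕ, ℓ.Prime → W.IsGoodPrimeFor ℓ → ¬ ℓ ∣ M → ℓ ≠ p →
      c.comp (gprT M ℓ) = (W.apOfModel ℓ : ℤ) • c) :
    W.IsResiduallyModularOfLevel p M :=
  mrol_exit_modp W p M hp (mrogn_genSpec M) c hc hc0 heig

/-- **(X2)** an eigenclass in `J₀(M)(ℚ̄)[p]` ⟹ residually modular of level `M`. -/
theorem mrolf_exit_J (W : WeierstrassCurve ℤ) (p M : ℕ) [NeZero M] (hp : p.Prime)
    (x : JZero M) (hx : (p : ℤ) • x = 0) (hx0 : x ≠ 0)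
    (heig : ∀ (ℓ : ℕ) (hℓ : ℓ.Prime), W.IsGoodPrimeFor ℓ → ¬ ℓ ∣ M → ℓ ≠ p →
      heckeOperatorBar M ⟨ℓ, hℓ⟩ x = (W.apOfModel ℓ : ℤ) • x) :
    W.IsResiduallyModularOfLevel p M :=
  mrol_exit_J W p M hp (mrogn_genSpec M) x hx hx0 heig

/-- **(X4)** the exit from the descent claim, kernel form. -/
theorem mrolf_exit_desc_ker (W : WeierstrassCurve ℤ) (p M : ℕ) [NeZero M] (hp : p.Prime)
    (Y : Type) [AddCommGroup Y] (red : JZero M →+ Y)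
    (hker : ∀ (i : mrolIdx W p M) (w : JZero M), red w = 0 →
      red (heckeOperatorBar M ⟨i.1, i.2.1⟩ w) = 0)
    (y : JZero M) (hy0 : red y ≠ 0) (hyp : (p : ℤ) • red y = 0)
    (heig : ∀ i : mrolIdx W p M,
      red (heckeOperatorBar M ⟨i.1, i.2.1⟩ y) = (W.apOfModel i.1 : ℤ) • red y)
    (hD : ∀ t ∈ Subring.closure
        (Set.range fun i : mrolIdx W p M => heckeOperatorBar M ⟨i.1, i.2.1⟩),
      (∀ x : JZero M, (p : ℤ) • x = 0 → t x = 0) → red (t y) = 0) :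
    W.IsResiduallyModularOfLevel p M :=
  mrol_exit_desc_ker W p M hp (mrogn_genSpec M) Y red hker y hy0 hyp heig hD

/-- **Frey form of (X2).** -/
theorem mrolf_exit_J_frey (P : FreyPackage) (W : WeierstrassCurve ℤ)
    (hW : W.IsIntegralModelOf P.freyCurve) (M : ℕ) [NeZero M] (hp : P.p.Prime)
    (x : JZero M) (hx : (P.p : ℤ) • x = 0) (hx0 : x ≠ 0)
    (heig : ∀ (ℓ : ℕ) (hℓ : ℓ.Prime), W.IsGoodPrimeFor ℓ → ¬ ℓ ∣ M → ℓ ≠ P.p →
      heckeOperatorBar M ⟨ℓ, hℓ⟩ x = (W.apOfModel ℓ : ℤ) • x) :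
    P.ModularRepOfLevel M :=
  mrol_frey P W hW M (mrolf_exit_J W P.p M hp x hx hx0 heig)

end Fermat.Agent.MR
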