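/-
Program MR, block `mro` (TRANSFER-OUT), leaf (mro-RED), the abstract core (prefix `mror`),
Mathlib only.

* `mror_descent` : GALOIS DESCENT.  `red : J → Jk` onto, `t` an endomorphism of `J` commuting with
  the group `G` and lying over `tk` on `Jk`; `J` divisible; `t` kills `J[p]`; the reductions of
  the `U`-fixed elements lie in a FINITE subgroup `Fk`.  Then for every `U`-fixed `y` with
  `p • red y = 0` some iterate of `tk` kills `red y`.
* `mror_dvd_of_descent` : if moreover `tk (red y) = c • red y` and `red y ≠ 0` then `p ∣ c`.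
* `mror_exists_eigen` : a family of commuting operators on a finite-dimensional `𝔽_p`-space
  such that every product of one-variable polynomial expressions that vanishes on the space
  vanishes at the system `a` has a common eigenvector with the eigenvalues `a`.
-/
import Mathlib

set_option autoImplicit false
set_option linter.unusedSectionVars false
set_option linter.unusedVariables false
set_option linter.style.haveILetI false

noncomputable section

namespace Fermat.Agent.MR

section Descent

variable {J Jk G : Type*} [AddCommGroup J] [AddCommGroup Jk] [Group G] [DistribMulAction G J]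

/-- an endomorphism killing `J[p]` has its `b`-th iterate killing `J[p^b]` -/
theorem mror_iterate_kills (p : ℕ) (t : J →+ J) (ht : ∀ x : J, p • x = 0 → t x = 0) :
    ∀ (b : ℕ) (x : J), p ^ b • x = 0 → t^[b] x = 0 := by
  intro b
  induction b with
  | zero =>
    intro x hx
    rw [pow_zero, one_smul] at hx
    exact hx
  | succ b ih =>
    intro x hx
    rw [Function.iterate_succ_apply]
    apply ih
    have h1 : p • (p ^ b • x) = 0 := by rw [← mul_smul, ← pow_succ']; exact hx
    have h2 := ht _ h1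
    rwa [map_nsmul] at h2

/-- iterates of an equivariant endomorphism are equivariant -/
theorem mror_iterate_smul (t : J →+ J) (hG : ∀ (σ : G) (x : J), t (σ • x) = σ • t x) (σ : G) :
    ∀ (b : ℕ) (x : J), t^[b] (σ • x) = σ • t^[b] x := by
  intro b
  induction b with
  | zero => intro x; rfl
  | succ b ih =>
    intro x
    rw [Function.iterate_succ_apply, Function.iterate_succ_apply, hG, ih]

theorem mror_iterate_map_nsmul (t : J →+ J) (n : ℕ) :
    ∀ (b : ℕ) (x : J), t^[b] (n • x) = n • t^[b] x := by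
  intro b
  induction b with
  | zero => intro x; rfl
  | succ b ih =>
    intro x
    rw [Function.iterate_succ_apply, Function.iterate_succ_apply, map_nsmul, ih]

theorem mror_iterate_sub (t : J →+ J) :
    ∀ (b : ℕ) (x y : J), t^[b] (x - y) = t^[b] x - t^[b] y := by
  intro b
  induction b with
  | zero => intro x y; rfl
  | succ b ih =>
    intro x y
    rw [Function.iterate_succ_apply, Function.iterate_succ_apply, Function.iterate_succ_apply,
      map_sub, ih]

theorem mror_iterate_red (red : J →+ Jk) (t : J →+ J) (tk : Jk →+ Jk)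
    (hcomp : ∀ x, red (t x) = tk (red x)) :
    ∀ (b : ℕ) (x : J), red (t^[b] x) = tk^[b] (red x) := by
  intro b
  induction b with
  | zero => intro x; rfl
  | succ b ih =>
    intro x
    rw [Function.iterate_succ_apply, Function.iterate_succ_apply, ih, hcomp]

/-- **GALOIS DESCENT.** -/
theorem mror_descent (p : ℕ) [hp : Fact p.Prime] (red : J →+ Jk) (t : J →+ J) (tk : Jk →+ Jk)
    (hcomp : ∀ x, red (t x) = tk (red x))
    (hG : ∀ (σ : G) (x : J), t (σ • x) = σ • t x)
    (hdiv : ∀ n : ℕ, 0 < n → ∀ y : J, ∃ z : J, n • z = y)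
    (ht : ∀ x : J, p • x = 0 → t x = 0)
    (y : J) (U : Set G) (hU : ∀ σ ∈ U, σ • y = y)
    (Fk : AddSubgroup Jk) [Finite Fk]
    (hF : ∀ w : J, (∀ σ ∈ U, σ • w = w) → red w ∈ Fk)
    (hpy : p • red y = 0) :
    ∃ b : ℕ, tk^[b] (red y) = 0 := by
  have hcard : Nat.card Fk ≠ 0 := Nat.card_pos.ne'
  obtain ⟨b, h', hh', hcard'⟩ := Nat.exists_eq_pow_mul_and_not_dvd hcard p hp.out.ne_one
  refine ⟨b, ?_⟩
  obtain ⟨z, hz⟩ := hdiv (p ^ b) (pow_pos hp.out.pos b) y
  -- `w = t^b z` is fixed by `U`
  have hfix : ∀ σ ∈ U, σ • t^[b] z = t^[b] z := by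
    intro σ hσ
    have h1 : p ^ b • (σ • z - z) = 0 := by
      rw [smul_sub, ← smul_comm σ (p ^ b) z, hz, hU σ hσ, sub_self]
    have h2 := mror_iterate_kills p t ht b _ h1
    rw [mror_iterate_sub, mror_iterate_smul t hG, sub_eq_zero] at h2
    exact h2
  have hmem := hF _ hfix
  -- the element `v = p^b • red w`
  have e1 : tk^[b] (red y) = p ^ b • red (t^[b] z) := by
    rw [← mror_iterate_red red t tk hcomp, ← hz, mror_iterate_map_nsmul, map_nsmul]
  have hord : Nat.card Fk • red (t^[b] z) = 0 := by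
    have h := card_nsmul_eq_zero' (G := Fk) (x := ⟨red (t^[b] z), hmem⟩)
    have h2 := congrArg Subtype.val h
    rwa [AddSubgroup.coe_nsmul, AddSubgroup.coe_zero] at h2
  have hv1 : h' • (p ^ b • red (t^[b] z)) = 0 := by
    rw [← mul_smul, mul_comm, ← hcard']
    exact hord
  have hv2 : p • (p ^ b • red (t^[b] z)) = 0 := by
    rw [← e1, ← mror_iterate_red red t tk hcomp, ← map_nsmul, ← mror_iterate_map_nsmul,
      mror_iterate_red red t tk hcomp, map_nsmul, hpy]
    exact iterate_map_zero tk b
  rw [e1]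
  -- Bezout
  have hcop : Nat.Coprime p h' := (Nat.Prime.coprime_iff_not_dvd hp.out).2 hh'
  have hb := Nat.gcd_eq_gcd_ab p h'
  rw [hcop.gcd_eq_one] at hb
  set v := p ^ b • red (t^[b] z) with hv
  have h3 : ((1 : ℕ) : ℤ) • v = 0 := by
    rw [hb, add_smul, mul_comm (p : ℤ), mul_comm (h' : ℤ), mul_smul, mul_smul,
      natCast_zsmul, natCast_zsmul, hv2, hv1, smul_zero, smul_zero, add_zero]
  rwa [Nat.cast_one, one_smul] at h3

end Descent

section Dvd

variable {Jk : Type*} [AddCommGroup Jk]

theorem mror_iterate_eigen (tk : Jk →+ Jk) (c : ℤ) (ξ : Jk) (h : tk ξ = c • ξ) :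
    ∀ b : ℕ, tk^[b] ξ = c ^ b • ξ := by
  intro b
  induction b with
  | zero => rw [pow_zero, one_smul]; rfl
  | succ b ih =>
    rw [Function.iterate_succ_apply', ih, map_zsmul, h, ← mul_smul, pow_succ]

/-- if an iterate of `tk` kills the `p`-torsion eigenvector `ξ ≠ 0` then `p` divides the
eigenvalue -/
theorem mror_dvd_of_iterate (p : ℕ) [hp : Fact p.Prime] (tk : Jk →+ Jk) (c : ℤ) (ξ : Jk)
    (h : tk ξ = c • ξ) (hξ : ξ ≠ 0) (hpξ : p • ξ = 0) (b : ℕ) (hb : tk^[b] ξ = 0) :
    (p : ℤ) ∣ c := by
  by_contra hnd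
  rw [mror_iterate_eigen tk c ξ h b] at hb
  have hprime : Prime (p : ℤ) := Nat.prime_iff_prime_int.mp hp.out
  have hcop : IsCoprime (c ^ b) (p : ℤ) := by
    apply IsCoprime.pow_left
    exact ((hprime.coprime_iff_not_dvd).2 hnd).symm
  obtain ⟨u, v, huv⟩ := hcop
  apply hξ
  have : (1 : ℤ) • ξ = 0 := by
    rw [← huv, add_smul, mul_smul, mul_smul, hb, natCast_zsmul, hpξ, smul_zero, smul_zero,
      add_zero]
  rwa [one_smul] at this

end Dvd

section Eigen

open Polynomial Module

variable {p : ℕ} [hp : Fact p.Prime] {V : Type*} [AddCommGroup V] [Module (ZMod p) V]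
  [Module.Finite (ZMod p) V] {ι : Type*}

theorem mror_commute_aeval {R A : Type*} [CommRing R] [Ring A] [Algebra R A] (x y : A)
    (h : Commute x y) (q : R[X]) : Commute (aeval x q) y := by
  induction q using Polynomial.induction_on with
  | C a => rw [aeval_C]; exact Algebra.commute_algebraMap_left a y
  | add p q hp hq => rw [map_add]; exact hp.add_left hq
  | monomial n a ih =>
    rw [map_mul, aeval_C, map_pow, aeval_X]
    exact (Algebra.commute_algebraMap_left a y).mul_left (h.pow_left _)

/-- the cofactor of `(X - a)^m` in the characteristic polynomial maps everything into the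
generalised eigenspace -/
theorem mror_cofactor (T : Module.End (ZMod p) V) (a : ZMod p) :
    ∃ q : (ZMod p)[X], q.eval a ≠ 0 ∧ ∀ v : V, aeval T q v ∈ T.maxGenEigenspace a := by
  have hne : T.charpoly ≠ 0 := (LinearMap.charpoly_monic T).ne_zero
  obtain ⟨q, hq, hnd⟩ := T.charpoly.exists_eq_pow_rootMultiplicity_mul_and_not_dvd hne a
  refine ⟨q, fun h0 => hnd (dvd_iff_isRoot.2 h0), fun v => ?_⟩
  rw [Module.End.mem_maxGenEigenspace]
  refine ⟨T.charpoly.rootMultiplicity a, ?_⟩
  have h1 : aeval T T.charpoly = 0 := LinearMap.aeval_self_charpoly T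
  have h2 : aeval T ((X - C a) ^ T.charpoly.rootMultiplicity a * q) = 0 := by rw [← hq]; exact h1
  rw [map_mul, map_pow, map_sub, aeval_X, aeval_C] at h2
  have h3 := congrArg (fun f : Module.End (ZMod p) V => f v) h2
  simp only [Module.End.mul_apply, LinearMap.zero_apply] at h3
  rw [Algebra.algebraMap_eq_smul_one] at h3
  exact h3

/-- a product of operators `S i` (`i ∈ l`), where `S i` maps into `E i` and preserves every
`E j`, maps into the intersection -/
theorem mror_prod_mem (E : ι → Submodule (ZMod p) V) (S : ι → Module.End (ZMod p) V)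
    (hS : ∀ i v, S i v ∈ E i) (hpres : ∀ i j, ∀ v ∈ E j, S i v ∈ E j) :
    ∀ (l : List ι) (v : V), ∀ i ∈ l, (l.map S).prod v ∈ E i := by
  intro l
  induction l with
  | nil => intro v i hi; simp at hi
  | cons j l ih =>
    intro v i hi
    rw [List.map_cons, List.prod_cons, Module.End.mul_apply]
    rcases List.mem_cons.1 hi with rfl | hi
    · exact hS _ _
    · exact hpres _ _ _ (ih v i hi)

/-- **a common eigenvector** for a commuting family whose relations are satisfied by the system
of eigenvalues `a` -/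
theorem mror_exists_eigen (T : ι → Module.End (ZMod p) V) (hT : ∀ i j, Commute (T i) (T j))
    (a : ι → ZMod p)
    (hann : ∀ (l : List ι) (g : ι → (ZMod p)[X]),
      (l.map fun i => aeval (T i) (g i)).prod = 0 → (l.map fun i => (g i).eval (a i)).prod = 0) :
    ∃ v : V, v ≠ 0 ∧ ∀ i, T i v = a i • v := by
  classical
  -- the generalised eigenspaces
  set E : ι → Submodule (ZMod p) V := fun i => (T i).maxGenEigenspace (a i) with hE
  have hEinv : ∀ i j, ∀ v ∈ E j, T i v ∈ E j := fun i j v hv =>
    Module.End.mapsTo_maxGenEigenspace_of_comm (hT j i) (a j) hv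
  choose q hq0 hqE using fun i => mror_cofactor (T i) (a i)
  have hSpres : ∀ i j, ∀ v ∈ E j, aeval (T i) (q i) v ∈ E j := fun i j v hv =>
    Module.End.mapsTo_maxGenEigenspace_of_comm
      ((mror_commute_aeval (T i) (T j) (hT i j) (q i)).symm) (a j) hv
  -- STEP 1 : a finite intersection of minimal dimension
  let inter : List ι → Submodule (ZMod p) V := fun l => ⨅ i ∈ l, E i
  obtain ⟨l, hl⟩ : ∃ l : List ι, ∀ l' : List ι, finrank (ZMod p) (inter l) ≤
      finrank (ZMod p) (inter l') := by
    have hex : ∃ n : ℕ, ∃ l : List ι, finrank (ZMod p) (inter l) = n := ⟨_, [], rfl⟩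
    obtain ⟨l, hl⟩ := Nat.find_spec hex
    refine ⟨l, fun l' => ?_⟩
    rw [hl]
    exact Nat.find_min' hex ⟨l', rfl⟩
  have hle : ∀ j, inter l ≤ E j := by
    intro j
    have h1 : inter (j :: l) ≤ inter l := by
      apply le_iInf₂
      intro i hi
      exact iInf₂_le i (List.mem_cons_of_mem j hi)
    have h2 : inter (j :: l) = inter l :=
      Submodule.eq_of_le_of_finrank_le h1 (hl (j :: l))
    rw [← h2]
    exact iInf₂_le j (List.mem_cons_self)
  have hmem : ∀ v : V, (l.map fun i => aeval (T i) (q i)).prod v ∈ inter l := by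
    intro v
    refine (Submodule.mem_iInf _).2 fun i => (Submodule.mem_iInf _).2 fun hi => ?_
    exact mror_prod_mem E (fun i => aeval (T i) (q i)) hqE hSpres l v i hi
  have hne : inter l ≠ ⊥ := by
    intro hbot
    have h0 : (l.map fun i => aeval (T i) (q i)).prod = 0 := by
      apply LinearMap.ext
      intro v
      have := hmem v
      rw [hbot, Submodule.mem_bot] at this
      rw [this, LinearMap.zero_apply]
    have h1 := hann l q h0
    rw [List.prod_eq_zero_iff, List.mem_map] at h1
    obtain ⟨i, -, hi⟩ := h1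
    exact hq0 i hi
  -- STEP 2 : an invariant subspace of minimal dimension inside
  have hinv : ∀ i, ∀ v ∈ inter l, T i v ∈ inter l := by
    intro i v hv
    refine (Submodule.mem_iInf _).2 fun j => (Submodule.mem_iInf _).2 fun hj => ?_
    exact hEinv i j v ((Submodule.mem_iInf _).1 ((Submodule.mem_iInf _).1 hv j) hj)
  have hex : ∃ n : ℕ, ∃ W : Submodule (ZMod p) V, W ≠ ⊥ ∧ W ≤ inter l ∧
      (∀ i, ∀ v ∈ W, T i v ∈ W) ∧ finrank (ZMod p) W = n :=
    ⟨_, inter l, hne, le_rfl, hinv, rfl⟩
  obtain ⟨W, hW0, hWle, hWinv, hWn⟩ := Nat.find_spec hex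
  have hmin : ∀ W' : Submodule (ZMod p) V, W' ≠ ⊥ → W' ≤ inter l →
      (∀ i, ∀ v ∈ W', T i v ∈ W') → finrank (ZMod p) W ≤ finrank (ZMod p) W' := by
    intro W' h1 h2 h3
    rw [hWn]
    exact Nat.find_min' hex ⟨W', h1, h2, h3, rfl⟩
  obtain ⟨w, hwW, hw0⟩ := (Submodule.ne_bot_iff W).1 hW0
  refine ⟨w, hw0, fun i => ?_⟩
  -- the kernel of `D = T i - a i` inside `W`
  set D : Module.End (ZMod p) V := T i - a i • (1 : Module.End (ZMod p) V) with hD
  have hDW : ∀ v ∈ W, D v ∈ W := fun v hv => by
    rw [hD, LinearMap.sub_apply, LinearMap.smul_apply, Module.End.one_apply]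
    exact W.sub_mem (hWinv i v hv) (W.smul_mem _ hv)
  have hDpowW : ∀ (k : ℕ), ∀ v ∈ W, (D ^ k) v ∈ W := by
    intro k
    induction k with
    | zero => intro v hv; rwa [pow_zero, Module.End.one_apply]
    | succ k ih =>
      intro v hv
      rw [pow_succ', Module.End.mul_apply]
      exact hDW _ (ih v hv)
  let K : Submodule (ZMod p) V := W ⊓ LinearMap.ker D
  have hK0 : K ≠ ⊥ := by
    have hwE : w ∈ E i := hle i (hWle hwW)
    rw [hE, Module.End.mem_maxGenEigenspace] at hwE
    have hex' : ∃ k : ℕ, (D ^ k) w = 0 := hwE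
    have hk := Nat.find_spec hex'
    have hkpos : Nat.find hex' ≠ 0 := by
      intro h0
      rw [h0, pow_zero, Module.End.one_apply] at hk
      exact hw0 hk
    obtain ⟨k, hk'⟩ := Nat.exists_eq_succ_of_ne_zero hkpos
    have hlt : ¬ (D ^ k) w = 0 := Nat.find_min hex' (by rw [hk']; exact Nat.lt_succ_self k)
    rw [Submodule.ne_bot_iff]
    refine ⟨(D ^ k) w, ⟨hDpowW k w hwW, ?_⟩, hlt⟩
    show D ((D ^ k) w) = 0
    rw [← Module.End.mul_apply, ← pow_succ']
    rw [hk'] at hk
    exact hk
  have hKinv : ∀ j, ∀ v ∈ K, T j v ∈ K := by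
    intro j v hv
    refine ⟨hWinv j v hv.1, ?_⟩
    have hc : Commute D (T j) := by
      rw [hD]
      exact ((hT i j).sub_left (Commute.smul_left (Commute.one_left _) _))
    show D (T j v) = 0
    have hv2 : D v = 0 := hv.2
    rw [← Module.End.mul_apply, hc.eq, Module.End.mul_apply, hv2, map_zero]
  have hKW : K = W :=
    Submodule.eq_of_le_of_finrank_le inf_le_left
      (hmin K hK0 (inf_le_left.trans hWle) hKinv)
  have hwK : w ∈ K := by rw [hKW]; exact hwW
  have h0 : D w = 0 := LinearMap.mem_ker.1 hwK.2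
  rw [hD, LinearMap.sub_apply, LinearMap.smul_apply, Module.End.one_apply, sub_eq_zero] at h0
  exact h0

end Eigen

end Fermat.Agent.MR
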