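/-
Program MR, block `mro` (TRANSFER-OUT), leaf (mro-RED): the ABSTRACT TRANSFER THEOREM
(prefix `mror`), Mathlib + `MR/Out/RedAbs.lean` only.

`mror_transfer` : `red : J → Jk` additive, commuting operators `T i` on `J` lying over operators
`u i` on `Jk` and commuting with a group `G` acting on `J`; `J` divisible, `J[p]` finite; every
`y ∈ J` is fixed by a subset `U ⊆ G` such that the reductions of the `U`-fixed elements lie in a
FINITE subgroup of `Jk` (descent datum: open subgroup + Frobenius power).  Then every system of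
eigenvalues `a` of the `u i` on a non-zero `p`-torsion class `ξ = red y` of `Jk` is a system of
eigenvalues of the `T i` on a non-zero class of `J[p]`.  NO surjectivity of `red` on `p`-torsion.
-/
import Fermat.Agent.MR.Out.RedAbs

set_option autoImplicit false
set_option linter.unusedSectionVars false
set_option linter.unusedVariables false
set_option linter.style.haveILetI false

noncomputable section

namespace Fermat.Agent.MR

open Polynomial

section Poly

variable {J Jk G : Type*} [AddCommGroup J] [AddCommGroup Jk] [Group G] [DistribMulAction G J]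

theorem mror_aeval_succ {R₀ R : Type*} [CommRing R₀] [Ring R] [Algebra R₀ R] (T : R) (c : R₀)
    (n : ℕ) : aeval T (C c * X ^ (n + 1)) = aeval T (C c * X ^ n) * T := by
  rw [pow_succ, ← mul_assoc, map_mul (aeval T) (C c * X ^ n) X, aeval_X]

/-- polynomial expressions in operators lying over each other lie over each other -/
theorem mror_aeval_red (red : J →+ Jk) (T : AddMonoid.End J) (u : AddMonoid.End Jk)
    (hcomp : ∀ x, red (T x) = u (red x)) (q : ℤ[X]) (x : J) :
    red (aeval T q x) = aeval u q (red x) := by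
  induction q using Polynomial.induction_on generalizing x with
  | C c =>
    rw [aeval_C, aeval_C, eq_intCast, eq_intCast]
    show red (c • x) = c • red x
    exact map_zsmul red c x
  | add q r hq hr =>
    rw [map_add, map_add]
    show red (aeval T q x + aeval T r x) = aeval u q (red x) + aeval u r (red x)
    rw [map_add, hq, hr]
  | monomial n c ih =>
    rw [mror_aeval_succ, mror_aeval_succ]
    show red (aeval T (C c * X ^ n) (T x)) = aeval u (C c * X ^ n) (u (red x))
    rw [ih, hcomp]

/-- polynomial expressions in an operator commuting with the group action commute with it -/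
theorem mror_aeval_smul (T : AddMonoid.End J) (hG : ∀ (σ : G) (x : J), T (σ • x) = σ • T x)
    (q : ℤ[X]) (σ : G) (x : J) : aeval T q (σ • x) = σ • aeval T q x := by
  induction q using Polynomial.induction_on generalizing x with
  | C c =>
    rw [aeval_C, eq_intCast]
    show c • (σ • x) = σ • (c • x)
    rw [smul_comm]
  | add q r hq hr =>
    rw [map_add]
    show aeval T q (σ • x) + aeval T r (σ • x) = σ • (aeval T q x + aeval T r x)
    rw [hq, hr, smul_add]
  | monomial n c ih =>
    rw [mror_aeval_succ]
    show aeval T (C c * X ^ n) (T (σ • x)) = σ • aeval T (C c * X ^ n) (T x)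
    rw [hG, ih]

/-- a polynomial expression in an operator acts on an eigenvector through the value of the
polynomial at the eigenvalue -/
theorem mror_aeval_eigen (u : AddMonoid.End Jk) (a : ℤ) (ξ : Jk) (h : u ξ = a • ξ) (q : ℤ[X]) :
    aeval u q ξ = q.eval a • ξ := by
  induction q using Polynomial.induction_on with
  | C c =>
    rw [aeval_C, eq_intCast, eval_C]
    rfl
  | add q r hq hr =>
    rw [map_add, eval_add, add_smul, ← hq, ← hr]
    rfl
  | monomial n c ih =>
    rw [mror_aeval_succ, pow_succ, ← mul_assoc, eval_mul, eval_X]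
    show aeval u (C c * X ^ n) (u ξ) = _
    rw [h, map_zsmul, ih, smul_smul, mul_comm]

end Poly

section Lists

variable {J Jk G ι : Type*} [AddCommGroup J] [AddCommGroup Jk] [Group G] [DistribMulAction G J]

theorem mror_prod_red (red : J →+ Jk) (T : ι → AddMonoid.End J) (u : ι → AddMonoid.End Jk)
    (hcomp : ∀ i x, red (T i x) = u i (red x)) (q : ι → ℤ[X]) :
    ∀ (l : List ι) (x : J), red ((l.map fun i => aeval (T i) (q i)).prod x) =
      (l.map fun i => aeval (u i) (q i)).prod (red x) := by
  intro l
  induction l with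
  | nil => intro x; rfl
  | cons i l ih =>
    intro x
    rw [List.map_cons, List.prod_cons, List.map_cons, List.prod_cons]
    show red (aeval (T i) (q i) ((l.map fun i => aeval (T i) (q i)).prod x)) =
      aeval (u i) (q i) ((l.map fun i => aeval (u i) (q i)).prod (red x))
    rw [mror_aeval_red red (T i) (u i) (hcomp i), ih]

theorem mror_prod_smul (T : ι → AddMonoid.End J)
    (hG : ∀ i (σ : G) (x : J), T i (σ • x) = σ • T i x) (q : ι → ℤ[X]) (σ : G) :
    ∀ (l : List ι) (x : J), (l.map fun i => aeval (T i) (q i)).prod (σ • x) =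
      σ • (l.map fun i => aeval (T i) (q i)).prod x := by
  intro l
  induction l with
  | nil => intro x; rfl
  | cons i l ih =>
    intro x
    rw [List.map_cons, List.prod_cons]
    show aeval (T i) (q i) ((l.map fun i => aeval (T i) (q i)).prod (σ • x)) =
      σ • aeval (T i) (q i) ((l.map fun i => aeval (T i) (q i)).prod x)
    rw [ih, mror_aeval_smul (T i) (hG i)]

theorem mror_prod_eigen (u : ι → AddMonoid.End Jk) (a : ι → ℤ) (ξ : Jk)
    (h : ∀ i, u i ξ = a i • ξ) (q : ι → ℤ[X]) :
    ∀ l : List ι, (l.map fun i => aeval (u i) (q i)).prod ξ =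
      (l.map fun i => (q i).eval (a i)).prod • ξ := by
  intro l
  induction l with
  | nil => rw [List.map_nil, List.prod_nil, List.map_nil, List.prod_nil, one_smul]; rfl
  | cons i l ih =>
    rw [List.map_cons, List.prod_cons, List.map_cons, List.prod_cons]
    show aeval (u i) (q i) ((l.map fun i => aeval (u i) (q i)).prod ξ) = _
    rw [ih, map_zsmul, mror_aeval_eigen (u i) (a i) ξ (h i), smul_smul, mul_comm]

end Lists

section Coe

variable {p : ℕ} {J V : Type*} [AddCommGroup J] [AddCommGroup V] [Module (ZMod p) V]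

/-- polynomial expressions over `ZMod p` in an operator of a `ZMod p`-module `V` mapping to `J`,
versus integral lifts -/
theorem mror_aeval_coe (incl : V →+ J) (S : Module.End (ZMod p) V) (T : AddMonoid.End J)
    (h : ∀ v, incl (S v) = T (incl v)) (r : ℤ[X]) (v : V) :
    incl (aeval S (r.map (Int.castRingHom (ZMod p))) v) = aeval T r (incl v) := by
  induction r using Polynomial.induction_on generalizing v with
  | C c =>
    rw [Polynomial.map_C, aeval_C, aeval_C, eq_intCast, eq_intCast,
      Algebra.algebraMap_eq_smul_one, LinearMap.smul_apply, Module.End.one_apply,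
      Int.cast_smul_eq_zsmul, map_zsmul]
    rfl
  | add q r hq hr =>
    rw [Polynomial.map_add, map_add, map_add, LinearMap.add_apply, map_add, hq, hr]
    rfl
  | monomial n c ih =>
    rw [Polynomial.map_mul, Polynomial.map_pow, Polynomial.map_X, Polynomial.map_C,
      mror_aeval_succ, mror_aeval_succ, Module.End.mul_apply]
    have ih' := ih (S v)
    rw [Polynomial.map_mul, Polynomial.map_pow, Polynomial.map_X, Polynomial.map_C] at ih'
    rw [ih', h]
    rfl

theorem mror_prod_coe {ι : Type*} (incl : V →+ J) (S : ι → Module.End (ZMod p) V)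
    (T : ι → AddMonoid.End J) (h : ∀ i v, incl (S i v) = T i (incl v)) (q : ι → ℤ[X]) :
    ∀ (l : List ι) (v : V),
      incl ((l.map fun i => aeval (S i) ((q i).map (Int.castRingHom (ZMod p)))).prod v) =
        (l.map fun i => aeval (T i) (q i)).prod (incl v) := by
  intro l
  induction l with
  | nil => intro v; rfl
  | cons i l ih =>
    intro v
    rw [List.map_cons, List.prod_cons, List.map_cons, List.prod_cons, Module.End.mul_apply,
      mror_aeval_coe incl (S i) (T i) (h i), ih]
    rfl

end Coe

section Transfer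

variable {J Jk G ι : Type*} [AddCommGroup J] [AddCommGroup Jk] [Group G] [DistribMulAction G J]

/-- the `p`-torsion subgroup -/
def mrorTors (J : Type*) [AddCommGroup J] (p : ℕ) : AddSubgroup J where
  carrier := {x | p • x = 0}
  zero_mem' := smul_zero p
  add_mem' := fun {x y} hx hy => by
    show p • (x + y) = 0
    rw [smul_add, hx, hy, add_zero]
  neg_mem' := fun {x} hx => by
    show p • (-x) = 0
    rw [smul_neg, hx, neg_zero]

theorem mror_mem_tors {p : ℕ} {x : J} : x ∈ mrorTors J p ↔ p • x = 0 := Iff.rfl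

/-- the transfer theorem with the `p`-torsion presented as a `ZMod p`-module `V` -/
theorem mror_transfer_aux (p : ℕ) [hp : Fact p.Prime] {V : Type*} [AddCommGroup V]
    [Module (ZMod p) V] [Module.Finite (ZMod p) V] (incl : V →+ J)
    (hinj : Function.Injective incl) (hrange : ∀ x : J, p • x = 0 → ∃ v, incl v = x)
    (red : J →+ Jk)
    (T : ι → J →+ J) (u : ι → Jk →+ Jk) (S : ι → Module.End (ZMod p) V)
    (hS : ∀ i v, incl (S i v) = T i (incl v))
    (hTT : ∀ i j x, p • x = 0 → T i (T j x) = T j (T i x))
    (hcomp : ∀ i x, red (T i x) = u i (red x))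
    (hG : ∀ i (σ : G) x, T i (σ • x) = σ • T i x)
    (hdiv : ∀ n : ℕ, 0 < n → ∀ y : J, ∃ z : J, n • z = y)
    (hdesc : ∀ y : J, ∃ (U : Set G) (Fk : AddSubgroup Jk), Finite Fk ∧ (∀ σ ∈ U, σ • y = y) ∧
      ∀ w : J, (∀ σ ∈ U, σ • w = w) → red w ∈ Fk)
    (a : ι → ℤ) (y : J) (hξ : red y ≠ 0) (hpξ : p • red y = 0)
    (heig : ∀ i, u i (red y) = a i • red y) :
    ∃ x : J, x ≠ 0 ∧ p • x = 0 ∧ ∀ i, T i x = a i • x := by
  classical
  have hcommute : ∀ i j, Commute (S i) (S j) := by
    intro i j
    apply LinearMap.ext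
    intro v
    apply hinj
    show incl (S i (S j v)) = incl (S j (S i v))
    rw [hS, hS, hS, hS]
    refine hTT i j (incl v) ?_
    have : p • v = 0 := by
      rw [← Nat.cast_smul_eq_nsmul (ZMod p), ZMod.natCast_self, zero_smul]
    rw [← map_nsmul, this, map_zero]
  obtain ⟨v, hv0, hv⟩ := mror_exists_eigen S hcommute (fun i => ((a i : ℤ) : ZMod p)) (by
    intro l g h0
    have hsurj : ∀ i, ∃ q : ℤ[X], q.map (Int.castRingHom (ZMod p)) = g i := fun i =>
      Polynomial.map_surjective _ (ZMod.intCast_surjective) (g i)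
    choose q hq using hsurj
    have hg : g = fun i => (q i).map (Int.castRingHom (ZMod p)) := funext fun i => (hq i).symm
    subst hg
    -- the integral operators
    let T' : ι → AddMonoid.End J := T
    let u' : ι → AddMonoid.End Jk := u
    set t : AddMonoid.End J := (l.map fun i => aeval (T' i) (q i)).prod with ht
    set tk : AddMonoid.End Jk := (l.map fun i => aeval (u' i) (q i)).prod with htk
    set c : ℤ := (l.map fun i => (q i).eval (a i)).prod with hc
    have h1 : ∀ x, red (t x) = tk (red x) := mror_prod_red red T u hcomp q l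
    have h2 : ∀ (σ : G) (x : J), t (σ • x) = σ • t x := fun σ x => mror_prod_smul T hG q σ l x
    have h3 : ∀ x : J, p • x = 0 → t x = 0 := by
      intro x hx
      obtain ⟨w, rfl⟩ := hrange x hx
      have := mror_prod_coe incl S T' hS q l w
      rw [h0] at this
      rw [ht, ← this]
      exact map_zero incl
    have h4 : tk (red y) = c • red y := mror_prod_eigen u a (red y) heig q l
    obtain ⟨U, Fk, hFk, hU, hF⟩ := hdesc y
    obtain ⟨b, hb⟩ := mror_descent p red t tk h1 h2 hdiv h3 y U hU Fk hF hpξ
    have hdvd : (p : ℤ) ∣ c := mror_dvd_of_iterate p tk c (red y) h4 hξ hpξ b hb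
    have hc0 : ((c : ℤ) : ZMod p) = 0 := (ZMod.intCast_zmod_eq_zero_iff_dvd c p).2 hdvd
    have hcast : ((c : ℤ) : ZMod p) =
        (l.map fun i => ((q i).map (Int.castRingHom (ZMod p))).eval ((a i : ℤ) : ZMod p)).prod := by
      rw [hc, ← eq_intCast (Int.castRingHom (ZMod p)), map_list_prod, List.map_map]
      congr 1
      apply List.map_congr_left
      intro i _
      show (Int.castRingHom (ZMod p)) ((q i).eval (a i)) = _
      rw [Polynomial.eval_map, ← eq_intCast (Int.castRingHom (ZMod p)) (a i),
        Polynomial.eval₂_at_apply]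
    rw [← hcast]
    exact hc0)
  refine ⟨incl v, fun h => hv0 (hinj (h.trans (map_zero incl).symm)), ?_, fun i => ?_⟩
  · rw [← map_nsmul]
    have : p • v = 0 := by
      rw [← Nat.cast_smul_eq_nsmul (ZMod p), ZMod.natCast_self, zero_smul]
    rw [this, map_zero]
  · rw [← hS, hv i, Int.cast_smul_eq_zsmul, map_zsmul]

/-- **THE ABSTRACT TRANSFER THEOREM.** -/
theorem mror_transfer (p : ℕ) [hp : Fact p.Prime] (red : J →+ Jk)
    (T : ι → J →+ J) (u : ι → Jk →+ Jk)
    (hTT : ∀ i j x, p • x = 0 → T i (T j x) = T j (T i x))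
    (hcomp : ∀ i x, red (T i x) = u i (red x))
    (hG : ∀ i (σ : G) x, T i (σ • x) = σ • T i x)
    (hdiv : ∀ n : ℕ, 0 < n → ∀ y : J, ∃ z : J, n • z = y)
    (hfin : Finite (mrorTors J p))
    (hdesc : ∀ y : J, ∃ (U : Set G) (Fk : AddSubgroup Jk), Finite Fk ∧ (∀ σ ∈ U, σ • y = y) ∧
      ∀ w : J, (∀ σ ∈ U, σ • w = w) → red w ∈ Fk)
    (a : ι → ℤ) (y : J) (hξ : red y ≠ 0) (hpξ : p • red y = 0)
    (heig : ∀ i, u i (red y) = a i • red y) :
    ∃ x : J, x ≠ 0 ∧ p • x = 0 ∧ ∀ i, T i x = a i • x := by
  have hJp : ∀ v : mrorTors J p, p • v = 0 := fun v => Subtype.ext v.2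
  exact @mror_transfer_aux J Jk G ι _ _ _ _ p hp (mrorTors J p) _
    (AddCommGroup.zmodModule hJp)
    (@Module.Finite.of_finite (ZMod p) (mrorTors J p) _ _ (AddCommGroup.zmodModule hJp) hfin)
    (mrorTors J p).subtype Subtype.val_injective (fun x hx => ⟨⟨x, hx⟩, rfl⟩) red T u
    (fun i => @AddMonoidHom.toZModLinearMap p (mrorTors J p) (mrorTors J p) _ _
      (AddCommGroup.zmodModule hJp) (AddCommGroup.zmodModule hJp)
      (((T i).comp (mrorTors J p).subtype).codRestrict (mrorTors J p) (fun v => by
        show p • T i v = 0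
        rw [← map_nsmul, v.2, map_zero])))
    (fun i v => rfl) hTT hcomp hG hdiv hdesc a y hξ hpξ heig

/-- **THE ABSTRACT TRANSFER THEOREM, KERNEL FORM** : no operator on `Jk`; the `T i` preserve
`ker red` and `red y` is an eigenvector in the sense `red (T i y) = a i • red y`. -/
theorem mror_transfer_ker (p : ℕ) [hp : Fact p.Prime] (red : J →+ Jk)
    (T : ι → J →+ J)
    (hTT : ∀ i j x, p • x = 0 → T i (T j x) = T j (T i x))
    (hker : ∀ i w, red w = 0 → red (T i w) = 0)
    (hG : ∀ i (σ : G) x, T i (σ • x) = σ • T i x)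
    (hdiv : ∀ n : ℕ, 0 < n → ∀ y : J, ∃ z : J, n • z = y)
    (hfin : Finite (mrorTors J p))
    (hdesc : ∀ y : J, ∃ (U : Set G) (Fk : AddSubgroup Jk), Finite Fk ∧ (∀ σ ∈ U, σ • y = y) ∧
      ∀ w : J, (∀ σ ∈ U, σ • w = w) → red w ∈ Fk)
    (a : ι → ℤ) (y : J) (hξ : red y ≠ 0) (hpξ : p • red y = 0)
    (heig : ∀ i, red (T i y) = a i • red y) :
    ∃ x : J, x ≠ 0 ∧ p • x = 0 ∧ ∀ i, T i x = a i • x := by
  classical
  let red' : J →+ J ⧸ red.ker := QuotientAddGroup.mk' red.ker
  let u : ι → (J ⧸ red.ker) →+ (J ⧸ red.ker) := fun i =>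
    QuotientAddGroup.map red.ker red.ker (T i) (fun w hw => hker i w hw)
  have hred' : ∀ w : J, red' w = 0 ↔ red w = 0 := fun w =>
    (QuotientAddGroup.eq_zero_iff w).trans AddMonoidHom.mem_ker
  refine mror_transfer (G := G) p red' T u hTT (fun i x => rfl) hG hdiv hfin ?_ a y ?_ ?_ ?_
  · intro y
    obtain ⟨U, Fk, hFk, hU, hF⟩ := hdesc y
    refine ⟨U, Fk.comap (QuotientAddGroup.kerLift red), ?_, hU, fun w hw => ?_⟩
    · haveI := hFk
      let g : ↥(Fk.comap (QuotientAddGroup.kerLift red)) → ↥Fk :=
        fun z => ⟨QuotientAddGroup.kerLift red z.1, z.2⟩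
      have hg : Function.Injective g := by
        intro z z' hzz
        apply Subtype.ext
        exact QuotientAddGroup.kerLift_injective red (congrArg Subtype.val hzz)
      exact Finite.of_injective g hg
    · show QuotientAddGroup.kerLift red (red' w) ∈ Fk
      exact hF w hw
  · intro h
    exact hξ ((hred' y).1 h)
  · rw [← map_nsmul, hred', map_nsmul]
    exact hpξ
  · intro i
    show red' (T i y) = a i • red' y
    rw [← map_zsmul, ← sub_eq_zero, ← map_sub, hred', map_sub, map_zsmul, heig, sub_self]

end Transfer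

end Fermat.Agent.MR
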