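import Fermat.Agent.MR.Out.RedSpec
import Fermat.Agent.G.Red.Spec
import Fermat.Agent.FF.GenusEq

/-!
# Program MR, block `mro` (TRANSFER-OUT), leaf (mro-RED): the KUMMER CLASS of a function whose
divisor is divisible by `n` (helper15)

Prefix `mroc`.

* `mroc_kummer_class` (abstract: `F / K` any function field with the Riemann–Roch package
  `V27RR K F g`, `K` algebraically closed): for `ψ ≠ 0` with `n ∣ ord_Q ψ` for all `Q` there is
  `D ∈ Div⁰` with `n D = div ψ`, `n • [D] = 0`, and `[D] = 0 ⟹ ψ = c hⁿ`;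
* `mroc_class_of_rr : V27RR k F_k(M) g → MrorClassSpec M 𝔸`;
* `mroc_class : ¬ p ∣ M → 𝔸.LiesOverPrime p → (p < 5 → (5 - p) ∣ M) → MrorClassSpec M 𝔸`
  (Riemann–Roch on the special fibre = main's `ffg_rr_modL'`).
-/

set_option autoImplicit false
set_option linter.unusedSectionVars false
set_option linter.unusedVariables false
set_option linter.style.haveILetI false
set_option synthInstance.maxHeartbeats 400000

noncomputable section

namespace Fermat.Agent.MR

open ModularCurve AlgebraicCurve IsLocalRing Fermat.Agent.S24 Fermat.Agent.G Fermat.Agent.V.RR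

local notation "Qb" => AlgebraicClosure ℚ

section Abstract

variable {K F : Type*} [Field K] [Field F] [Algebra K F]

/-- a function without zeros and poles is a constant (`K` algebraically closed, `L(0) = K`). -/
theorem mroc_const_of_ord_zero [IsAlgClosed K] {g : ℕ} (R : V27RR K F g) {f : F}
    (hf : ∀ Q : Place K F, Q.ord f = 0) : ∃ c : K, f = algebraMap K F c := by
  haveI : HasPrincipalDivisors K F := R.hasDiv
  have hmem : f ∈ riemannRochSpace (0 : Divisor K F) := by
    rw [mem_riemannRochSpace_iff]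
    intro v
    right
    rw [hf v]
    simp
  obtain ⟨c, hc⟩ := v27rr_mem_rrSpace_zero R.res R.place
    (fun x hx => v27rr_halg_of_isAlgClosed x hx) hmem
  exact ⟨c, hc.symm⟩

/-- THE KUMMER CLASS `[div ψ / n]`. -/
theorem mroc_kummer_class [IsAlgClosed K] {g : ℕ} (R : V27RR K F g) (n : ℕ) (ψ : F)
    (hn : 0 < n) (hψ : ψ ≠ 0) (hdvd : ∀ Q : Place K F, (n : ℤ) ∣ Q.ord ψ) :
    ∃ Dk : Divisor.degZero (K := K) (F := F),
      (∀ Q, (n : ℤ) * (Dk : Divisor K F) Q = Q.ord ψ) ∧
      (n • (Pic0.mk Dk : Pic0 K F) = 0) ∧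
      ((Pic0.mk Dk : Pic0 K F) = 0 → ∃ (c : K) (h : F), ψ = algebraMap K F c * h ^ n) := by
  classical
  haveI : HasPrincipalDivisors K F := R.hasDiv
  have hn0 : (n : ℤ) ≠ 0 := by exact_mod_cast hn.ne'
  obtain ⟨D, hD, hdeg⟩ := HasPrincipalDivisors.exists_divisor (K := K) ψ hψ
  let E : Divisor K F := Finsupp.mapRange (fun z : ℤ => z / (n : ℤ)) (by simp) D
  have hE : ∀ Q, (n : ℤ) * E Q = Q.ord ψ := fun Q => by
    show (n : ℤ) * (Finsupp.mapRange (fun z : ℤ => z / (n : ℤ)) (by simp) D) Q = _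
    rw [Finsupp.mapRange_apply, hD, Int.mul_ediv_cancel' (hdvd Q)]
  have hnE : n • E = D := by
    ext Q
    rw [Finsupp.smul_apply, nsmul_eq_mul, hE, hD]
  have hE0 : E ∈ Divisor.degZero (K := K) (F := F) := by
    rw [Divisor.mem_degZero]
    have h1 : n • Divisor.degree E = 0 := by rw [← map_nsmul, hnE, hdeg]
    rw [nsmul_eq_mul] at h1
    exact (mul_eq_zero.mp h1).resolve_left hn0
  refine ⟨⟨E, hE0⟩, hE, ?_, ?_⟩
  · show n • (QuotientAddGroup.mk (⟨E, hE0⟩ : Divisor.degZero (K := K) (F := F)) : Pic0 K F) = 0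
    rw [← QuotientAddGroup.mk_nsmul, QuotientAddGroup.eq_zero_iff, AddSubgroup.mem_addSubgroupOf,
      AddSubgroupClass.coe_nsmul]
    show n • E ∈ Divisor.principal (K := K) (F := F)
    rw [hnE]
    exact ⟨ψ, hψ, hD⟩
  · intro h0
    have h1 : (⟨E, hE0⟩ : Divisor.degZero (K := K) (F := F)) ∈
        (Divisor.principal (K := K) (F := F)).addSubgroupOf
          (Divisor.degZero (K := K) (F := F)) := (QuotientAddGroup.eq_zero_iff _).mp h0
    rw [AddSubgroup.mem_addSubgroupOf] at h1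
    obtain ⟨h, hh0, hh⟩ := h1
    have hhn0 : h ^ n ≠ 0 := pow_ne_zero n hh0
    have hord : ∀ Q : Place K F, Q.ord (ψ * (h ^ n)⁻¹) = 0 := by
      intro Q
      rw [Q.ord_mul hψ (inv_ne_zero hhn0), Q.ord_inv, ← zpow_natCast, Q.ord_zpow, ← hE Q,
        ← hh Q]
      show (n : ℤ) * E Q + -((n : ℤ) * E Q) = 0
      ring
    obtain ⟨c, hc⟩ := mroc_const_of_ord_zero R hord
    refine ⟨c, h, ?_⟩
    rw [← hc, mul_assoc, inv_mul_cancel₀ hhn0, mul_one]

end Abstract

section Modular

variable (M : ℕ) [NeZero M] {p : ℕ} [Fact p.Prime] (A : ValuationSubring Qb)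

/-- `MrorClassSpec` from Riemann–Roch on the special fibre. -/
theorem mroc_class_of_rr {g : ℕ}
    (R : V27RR (ResidueField A) (modularFunctionFieldFullC (ResidueField A) M) g) :
    MrorClassSpec M A := by
  haveI : IsAlgClosed (ResidueField A) := grd_isAlgClosed_residue A
  intro n ψ hn hψ hdvd
  exact mroc_kummer_class R n ψ hn hψ hdvd

/-- **`MrorClassSpec`** for `p ∤ M`, `𝔸` over `p`, `5 ≤ p` or `(5 - p) ∣ M`. -/
theorem mroc_class (hpM : ¬ p ∣ M) (hA : A.LiesOverPrime p) (hsmall : p < 5 → (5 - p) ∣ M) :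
    MrorClassSpec M A :=
  mroc_class_of_rr M A
    (Fermat.Agent.FF.ffg_rr_modL' M A hpM hA (grd_reductionInputs_dvd M A hpM hA hsmall))

end Modular

end Fermat.Agent.MR
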