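import Fermat.Agent.MR.Out.RedGalFrob
import Fermat.Agent.G.Open.Main
import Fermat.Agent.S54.ExistsFrobenius

/-!
# Program MR, block `mro`, leaf (mro-RED): THE DESCENT DATUM (helper5, prefix `mror`)

`mror_desc` : for `p ≥ 5`, `p ∤ M`, `𝔸` over `p`: every `y ∈ J₀(M)(ℚ̄)` is fixed by a power
`σ ^ m`, `m > 0`, of a Frobenius element `σ` at `𝔸`, and the reductions of the classes fixed by
`σ ^ m` lie in the FINITE group of the classes of `Pic⁰(F_k(M))` fixed by the `p ^ m`-Frobenius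
(helper4 `mrog_red_mem_fix`, helper14/helper4 `mrog_fix_finite`).  This is the hypothesis `hdesc`
of `mror_transfer`.
-/

set_option autoImplicit false
set_option linter.unusedSectionVars false
set_option linter.unusedVariables false
set_option linter.style.haveILetI false
set_option synthInstance.maxHeartbeats 400000

noncomputable section

namespace Fermat.Agent.MR

open ModularCurve AlgebraicCurve IsLocalRing Fermat.Agent.G Fermat.Agent.S18

local notation "Qb" => AlgebraicClosure ℚ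

/-- a power `σ ^ m`, `m > 0`, of any automorphism fixes a given finite extension pointwise. -/
theorem mror_exists_pow_mem_fixing (σ : Qb ≃ₐ[ℚ] Qb) (E : IntermediateField ℚ Qb)
    [FiniteDimensional ℚ E] : ∃ m : ℕ, 0 < m ∧ σ ^ m ∈ E.fixingSubgroup := by
  classical
  haveI : Finite (E →ₐ[ℚ] Qb) := inferInstance
  let f : ℕ → (E →ₐ[ℚ] Qb) := fun i => ((σ ^ i : Qb ≃ₐ[ℚ] Qb) : Qb →ₐ[ℚ] Qb).comp E.val
  obtain ⟨i, j, hij, hf⟩ := Finite.exists_ne_map_eq_of_infinite f
  -- wlog `i < j`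
  have key : ∀ i j : ℕ, i < j → f i = f j → ∃ m : ℕ, 0 < m ∧ σ ^ m ∈ E.fixingSubgroup := by
    intro i j hlt hf
    refine ⟨j - i, Nat.sub_pos_of_lt hlt, ?_⟩
    rw [IntermediateField.mem_fixingSubgroup_iff]
    intro e he
    have h1 : (σ ^ i) e = (σ ^ j) e := by
      have := congrArg (fun g : E →ₐ[ℚ] Qb => g ⟨e, he⟩) hf
      exact this
    have h2 : σ ^ j = σ ^ i * σ ^ (j - i) := by
      rw [← pow_add, Nat.add_sub_cancel' hlt.le]
    rw [h2, AlgEquiv.mul_apply] at h1
    exact ((σ ^ i).injective h1).symm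
  rcases lt_or_gt_of_ne hij with h | h
  · exact key i j h hf
  · exact key j i h hf.symm

variable (M : ℕ) [NeZero M] {p : ℕ} [Fact p.Prime] (A : ValuationSubring Qb)

/-- **THE DESCENT DATUM.** -/
theorem mror_desc (hpM : ¬ p ∣ M) (h5 : 5 ≤ p) (hA : A.LiesOverPrime p) (y : JZero M) :
    ∃ (U : Set (Qb ≃ₐ[ℚ] Qb)) (Fk : AddSubgroup (JZeroC (ResidueField A) M)),
      Finite Fk ∧ (∀ σ ∈ U, σ • y = y) ∧
      ∀ w : JZero M, (∀ σ ∈ U, σ • w = w) → reductionModL A M w ∈ Fk := by
  haveI : CharP (ResidueField A) p := s18ac_charP A hA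
  haveI : PerfectRing (ResidueField A) p := ghr_perfectRing_residueField A
  obtain ⟨σ, hσ⟩ := Fermat.Agent.S54.exists_isFrobeniusAt_algebraicClosure A
    (Fact.out : p.Prime) hA
  obtain ⟨E, hE, hfix⟩ := gop_exists_fixing (N := M) y
  haveI := hE
  obtain ⟨m, hm, hmem⟩ := mror_exists_pow_mem_fixing σ E
  refine ⟨{σ ^ m}, mrofFix ((ghrFrob (k := ResidueField A) M p) ^ m),
    mrog_fix_finite A M hpM h5 hA hm, ?_, ?_⟩
  · intro τ hτ
    rw [Set.mem_singleton_iff] at hτ
    subst hτ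
    exact hfix _ hmem
  · intro w hw
    exact mrog_red_mem_fix A M σ hσ m w (hw _ (Set.mem_singleton _))

end Fermat.Agent.MR
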