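import Fermat.Agent.MR.Out.RedPull
import Fermat.Agent.MR.Hecke.Spec
import Fermat.Agent.G.Red.Lift
import Fermat.Agent.G.FF.Main
import Fermat.Agent.G.FF.Class

/-!
# Program MR, block `mro`, leaf (mro-RED): (A) and (B) FROM (L-div) (helper5, prefix `mror`)

`ℓ` a prime, `r = placeReductionModL`, `T^div = heckeDivBar = α_* β^*`.

* `mror_core` : if `n r_* D = div x̄` (`x` in the Gauss ring, `x̄ ≠ 0`) then
  `n r_* (T^div D) = div (T̄_ℓ x̄)`; inputs: (L-div) `MrorDivKerSpec`, the function form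
  `MrhHeckeFunSpec` (helper6/helper18), the norm formula in characteristic `0` (main);
* `mror_kerStable` : **(A)** `MrorKerStableSpec`;
* `mror_eigen` : **(B)** `MrorEigenSpec`.
-/

set_option autoImplicit false
set_option linter.unusedSectionVars false
set_option linter.unusedVariables false
set_option linter.style.haveILetI false
set_option synthInstance.maxHeartbeats 400000

noncomputable section

namespace Fermat.Agent.MR

open ModularCurve AlgebraicCurve IsLocalRing Fermat.Agent.G Fermat.Agent.S18 Fermat.Agent.S24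
  Fermat.Agent.FF Fermat.Agent.SS HahnSeries

local notation "Qb" => AlgebraicClosure ℚ

variable (M ℓ : ℕ) [NeZero M] [NeZero ℓ] (A : ValuationSubring Qb)

/-- `T̄_ℓ` on functions is the norm along `α_k` of `β_k`. -/
theorem mraTbar_eq (ψ : modularFunctionFieldFullC (ResidueField A) M) :
    mraTbar (ResidueField A) M ℓ ψ =
      mrhNorm (ssvmdIncl (ResidueField A) M ℓ) (ssvmfPhi (ResidueField A) M ℓ ψ) := rfl

/-- `T̄_ℓ` is multiplicative. -/
theorem mraTbar_mul (ψ ψ' : modularFunctionFieldFullC (ResidueField A) M) :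
    mraTbar (ResidueField A) M ℓ (ψ * ψ') =
      mraTbar (ResidueField A) M ℓ ψ * mraTbar (ResidueField A) M ℓ ψ' := by
  unfold mraTbar
  rw [map_mul, map_mul]

theorem mraTbar_one : mraTbar (ResidueField A) M ℓ 1 = 1 := by
  unfold mraTbar
  rw [map_one, map_one]

theorem mraTbar_pow (ψ : modularFunctionFieldFullC (ResidueField A) M) (n : ℕ) :
    mraTbar (ResidueField A) M ℓ (ψ ^ n) = mraTbar (ResidueField A) M ℓ ψ ^ n := by
  unfold mraTbar
  rw [map_pow, map_pow]

/-- `T̄_ℓ ψ ≠ 0` for `ψ ≠ 0` (finite extension). -/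
theorem mraTbar_ne_zero (hfink : FiniteAlong (ResidueField A) (ssvmdIncl (ResidueField A) M ℓ))
    {ψ : modularFunctionFieldFullC (ResidueField A) M} (hψ : ψ ≠ 0) :
    mraTbar (ResidueField A) M ℓ ψ ≠ 0 := by
  unfold mraTbar
  letI := algebraAlong (ssvmdIncl (ResidueField A) M ℓ)
  haveI : Module.Finite (modularFunctionFieldFullC (ResidueField A) M)
    (modularFunctionFieldFullC (ResidueField A) (M * ℓ)) := hfink
  exact Algebra.norm_ne_zero_iff.2 ((_root_.map_ne_zero _).2 hψ)

section Core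

variable (hM : ReductionInputsModL A M)
  (hα : HeckeAlphaBarIntegral Qb M ℓ) (hβ : HeckeBetaBarIntegral Qb M ℓ)
  [HasPrincipalDivisors Qb (modularFunctionFieldBar (M * ℓ))]

/-- **THE CORE**: `n r_* D = div x̄ ⟹ n r_* (T^div D) = div (T̄_ℓ x̄)`. -/
theorem mror_core (hfin : FiniteAlong Qb (heckeAlphaBar Qb M ℓ))
    (hN : NormFormulaAlong Qb (heckeAlphaBar Qb M ℓ) hfin)
    (hdiv : MrorDivKerSpec M ℓ A) (hfun : MrhHeckeFunSpec M ℓ A)
    (hfink : FiniteAlong (ResidueField A) (ssvmdIncl (ResidueField A) M ℓ))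
    (D : Divisor Qb (modularFunctionFieldBar M)) (n : ℕ) (x : ↥(grdO M A))
    (hx0 : grdRed M A x ≠ 0)
    (hDx : ∀ Q, (n : ℤ) * Finsupp.mapDomain (placeReductionModL hM) D Q =
      Q.ord (grdRed M A x))
    (Q : Place (ResidueField A) (modularFunctionFieldFullC (ResidueField A) M)) :
    (n : ℤ) * Finsupp.mapDomain (placeReductionModL hM) (heckeDivBar hα hβ D) Q =
      Q.ord (mraTbar (ResidueField A) M ℓ (grdRed M A x)) := by
  set r := placeReductionModL hM with hrdef
  have hr : IsPlaceReductionModL A M r := isPlaceReductionModL_placeReductionModL hM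
  have hP : HasPrincipalDivisors Qb (modularFunctionFieldBar M) :=
    (isSepGen_jBar M).hasPrincipalDivisors
  have hxg0 : (x : modularFunctionFieldBar M) ≠ 0 := by
    intro h
    apply hx0
    have : x = 0 := Subtype.ext h
    rw [this, map_zero]
  obtain ⟨Dx, hDx', -⟩ := hP.exists_divisor (x : modularFunctionFieldBar M) hxg0
  -- `E = n D - div x` has trivial reduction
  have hE : Finsupp.mapDomain r (n • D - Dx) = 0 := by
    ext Q'
    rw [Finsupp.mapDomain_sub, Finsupp.sub_apply, Finsupp.mapDomain_smul, Finsupp.smul_apply,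
      nsmul_eq_mul, hDx Q', mror_mapDomain_gauss M A r hr x hx0 Dx hDx' Q', sub_self,
      Finsupp.zero_apply]
  have hTE := hdiv hM hα hβ (n • D - Dx) hE
  -- the Hecke function
  obtain ⟨hmem, hred⟩ := hfun x x.2
  have hTx : ∀ P, (heckeDivBar hα hβ Dx) P =
      P.ord ((⟨mrhNorm (heckeAlphaBar Qb M ℓ) (heckeBetaBar Qb M ℓ x), hmem⟩ : ↥(grdO M A)) :
        modularFunctionFieldBar M) := by
    intro P
    have h := gff_correspondence_ord (heckeBetaBar Qb M ℓ) (heckeAlphaBar Qb M ℓ) hβ hα hfin hN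
      Dx 1 (x : modularFunctionFieldBar M) hxg0 (fun v => by rw [one_mul, hDx']) P
    rw [one_mul] at h
    exact h
  have hT0 : grdRed M A ⟨mrhNorm (heckeAlphaBar Qb M ℓ) (heckeBetaBar Qb M ℓ x), hmem⟩ ≠ 0 := by
    rw [hred, ← mraTbar_eq]
    exact mraTbar_ne_zero M ℓ A hfink hx0
  have h1 := mror_mapDomain_gauss M A r hr _ hT0 (heckeDivBar hα hβ Dx) hTx Q
  rw [hred, ← mraTbar_eq] at h1
  -- conclude
  have h2 : Finsupp.mapDomain r (heckeDivBar hα hβ (n • D - Dx)) Q = 0 := by
    rw [hTE, Finsupp.zero_apply]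
  rw [map_sub, map_nsmul, Finsupp.mapDomain_sub, Finsupp.sub_apply, Finsupp.mapDomain_smul,
    Finsupp.smul_apply, nsmul_eq_mul, h1] at h2
  linarith

end Core

section Mk

variable {K F : Type*} [Field K] [Field F] [Algebra K F]

theorem mror_mk_eq_zero_iff (D : Divisor.degZero (K := K) (F := F)) :
    (Pic0.mk D : Pic0 K F) = 0 ↔
      (D : Divisor K F) ∈ Divisor.principal (K := K) (F := F) := by
  show (QuotientAddGroup.mk D : Pic0 K F) = 0 ↔ _
  rw [QuotientAddGroup.eq_zero_iff]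
  exact AddSubgroup.mem_addSubgroupOf

theorem mror_mk_sub (D E : Divisor.degZero (K := K) (F := F)) :
    (Pic0.mk (D - E) : Pic0 K F) = Pic0.mk D - Pic0.mk E := rfl

theorem mror_mk_zsmul (a : ℤ) (D : Divisor.degZero (K := K) (F := F)) :
    (Pic0.mk (a • D) : Pic0 K F) = a • Pic0.mk D := rfl

end Mk

section AB

/-- the Prelude's `T_ℓ` on the class of a divisor -/
theorem mror_hecke_mk (hℓ : ℓ.Prime)
    (hα : HeckeAlphaBarIntegral Qb M ℓ) (hβ : HeckeBetaBarIntegral Qb M ℓ)
    [HasPrincipalDivisors Qb (modularFunctionFieldBar (M * ℓ))]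
    (hFI : FundamentalIdentityAlong Qb (heckeBetaBar Qb M ℓ) hβ)
    (hfin : FiniteAlong Qb (heckeAlphaBar Qb M ℓ))
    (hN : NormFormulaAlong Qb (heckeAlphaBar Qb M ℓ) hfin)
    (D : Divisor.degZero (K := Qb) (F := modularFunctionFieldBar M)) :
    heckeOperatorBar M ⟨ℓ, hℓ⟩ (Pic0.mk D) =
      Pic0.mk (Pic0.degZeroCorrespondence (heckeBetaBar Qb M ℓ) (heckeAlphaBar Qb M ℓ) hβ hα hFI
        D) := by
  show heckeOperatorAlong Qb M ℓ (Pic0.mk D) = _
  rw [heckeOperatorAlong_eq hα hβ hFI hfin hN]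
  rfl

/-- **(A)** the kernel of the reduction is stable under `T_ℓ`. -/
theorem mror_kerStable (hℓ : ℓ.Prime) (hM : ReductionInputsModL A M)
    (hdiv : MrorDivKerSpec M ℓ A) (hfun : MrhHeckeFunSpec M ℓ A)
    (hfink : FiniteAlong (ResidueField A) (ssvmdIncl (ResidueField A) M ℓ)) :
    MrorKerStableSpec M A ⟨ℓ, hℓ⟩ := by
  intro w hw
  obtain ⟨hα, hβ, hP, hfin, hFI, hN⟩ := gff_heckeInputs M ℓ hℓ
  haveI := hP
  obtain ⟨D, rfl⟩ := Pic0.mk_surjective w
  rw [mror_hecke_mk M ℓ hℓ hα hβ hFI hfin hN D, reductionModL_mk hM]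
  rw [reductionModL_mk hM] at hw
  set r := placeReductionModL hM with hrdef
  have hr : IsPlaceReductionModL A M r := isPlaceReductionModL_placeReductionModL hM
  have hprin : Finsupp.mapDomain r (D : Divisor Qb (modularFunctionFieldBar M)) ∈
      Divisor.principal (K := ResidueField A)
        (F := modularFunctionFieldFullC (ResidueField A) M) := by
    have := (mror_mk_eq_zero_iff _).1 hw
    rwa [coe_reductionDegZeroAlong] at this
  obtain ⟨φ, hφ0, hφ⟩ := hprin
  obtain ⟨x, hx⟩ := grdl_red_surjective (M := M) (A := A) φ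
  have hx0 : grdRed M A x ≠ 0 := by rw [hx]; exact hφ0
  have core := mror_core M ℓ A hM hα hβ hfin hN hdiv hfun hfink
    (D : Divisor Qb (modularFunctionFieldBar M)) 1 x hx0
    (fun Q => by rw [Nat.cast_one, one_mul, hφ Q, hx])
  apply (mror_mk_eq_zero_iff _).2
  rw [coe_reductionDegZeroAlong]
  show Finsupp.mapDomain r (heckeDivBar hα hβ (D : Divisor Qb (modularFunctionFieldBar M))) ∈
    Divisor.principal (K := ResidueField A)
      (F := modularFunctionFieldFullC (ResidueField A) M)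
  refine ⟨mraTbar (ResidueField A) M ℓ (grdRed M A x), mraTbar_ne_zero M ℓ A hfink hx0,
    fun Q => ?_⟩
  have := core Q
  rwa [Nat.cast_one, one_mul] at this

set_option maxHeartbeats 1600000 in
/-- **(B)** the eigen-relation on the reduction. -/
theorem mror_eigen (hℓ : ℓ.Prime) (hM : ReductionInputsModL A M)
    (hdiv : MrorDivKerSpec M ℓ A) (hfun : MrhHeckeFunSpec M ℓ A)
    (hfink : FiniteAlong (ResidueField A) (ssvmdIncl (ResidueField A) M ℓ)) :
    MrorEigenSpec M A ⟨ℓ, hℓ⟩ := by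
  intro n a ψ h c Dk y hn hψ0 hDk hT hy
  obtain ⟨hα, hβ, hP, hfin, hFI, hN⟩ := gff_heckeInputs M ℓ hℓ
  haveI := hP
  obtain ⟨D, rfl⟩ := Pic0.mk_surjective y
  rw [mror_hecke_mk M ℓ hℓ hα hβ hFI hfin hN D, reductionModL_mk hM]
  rw [reductionModL_mk hM] at hy
  set r := placeReductionModL hM with hrdef
  have hr : IsPlaceReductionModL A M r := isPlaceReductionModL_placeReductionModL hM
  -- `r_* D - Dk = div g`
  have hprin : Finsupp.mapDomain r (D : Divisor Qb (modularFunctionFieldBar M)) -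
      (Dk : Divisor (ResidueField A) (modularFunctionFieldFullC (ResidueField A) M)) ∈
      Divisor.principal (K := ResidueField A)
        (F := modularFunctionFieldFullC (ResidueField A) M) := by
    have h0 : (Pic0.mk (reductionDegZeroAlong r hr.1 D - Dk) :
        JZeroC (ResidueField A) M) = 0 := by
      rw [mror_mk_sub]
      exact sub_eq_zero.2 hy
    have := (mror_mk_eq_zero_iff _).1 h0
    rwa [AddSubgroup.coe_sub, coe_reductionDegZeroAlong] at this
  obtain ⟨g, hg0, hg⟩ := hprin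
  -- the Kummer function of `r_* D`
  have hψ'0 : ψ * g ^ n ≠ 0 := mul_ne_zero hψ0 (pow_ne_zero _ hg0)
  obtain ⟨x, hx⟩ := grdl_red_surjective (M := M) (A := A) (ψ * g ^ n)
  have hx0 : grdRed M A x ≠ 0 := by rw [hx]; exact hψ'0
  have hrD : ∀ Q, (n : ℤ) * Finsupp.mapDomain r (D : Divisor Qb (modularFunctionFieldBar M)) Q =
      Q.ord (grdRed M A x) := by
    intro Q
    have h1 := hg Q
    rw [Finsupp.sub_apply] at h1
    rw [hx, Q.ord_mul hψ0 (pow_ne_zero _ hg0), ← zpow_natCast, Q.ord_zpow, ← hDk Q]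
    have : Finsupp.mapDomain r (D : Divisor Qb (modularFunctionFieldBar M)) Q =
        (Dk : Divisor (ResidueField A) (modularFunctionFieldFullC (ResidueField A) M)) Q +
          Q.ord g := by linarith
    rw [this]
    ring
  have core := mror_core M ℓ A hM hα hβ hfin hN hdiv hfun hfink
    (D : Divisor Qb (modularFunctionFieldBar M)) n x hx0 hrD
  -- `T̄ (ψ g^n) = c ψ^a (h T̄g)^n`
  have hTg0 : mraTbar (ResidueField A) M ℓ g ≠ 0 := mraTbar_ne_zero M ℓ A hfink hg0
  have hTψ0 : mraTbar (ResidueField A) M ℓ ψ ≠ 0 := mraTbar_ne_zero M ℓ A hfink hψ0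
  have hc0 : algebraMap (ResidueField A) (modularFunctionFieldFullC (ResidueField A) M) c ≠ 0 := by
    intro h0
    apply hTψ0
    rw [hT, h0, zero_mul, zero_mul]
  have hψa0 : ψ ^ a ≠ 0 := zpow_ne_zero _ hψ0
  have hh0 : h ≠ 0 := by
    intro h0
    apply hTψ0
    rw [hT, h0, zero_pow hn.ne', mul_zero]
  -- the principal divisor `r_*(T D) - a r_* D = div (h T̄g g^(-a))`
  have hgoal : Finsupp.mapDomain r
      (heckeDivBar hα hβ (D : Divisor Qb (modularFunctionFieldBar M))) -
      a • Finsupp.mapDomain r (D : Divisor Qb (modularFunctionFieldBar M)) ∈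
      Divisor.principal (K := ResidueField A)
        (F := modularFunctionFieldFullC (ResidueField A) M) := by
    refine ⟨h * mraTbar (ResidueField A) M ℓ g * g ^ (-a),
      mul_ne_zero (mul_ne_zero hh0 hTg0) (zpow_ne_zero _ hg0), fun Q => ?_⟩
    have h1 := core Q
    rw [hx, mraTbar_mul, mraTbar_pow, hT,
      Q.ord_mul (mul_ne_zero (mul_ne_zero hc0 hψa0) (pow_ne_zero _ hh0)) (pow_ne_zero _ hTg0),
      Q.ord_mul (mul_ne_zero hc0 hψa0) (pow_ne_zero _ hh0), Q.ord_mul hc0 hψa0,
      PlaceOrd.ord_algebraMap, Q.ord_zpow, ← zpow_natCast, Q.ord_zpow, ← zpow_natCast,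
      Q.ord_zpow, zero_add] at h1
    have h2 := hrD Q
    rw [hx, Q.ord_mul hψ0 (pow_ne_zero _ hg0), ← zpow_natCast, Q.ord_zpow] at h2
    rw [Finsupp.sub_apply, Finsupp.smul_apply, smul_eq_mul,
      Q.ord_mul (mul_ne_zero hh0 hTg0) (zpow_ne_zero _ hg0), Q.ord_mul hh0 hTg0, Q.ord_zpow]
    have hn0 : (n : ℤ) ≠ 0 := by exact_mod_cast hn.ne'
    apply mul_left_cancel₀ hn0
    -- `n * (X - a * Y) = n * (ord h + ord Tg - a * ord g)`
    have h3 : (n : ℤ) * Q.ord ψ = (n : ℤ) * ((n : ℤ) *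
        Finsupp.mapDomain r (D : Divisor Qb (modularFunctionFieldBar M)) Q -
          (n : ℤ) * Q.ord g) := by
      rw [h2]; ring
    have h4 : Q.ord ψ = (n : ℤ) *
        Finsupp.mapDomain r (D : Divisor Qb (modularFunctionFieldBar M)) Q -
          (n : ℤ) * Q.ord g := mul_left_cancel₀ hn0 h3
    rw [mul_sub, h1, h4]
    ring
  -- conclude in `Pic0`
  have h0 : (Pic0.mk (reductionDegZeroAlong r hr.1
      (Pic0.degZeroCorrespondence (heckeBetaBar Qb M ℓ) (heckeAlphaBar Qb M ℓ) hβ hα hFI D) -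
      a • reductionDegZeroAlong r hr.1 D) : JZeroC (ResidueField A) M) = 0 := by
    apply (mror_mk_eq_zero_iff _).2
    rw [AddSubgroup.coe_sub, AddSubgroup.coe_zsmul, coe_reductionDegZeroAlong,
      coe_reductionDegZeroAlong]
    exact hgoal
  rw [mror_mk_sub, mror_mk_zsmul] at h0
  rw [reductionModL_mk hM]
  exact sub_eq_zero.1 h0

end AB

end Fermat.Agent.MR
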