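import Fermat.Agent.MR.Out.RedPull
import Fermat.Agent.MR.Hecke.DegPlug

/-!
# Program MR, block `mro`, leaf (mro-RED): (C-β) and its twin for `α` AT THE HECKE LEVEL MAPS
(helper5, prefix `mror`)

* `mrorPhiAlg k M ℓ` : `β_k = ssvmfPhi k M ℓ` (`q ↦ q ^ ℓ`) as a `k`-algebra homomorphism;
* `mror_pullKer_beta` : `MrorPullKerSpec M ℓ 𝔸` (C-β), from helper6/helper18's `MrhLevelSpec` and
  the integrality of `β_k`;
* `mror_pullKer_alpha` : the same for the inclusion `α` (input of Route 2 for (C-α)).
-/

set_option autoImplicit false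
set_option linter.unusedSectionVars false
set_option linter.unusedVariables false
set_option linter.style.haveILetI false
set_option synthInstance.maxHeartbeats 400000

noncomputable section

namespace Fermat.Agent.MR

open ModularCurve AlgebraicCurve IsLocalRing Fermat.Agent.G Fermat.Agent.S18 Fermat.Agent.S24
  Fermat.Agent.FF Fermat.Agent.SS HahnSeries

local notation "Qb" => AlgebraicClosure ℚ

/-- `β_k : F_k(M) → F_k(M ℓ)`, `q ↦ q ^ ℓ`, as a `k`-algebra homomorphism. -/
def mrorPhiAlg (k : Type*) [Field k] (M ℓ : ℕ) [NeZero M] [NeZero ℓ] :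
    modularFunctionFieldFullC k M →ₐ[k] modularFunctionFieldFullC k (M * ℓ) :=
  { ssvmfPhi k M ℓ with
    commutes' := fun a => Subtype.ext <| by
      show qExpand k ℓ (algebraMap k (LaurentSeries k) a) = algebraMap k (LaurentSeries k) a
      rw [algebraMap_laurentSeries_eq_single, qExpand_single, mul_zero] }

theorem mrorPhiAlg_apply (k : Type*) [Field k] (M ℓ : ℕ) [NeZero M] [NeZero ℓ]
    (x : modularFunctionFieldFullC k M) : mrorPhiAlg k M ℓ x = ssvmfPhi k M ℓ x := rfl

variable (M ℓ : ℕ) [NeZero M] [NeZero ℓ] {p : ℕ} [Fact p.Prime] (A : ValuationSubring Qb)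

/-- **(C-β)** -/
theorem mror_pullKer_beta (hpM : ¬ p ∣ M) (hA : A.LiesOverPrime p) (hlev : MrhLevelSpec M ℓ A)
    (hβk : (mrorPhiAlg (ResidueField A) M ℓ).toRingHom.IsIntegral) :
    MrorPullKerSpec M ℓ A := by
  intro hM hMℓ hβ _ E hE
  exact mror_pull_ker M (M * ℓ) A hpM hA (heckeBetaBar Qb M ℓ) hβ
    (mrorPhiAlg (ResidueField A) M ℓ) hβk hlev.2.1
    (placeReductionModL hM) (isPlaceReductionModL_placeReductionModL hM)
    (placeReductionModL hMℓ) (isPlaceReductionModL_placeReductionModL hMℓ) E hE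

/-- integrality of `α_k` from finiteness -/
theorem mror_alpha_k_isIntegral
    (hfin : FiniteAlong (ResidueField A) (ssvmdIncl (ResidueField A) M ℓ)) :
    (ssvmdIncl (ResidueField A) M ℓ).toRingHom.IsIntegral := by
  letI := algebraAlong (ssvmdIncl (ResidueField A) M ℓ)
  haveI : Module.Finite (modularFunctionFieldFullC (ResidueField A) M)
    (modularFunctionFieldFullC (ResidueField A) (M * ℓ)) := hfin
  have h : Algebra.IsIntegral (modularFunctionFieldFullC (ResidueField A) M)
    (modularFunctionFieldFullC (ResidueField A) (M * ℓ)) := inferInstance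
  exact fun x => h.isIntegral x

/-- the twin of (C-β) for the inclusion `α`. -/
theorem mror_pullKer_alpha (hpM : ¬ p ∣ M) (hA : A.LiesOverPrime p) (hlev : MrhLevelSpec M ℓ A)
    (hαk : (ssvmdIncl (ResidueField A) M ℓ).toRingHom.IsIntegral)
    (hM : ReductionInputsModL A M) (hMℓ : ReductionInputsModL A (M * ℓ))
    (hα : HeckeAlphaBarIntegral Qb M ℓ)
    [HasPrincipalDivisors Qb (modularFunctionFieldBar (M * ℓ))]
    (E : Divisor Qb (modularFunctionFieldBar M))
    (hE : Finsupp.mapDomain (placeReductionModL hM) E = 0) :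
    Finsupp.mapDomain (placeReductionModL hMℓ)
      (Divisor.pullbackAlong (heckeAlphaBar Qb M ℓ) hα E) = 0 :=
  mror_pull_ker M (M * ℓ) A hpM hA (heckeAlphaBar Qb M ℓ) hα
    (ssvmdIncl (ResidueField A) M ℓ) hαk hlev.1
    (placeReductionModL hM) (isPlaceReductionModL_placeReductionModL hM)
    (placeReductionModL hMℓ) (isPlaceReductionModL_placeReductionModL hMℓ) E hE

end Fermat.Agent.MR
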