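/-
(MR) block `mro` (TRANSFER-OUT), leaf (L-div) CLOSED (prefix `mrorg`, helper18) :
THE HECKE CORRESPONDENCE `T_ℓ^div = α_* β^*` PRESERVES THE DIVISORS WITH TRIVIAL REDUCTION.

(L-div) = (C-α) ∘ (C-β) : (C-α) = `mrorg_pushKer_large` (RedPushGrd.lean), (C-β) = helper5's
`mror_pullKer_beta` (RedPullInst.lean) with `β_k` integral = helper15's `mrhb_phi_isIntegral_res`
and the level compatibility `MrhLevelSpec` = `mrhd_levelSpec` (helper6 + DegPlug.lean).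

* `mrorg_divKer_of_pull` : (C-β) ⟹ (L-div), any `ℓ ≥ 1`, `p ≥ 5`, `p ∤ M ℓ`;
* `mrorg_pullKer` : (C-β) closed (`ℓ` prime, `ℓ ∤ M`, `p ∤ M ℓ`);
* **`mrorg_divKer`** : (L-div) = helper5's literal `MrorDivKerSpec M ℓ 𝔸`, closed;
* `mrorg_kerStable`, `mrorg_eigen` : helper5's (A) `MrorKerStableSpec` and (B) `MrorEigenSpec`
  (`mror_kerStable`, `mror_eigen` of RedHecke.lean) with all their inputs discharged.
-/
import Mathlib
import Fermat.Agent.MR.Out.RedPushGrd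
import Fermat.Agent.MR.Out.RedPullInst
import Fermat.Agent.MR.Hecke.BetaInt
import Fermat.Agent.MR.Hecke.DegPlug
import Fermat.Agent.MR.Out.RedHecke

set_option autoImplicit false
set_option linter.unusedSectionVars false
set_option linter.unusedVariables false
set_option synthInstance.maxHeartbeats 400000

noncomputable section

namespace Fermat.Agent.MR

open ModularCurve AlgebraicCurve IsLocalRing Fermat.Agent.G Fermat.Agent.SS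

local notation "Qb" => AlgebraicClosure ℚ

variable (M ℓ : ℕ) [NeZero M] [NeZero ℓ] {p : ℕ} [Fact p.Prime] (A : ValuationSubring Qb)

/-- (C-β) ⟹ (L-div) -/
theorem mrorg_divKer_of_pull (hpMℓ : ¬ p ∣ M * ℓ) (hA : A.LiesOverPrime p) (h5 : 5 ≤ p)
    (hpull : MrorPullKerSpec M ℓ A) : MrorDivKerSpec M ℓ A := by
  intro hM hα hβ _ E hE
  have hMℓ : ReductionInputsModL A (M * ℓ) := grd_reductionInputs_large (M * ℓ) A hpMℓ hA h5
  exact mrorg_pushKer_large M ℓ A hpMℓ hA h5 hM hMℓ hα _ (hpull hM hMℓ hβ E hE)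

/-- (C-β), closed -/
theorem mrorg_pullKer (hA : A.LiesOverPrime p) (hℓ : ℓ.Prime) (hℓM : ¬ ℓ ∣ M)
    (hpMℓ : ¬ p ∣ M * ℓ) : MrorPullKerSpec M ℓ A :=
  mror_pullKer_beta M ℓ A (fun h => hpMℓ (Dvd.dvd.mul_right h ℓ)) hA
    (mrhd_levelSpec M ℓ A hA hℓ hℓM hpMℓ) (mrhb_phi_isIntegral_res M ℓ A hA hpMℓ)

/-- **(L-div)**, closed : `r_* E = 0 ⟹ r_* (T_ℓ^div E) = 0` -/
theorem mrorg_divKer (hA : A.LiesOverPrime p) (hℓ : ℓ.Prime) (hℓM : ¬ ℓ ∣ M)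
    (hpMℓ : ¬ p ∣ M * ℓ) (h5 : 5 ≤ p) : MrorDivKerSpec M ℓ A :=
  mrorg_divKer_of_pull M ℓ A hpMℓ hA h5 (mrorg_pullKer M ℓ A hA hℓ hℓM hpMℓ)

/-- **(A)**, closed : the kernel of `reductionModL` is stable under `T_ℓ` -/
theorem mrorg_kerStable (hA : A.LiesOverPrime p) (hℓ : ℓ.Prime) (hℓM : ¬ ℓ ∣ M)
    (hpMℓ : ¬ p ∣ M * ℓ) (h5 : 5 ≤ p) : MrorKerStableSpec M A ⟨ℓ, hℓ⟩ :=
  mror_kerStable M ℓ A hℓ
    (grd_reductionInputs_large M A (fun h => hpMℓ (Dvd.dvd.mul_right h ℓ)) hA h5)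
    (mrorg_divKer M ℓ A hA hℓ hℓM hpMℓ h5) (mrhd_heckeFunSpec M ℓ A hA hℓ hℓM hpMℓ)
    (mrhd_finiteAlong M A ℓ hℓ hℓM hpMℓ hA)

/-- **(B)**, closed : the eigen-relation on the reduction -/
theorem mrorg_eigen (hA : A.LiesOverPrime p) (hℓ : ℓ.Prime) (hℓM : ¬ ℓ ∣ M)
    (hpMℓ : ¬ p ∣ M * ℓ) (h5 : 5 ≤ p) : MrorEigenSpec M A ⟨ℓ, hℓ⟩ :=
  mror_eigen M ℓ A hℓ
    (grd_reductionInputs_large M A (fun h => hpMℓ (Dvd.dvd.mul_right h ℓ)) hA h5)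
    (mrorg_divKer M ℓ A hA hℓ hℓM hpMℓ h5) (mrhd_heckeFunSpec M ℓ A hA hℓ hℓM hpMℓ)
    (mrhd_finiteAlong M A ℓ hℓ hℓM hpMℓ hA)

end Fermat.Agent.MR
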