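import Fermat.Agent.MR.Out.RedSpec
import Fermat.Agent.G.Red.Spec

/-!
# Program MR, block `mro` (TRANSFER-OUT), leaf (mro-RED): `red` is ONTO (helper15)

Prefix `mroo`.

`mroo_onto : ¬ p ∣ M → 𝔸.LiesOverPrime p → (p < 5 → (5 - p) ∣ M) → MrorOntoSpec M 𝔸`.

ROUTE.  `h : ReductionInputsModL 𝔸 M` is main's `grd_reductionInputs_dvd`; the Prelude's place
reduction `r = placeReductionModL h` is an ARBITRARY map with `IsPlaceReductionModL 𝔸 M r`.
* `mroo_place_surj` : every such `r` is onto the places of `F_k(M)`: for a place `Q` there is a good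
  integral series `y` with `ȳ ≠ 0` and `ord_Q ȳ > 0` (the chart coordinate minus a lifted constant
  if `τ̄` is regular at `Q`, the inverse coordinate otherwise), so `Q` lies in the support of
  `r_* (div y)`, which is contained in `r (supp div y)`.
* `mroo_degZero_surj` : hence `r_*` is onto `Div⁰(F_k(M))` (push a divisor through a section of `r`;
  `deg (r P) = deg P`), and `red = reductionModL 𝔸 M` is onto `Pic⁰`.
-/

set_option autoImplicit false
set_option linter.unusedSectionVars false
set_option linter.unusedVariables false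
set_option linter.style.haveILetI false
set_option synthInstance.maxHeartbeats 400000

noncomputable section

namespace Fermat.Agent.MR

open ModularCurve AlgebraicCurve IsLocalRing Fermat.Agent.S18 Fermat.Agent.S24 Fermat.Agent.G

local notation "Qb" => AlgebraicClosure ℚ

section Onto

variable (M : ℕ) [NeZero M] (A : ValuationSubring Qb)
variable {τ τ' : LaurentSeries ℤ}

/-- a good integral series with nonzero reduction vanishing at the place `Q` of `F_k(M)`. -/
theorem mroo_exists_good (hat : GrdAtlas M A τ τ')
    (Q : Place (ResidueField A) (modularFunctionFieldFullC (ResidueField A) M)) :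
    ∃ (y : LaurentSeries A) (hy : S18Good M A y), hy.spec ≠ 0 ∧ 0 < Q.ord hy.spec := by
  haveI : IsAlgClosed (ResidueField A) := grd_isAlgClosed_residue A
  rcases grd_chart_coverK M A hat Q with hQ | hQ
  · obtain ⟨c, hc⟩ := grdg_val_exists hat.c.sepK Q hQ
    obtain ⟨α, rfl⟩ := residue_surjective (R := A) c
    have hgood : S18Good M A (grdSer τ A + -HahnSeries.C α) :=
      grd_good_add (grdga_good_ser M A hat.c.mem) (grd_good_neg (ggn_good_C α))
    have hspec : hgood.spec = grdK M A hat.c.mem -
        algebraMap (ResidueField A) (modularFunctionFieldFullC (ResidueField A) M)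
          (residue A α) := by
      rw [← ggn_spec_C (N := M) α, ← grdga_spec_ser M A hat.c.mem]
      apply Subtype.ext
      show coeffMap (residue A) (grdSer τ A + -HahnSeries.C α) =
        coeffMap (residue A) (grdSer τ A) - coeffMap (residue A) (HahnSeries.C α)
      rw [map_add, map_neg, sub_eq_add_neg]
    have hne : hgood.spec ≠ 0 := by
      rw [hspec]
      intro h0
      apply hat.c.sepK.transcendental
      rw [sub_eq_zero] at h0
      rw [h0]
      exact isAlgebraic_algebraMap _
    refine ⟨_, hgood, hne, ?_⟩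
    rw [← grdg_val_zero_iff_ord Q hne, hspec]
    unfold GrdVal
    rw [map_zero, sub_zero]
    exact hc
  · have hgood : S18Good M A (grdSer τ' A) := grdga_good_ser M A hat.c'.mem
    have hspec : hgood.spec = grdK M A hat.c'.mem := grdga_spec_ser M A hat.c'.mem
    have hne : hgood.spec ≠ 0 := by
      rw [hspec]
      intro h0
      apply hat.c'.sepK.transcendental
      rw [h0]
      exact isAlgebraic_zero
    refine ⟨_, hgood, hne, ?_⟩
    rw [← grdg_val_zero_iff_ord Q hne, hspec]
    exact hQ

/-- EVERY place reduction map in the sense of the Prelude is onto the places of `F_k(M)`. -/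
theorem mroo_place_surj (hat : GrdAtlas M A τ τ')
    (r : Place Qb (modularFunctionFieldBar M) →
      Place (ResidueField A) (modularFunctionFieldFullC (ResidueField A) M))
    (hr : IsPlaceReductionModL A M r) : Function.Surjective r := by
  classical
  haveI : HasPrincipalDivisors Qb (modularFunctionFieldBar M) :=
    Fermat.Agent.S24.IsSepGen.hasPrincipalDivisors (Fermat.Agent.S24.isSepGen_jBar M)
  intro Q
  obtain ⟨y, hy, hne, hpos⟩ := mroo_exists_good M A hat Q
  have hgen : hy.gen ≠ 0 := ggn_gen_ne_zero hy hne
  obtain ⟨D, hD, -⟩ := HasPrincipalDivisors.exists_divisor (K := Qb) hy.gen hgen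
  have hQ : Finsupp.mapDomain r D Q = Q.ord hy.spec :=
    hr.2 y hy.1 hy.2 (fun h => hne (Subtype.ext h)) D hD Q
  have hsupp : Q ∈ (Finsupp.mapDomain r D).support := by
    rw [Finsupp.mem_support_iff, hQ]
    exact hpos.ne'
  have := Finsupp.mapDomain_support hsupp
  rw [Finset.mem_image] at this
  obtain ⟨P, -, hP⟩ := this
  exact ⟨P, hP⟩

/-- the degree of the push-forward of a divisor along a degree-preserving map of places (general
function fields; used for a SECTION of the place reduction). -/
theorem mroo_degree_mapDomain {K₁ F₁ K₂ F₂ : Type*} [Field K₁] [Field F₁] [Algebra K₁ F₁]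
    [Field K₂] [Field F₂] [Algebra K₂ F₂] (s : Place K₁ F₁ → Place K₂ F₂)
    (hs : ∀ Q, (s Q).deg = Q.deg) (D : Divisor K₁ F₁) :
    Divisor.degree (Finsupp.mapDomain s D) = Divisor.degree D := by
  induction D using Finsupp.induction with
  | zero => simp
  | single_add P n D _ _ ih =>
    rw [Finsupp.mapDomain_add, map_add, map_add, ih, Finsupp.mapDomain_single,
      Divisor.degree_single, Divisor.degree_single, hs]

/-- a surjective degree-preserving map of places is onto on divisors of degree `0`. -/
theorem mroo_degZero_surj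
    (r : Place Qb (modularFunctionFieldBar M) →
      Place (ResidueField A) (modularFunctionFieldFullC (ResidueField A) M))
    (hdeg : ∀ P, (r P).deg = P.deg) (hsurj : Function.Surjective r) :
    Function.Surjective (reductionDegZeroAlong r hdeg) := by
  intro Dk
  have hrs : ∀ Q, r (Function.surjInv hsurj Q) = Q := Function.surjInv_eq hsurj
  have hsdeg : ∀ Q, (Function.surjInv hsurj Q).deg = Q.deg := fun Q => by
    rw [← hdeg, hrs]
  have hD0 : Finsupp.mapDomain (Function.surjInv hsurj)
      (Dk : Divisor (ResidueField A) (modularFunctionFieldFullC (ResidueField A) M)) ∈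
        Divisor.degZero (K := Qb) (F := modularFunctionFieldBar M) := by
    rw [Divisor.mem_degZero, mroo_degree_mapDomain _ hsdeg]
    exact Dk.2
  refine ⟨⟨_, hD0⟩, Subtype.ext ?_⟩
  rw [coe_reductionDegZeroAlong]
  show Finsupp.mapDomain r (Finsupp.mapDomain (Function.surjInv hsurj)
    (Dk : Divisor (ResidueField A) (modularFunctionFieldFullC (ResidueField A) M))) = Dk
  rw [← Finsupp.mapDomain_comp]
  have : r ∘ Function.surjInv hsurj = id := funext hrs
  rw [this, Finsupp.mapDomain_id]

/-- `red` is onto as soon as the reduction inputs hold and there is an atlas. -/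
theorem mroo_onto_of_atlas (hat : GrdAtlas M A τ τ') (h : ReductionInputsModL A M) :
    Function.Surjective (reductionModL A M) := by
  have hr := isPlaceReductionModL_placeReductionModL h
  have hsurj := mroo_place_surj M A hat (placeReductionModL h) hr
  intro x
  obtain ⟨Dk, rfl⟩ := Pic0.mk_surjective x
  obtain ⟨D, hD⟩ := mroo_degZero_surj M A (placeReductionModL h) hr.1 hsurj Dk
  refine ⟨Pic0.mk D, ?_⟩
  rw [reductionModL_mk h D, hD]

end Onto

section Main

variable (M : ℕ) [NeZero M] {p : ℕ} [Fact p.Prime] (A : ValuationSubring Qb)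

/-- the reduction atlas at a level `M` with `p ∤ M`, `5 ≤ p` or `(5 - p) ∣ M`. -/
theorem mroo_atlas (hpM : ¬ p ∣ M) (hA : A.LiesOverPrime p) (hsmall : p < 5 → (5 - p) ∣ M) :
    ∃ τ τ' : LaurentSeries ℤ, GrdAtlas M A τ τ' := by
  by_cases h5 : 5 ≤ p
  · obtain ⟨τ', hτ'⟩ := grd_exists_jinv
    exact ⟨_, τ', hτ', grd_chart_j M A hpM hA h5, grd_chart_jinv M A hpM hA h5 τ' hτ'⟩
  · have hlt : p < 5 := by omega
    have hd : (5 - p) ∣ M := hsmall hlt
    have hp : p.Prime := Fact.out
    have h23 : p = 2 ∨ p = 3 := by
      have h2 := hp.two_le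
      interval_cases p
      · exact Or.inl rfl
      · exact Or.inr rfl
      · exact absurd hp (by decide)
    haveI : NeZero (5 - p) := ⟨by omega⟩
    refine ⟨_, _, grd_atlas_small M A (5 - p) hpM hA ?_ hd⟩
    rcases h23 with h | h
    · exact Or.inl ⟨h, by omega⟩
    · exact Or.inr ⟨h, by omega⟩

/-- **`red = reductionModL 𝔸 M : J₀(M)(ℚ̄) → Pic⁰(F_k(M))` IS ONTO** (`p ∤ M`, `𝔸` over `p`,
`5 ≤ p` or `(5 - p) ∣ M`). -/
theorem mroo_onto (hpM : ¬ p ∣ M) (hA : A.LiesOverPrime p) (hsmall : p < 5 → (5 - p) ∣ M) :
    MrorOntoSpec M A := by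
  obtain ⟨τ, τ', hat⟩ := mroo_atlas M A hpM hA hsmall
  exact mroo_onto_of_atlas M A hat (grd_reductionInputs_dvd M A hpM hA hsmall)

/-- the place reduction of the Prelude is onto (same hypotheses). -/
theorem mroo_placeReduction_surj (hpM : ¬ p ∣ M) (hA : A.LiesOverPrime p)
    (hsmall : p < 5 → (5 - p) ∣ M) (h : ReductionInputsModL A M) :
    Function.Surjective (placeReductionModL h) := by
  obtain ⟨τ, τ', hat⟩ := mroo_atlas M A hpM hA hsmall
  exact mroo_place_surj M A hat _ (isPlaceReductionModL_placeReductionModL h)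

end Main

end Fermat.Agent.MR
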