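import Mathlib
import Fermat.Agent.MR.Out.RedHecke
import Fermat.Agent.MR.Out.RedAsm
import Fermat.Agent.MR.Out.RedDesc
import Fermat.Agent.MR.Out.RedOnto
import Fermat.Agent.MR.Out.RedClass
import Fermat.Agent.MR.Hecke.DegPlug
import Fermat.Agent.MR.Out.Final
import Fermat.Agent.MR.Out.RedDivKer
import Fermat.Agent.S27
import Fermat.Agent.G.Asm.HeckeGalois

/-!
# Program MR, block `mro` (TRANSFER-OUT), leaf (mro-RED): the assembly (helper5)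

`mror_main : MrorDivKerAllSpec → MrorMainSpec` : from the eigenfunction `ψ` of `MraEigenFun` to a
nonzero eigenclass in `J₀(M)(ℚ̄)[p]`.

* the Kummer class `ξ = [div ψ / p] ∈ Pic⁰(F_k(M))[p]`, `ξ ≠ 0` (`mroc_class`, helper15);
* a lift `y` of `ξ` under `red` (`mroo_onto`, helper15);
* `ker red` is `T_ℓ`-stable and `red (T_ℓ y) = a_ℓ • red y` (`mror_kerStable`, `mror_eigen`, from
  (L-div) and the Hecke function `MrhHeckeFunSpec` of helper6/helper18);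
* the abstract transfer theorem `mror_transfer_ker` (Galois descent datum `mror_desc`, divisibility of
  `J₀(M)(ℚ̄)`, finiteness of `J₀(M)(ℚ̄)[p]` by S27, commutation of the `T_ℓ` on `J₀(M)(ℚ̄)[p]` through
  helper22's `Θ`).

The only remaining input is (L-div) `MrorDivKerSpec` = (C-α) ∘ (C-β).
-/

set_option autoImplicit false
set_option linter.style.haveILetI false
set_option synthInstance.maxHeartbeats 400000

noncomputable section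

namespace Fermat.Agent.MR

open ModularCurve AlgebraicCurve IsLocalRing WeierstrassCurve Fermat.Agent.G Fermat.Agent.S16LB
  Fermat.Agent.SS

local notation "Qb" => AlgebraicClosure ℚ

/-- **(COMM)** the `T_ℓ` (`ℓ ∤ M`, `ℓ ≠ p`) commute on `J₀(M)(ℚ̄)[p]`. -/
theorem mror_comm_tors (p M : ℕ) [NeZero M] (hp : p.Prime) {ℓ ℓ' : ℕ} (hℓ : ℓ.Prime)
    (hℓ' : ℓ'.Prime) (hℓM : ¬ ℓ ∣ M) (hℓp : ℓ ≠ p) (hℓ'M : ¬ ℓ' ∣ M) (hℓ'p : ℓ' ≠ p)
    (x : JZero M) (hx : (p : ℤ) • x = 0) :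
    heckeOperatorBar M ⟨ℓ, hℓ⟩ (heckeOperatorBar M ⟨ℓ', hℓ'⟩ x) =
      heckeOperatorBar M ⟨ℓ', hℓ'⟩ (heckeOperatorBar M ⟨ℓ, hℓ⟩ x) := by
  obtain ⟨⟨Θ, -, honto, -, hΘ⟩, hlift⟩ := mrolf_theta p M hp
  obtain ⟨χ, rfl⟩ := honto x hx
  obtain ⟨y, hy, hyχ⟩ := hlift χ.1 χ.2
  have hχ : χ = mrolRedHom p M ⟨y, hy⟩ := Subtype.ext hyχ.symm
  have hdp : ∀ {q : ℕ}, q.Prime → q ≠ p → ¬ q ∣ p := fun hq hqp h =>
    hqp ((Nat.prime_dvd_prime_iff_eq hq hp).mp h)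
  have key : ∀ (q : ℕ) (hq : q.Prime), ¬ q ∣ M → q ≠ p → ∀ k : ↥(gprHomPE M ℤ),
      heckeOperatorBar M ⟨q, hq⟩ (Θ (mrolRedHom p M k)) =
        Θ (mrolRedHom p M (mrolTau M q k)) :=
    fun q hq hqM hqp k =>
      (hΘ q hq hqM (hdp hq hqp) (mrolRedHom p M k) (mrolRedHom p M (mrolTau M q k)) rfl).symm
  rw [hχ, key ℓ' hℓ' hℓ'M hℓ'p, key ℓ hℓ hℓM hℓp, key ℓ hℓ hℓM hℓp, key ℓ' hℓ' hℓ'M hℓ'p]
  have hcomm := LinearMap.congr_fun (mrolTau_comm M ℓ ℓ') ⟨y, hy⟩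
  rw [Module.End.mul_apply, Module.End.mul_apply] at hcomm
  rw [hcomm]

/-- **(L-div)** at every level, every good prime. -/
def MrorDivKerAllSpec : Prop :=
  ∀ (M ℓ p : ℕ) [NeZero M] [NeZero ℓ] (A : ValuationSubring Qb), p.Prime → 5 ≤ p → ℓ.Prime →
    ¬ ℓ ∣ M → ¬ p ∣ M * ℓ → A.LiesOverPrime p → MrorDivKerSpec M ℓ A

/-- finiteness of `J₀(M)(ℚ̄)[p]` (S27). -/
theorem mror_tors_finite (M : ℕ) [NeZero M] (p : ℕ) (hp : p.Prime) :
    Finite (mrorTors (JZero M) p) := by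
  haveI : Fact p.Prime := ⟨hp⟩
  haveI := Fermat.Agent.V.v27dv_isCurveOver_modular M
  haveI := Fermat.Agent.V.v27dv_essFiniteType_modular M
  have hcard := Fermat.Agent.S27.result (AlgebraicClosure ℚ) (modularFunctionFieldBar M) p 1
  rw [pow_one, mul_one] at hcard
  have hfin : Finite ↥(Pic0.torsion (AlgebraicClosure ℚ) (modularFunctionFieldBar M) p) :=
    Nat.finite_of_card_ne_zero (by rw [hcard]; exact pow_ne_zero _ hp.ne_zero)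
  let g : ↥(mrorTors (JZero M) p) →
      ↥(Pic0.torsion (AlgebraicClosure ℚ) (modularFunctionFieldBar M) p) :=
    fun v => ⟨v.1, Pic0.mem_torsion.mpr (by rw [natCast_zsmul]; exact v.2)⟩
  have hg : Function.Injective g := fun v v' h => Subtype.ext (congrArg Subtype.val h)
  exact Finite.of_injective g hg

/-- **(mro-RED)** from (L-div). -/
theorem mror_main (hdiv : MrorDivKerAllSpec) : MrorMainSpec := by
  intro P M _ W hpM 𝔸 h𝔸 hfun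
  obtain ⟨ψ, hψ0, hdvd, hnt, heig⟩ := hfun
  haveI : Fact P.p.Prime := ⟨P.pp⟩
  have h5 : 5 ≤ P.p := P.hp5
  have hsmall : P.p < 5 → (5 - P.p) ∣ M := fun h => absurd h (by omega)
  have hM : ReductionInputsModL 𝔸 M := grd_reductionInputs_large M 𝔸 hpM h𝔸 h5
  -- the Kummer class and a lift
  obtain ⟨Dk, hDk, hpDk, hDk0⟩ := mroc_class M 𝔸 hpM h𝔸 hsmall P.p ψ P.pp.pos hψ0 hdvd
  have hξ : (Pic0.mk Dk : JZeroC (ResidueField 𝔸) M) ≠ 0 := fun h => hnt (hDk0 h)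
  obtain ⟨y, hy⟩ := mroo_onto M 𝔸 hpM h𝔸 hsmall (Pic0.mk Dk)
  -- the facts at a good prime
  have hpMℓ : ∀ i : mrolIdx W P.p M, ¬ P.p ∣ M * i.1 := by
    intro i h
    rcases (Nat.Prime.dvd_mul P.pp).mp h with h | h
    · exact hpM h
    · exact i.2.2.2.2 ((Nat.prime_dvd_prime_iff_eq P.pp i.2.1).mp h).symm
  have hstab : ∀ i : mrolIdx W P.p M, MrorKerStableSpec M 𝔸 ⟨i.1, i.2.1⟩ ∧
      MrorEigenSpec M 𝔸 ⟨i.1, i.2.1⟩ := by
    intro i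
    haveI : NeZero i.1 := ⟨i.2.1.ne_zero⟩
    haveI : Fact i.1.Prime := ⟨i.2.1⟩
    have hd : MrorDivKerSpec M i.1 𝔸 := hdiv M i.1 P.p 𝔸 P.pp h5 i.2.1 i.2.2.2.1 (hpMℓ i) h𝔸
    have hf : MrhHeckeFunSpec M i.1 𝔸 := mrhd_heckeFunSpec M i.1 𝔸 h𝔸 i.2.1 i.2.2.2.1 (hpMℓ i)
    have hfink : FiniteAlong (ResidueField 𝔸) (ssvmdIncl (ResidueField 𝔸) M i.1) :=
      mrhd_finiteDimensional M 𝔸 i.2.2.2.1 (hpMℓ i) h𝔸
    exact ⟨mror_kerStable M i.1 𝔸 i.2.1 hM hd hf hfink, mror_eigen M i.1 𝔸 i.2.1 hM hd hf hfink⟩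
  -- the transfer
  let T : mrolIdx W P.p M → JZero M →+ JZero M := fun i =>
    (heckeOperatorBar M ⟨i.1, i.2.1⟩).toAddMonoidHom
  obtain ⟨x, hx0, hpx, hxe⟩ := mror_transfer_ker (G := Qb ≃ₐ[ℚ] Qb) P.p (reductionModL 𝔸 M) T
    (fun i j x hx => mror_comm_tors P.p M P.pp i.2.1 j.2.1 i.2.2.2.1 i.2.2.2.2 j.2.2.2.1
      j.2.2.2.2 x (by rw [natCast_zsmul]; exact hx))
    (fun i w hw => (hstab i).1 w hw)
    (fun i σ x => (gasm_hecke_galois M ⟨i.1, i.2.1⟩ σ x).symm)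
    (fun n hn z => Fermat.Agent.V.v27dv_JZero_divisible M n hn z)
    (mror_tors_finite M P.p P.pp)
    (fun z => mror_desc M 𝔸 hpM h5 h𝔸 z)
    (fun i => (W.apOfModel i.1 : ℤ)) y
    (by rw [hy]; exact hξ)
    (by rw [hy]; exact hpDk)
    (by
      intro i
      have hne : ¬ ((⟨i.1, i.2.1⟩ : Nat.Primes) : ℕ) ∣ M * P.p := by
        intro h
        rcases (Nat.Prime.dvd_mul i.2.1).mp h with h | h
        · exact i.2.2.2.1 h
        · exact i.2.2.2.2 ((Nat.prime_dvd_prime_iff_eq i.2.1 P.pp).mp h)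
      obtain ⟨c, h, hT⟩ := heig ⟨i.1, i.2.1⟩ i.2.2.1 hne i.2.2.2.2
      exact (hstab i).2 P.p (W.apOfModel i.1) ψ h c Dk y P.pp.pos hψ0 hDk hT hy)
  refine ⟨x, ?_, hx0, fun ℓ hℓ hg hℓM hℓp => hxe ⟨ℓ, hℓ, hg, hℓM, hℓp⟩⟩
  rw [natCast_zsmul]
  exact hpx

/-- (L-div) at every level (helper18's `mrorg_divKer`). -/
theorem mror_divKerAll : MrorDivKerAllSpec := by
  intro M ℓ p _ _ A hp h5 hℓ hℓM hpMℓ hA
  haveI : Fact p.Prime := ⟨hp⟩
  exact mrorg_divKer M ℓ A hA hℓ hℓM hpMℓ h5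

/-- **(mro-RED)**, closed. -/
theorem mror_mainSpec : MrorMainSpec := mror_main mror_divKerAll

/-- **(OUT)**, block `mro`, closed: `MraEigenFun ⟹ P.ModularRepOfLevel M`
(`mror_mainSpec` + helper22's exit (X2) `mrolf_exit_J_frey`). -/
theorem mror_outSpec : MraOutSpec := by
  intro P M _ W hpM hW 𝔸 h𝔸 hfun
  obtain ⟨x, hx, hx0, heig⟩ := mror_mainSpec P M W hpM 𝔸 h𝔸 hfun
  exact mrolf_exit_J_frey P W hW M P.pp x hx hx0 heig

end Fermat.Agent.MR
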