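import Mathlib
import Fermat.Agent.S41.ASM.Lift

/-!
# Program MR, block `mro`, leaf (mro-DS): Deligne–Serre lifting through a stable sublattice

`mrol_lift` generalises `s41as_lift` (S41/ASM/Lift.lean): instead of `y ∈ K`, `y ∉ p Hom(H, ℤ)`,
an eigenvector mod `p`, we are given a subgroup `Q` of characters, stable under the operators,
containing `p K`, with `y ∉ Q` and `y ∘ t i - n i • y ∈ Q` (`i ∈ J`).  (`Q = K ∩ p Hom(H, ℤ)` is
the old statement; `Q = ker (K → Y)` for an equivariant map to a group `Y` killed by `p` is the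
one used by the transfer-out.)  Neither primality of `p` nor saturation of `K` is needed.
-/

set_option autoImplicit false

namespace Fermat.Agent.MR

open Fermat.Agent.S41
open scoped IsMulCommutative

/-- **Deligne–Serre lifting through a stable sublattice.** -/
theorem mrol_lift {H : Type*} [AddCommGroup H] (hH : AddGroup.FG H) {ι : Type*}
    (t : ι → H →+ H) (K : AddSubgroup (H →+ ℤ))
    (hK : ∀ i, ∀ y ∈ K, y.comp (t i) ∈ K)
    (hcomm : ∀ i j, ∀ y ∈ K, (y.comp (t i)).comp (t j) = (y.comp (t j)).comp (t i))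
    (Q : AddSubgroup (H →+ ℤ)) (hQ : ∀ i, ∀ y ∈ Q, y.comp (t i) ∈ Q)
    {p : ℕ} (hpQ : ∀ y ∈ K, (p : ℤ) • y ∈ Q)
    (J : Set ι) (n : ι → ℤ) (y : H →+ ℤ) (hy : y ∈ K) (hyQ : y ∉ Q)
    (heig : ∀ i ∈ J, y.comp (t i) - n i • y ∈ Q) :
    ∃ (c : H →+ ℂ) (lam : ι → integralClosure ℤ ℂ) (𝔪' : Ideal (integralClosure ℤ ℂ)),
      c ≠ 0 ∧ (∀ h : H, (∀ k ∈ K, k h = 0) → c h = 0) ∧
      (∀ i, c.comp (t i) = (lam i : ℂ) • c) ∧ 𝔪'.IsMaximal ∧
      (p : integralClosure ℤ ℂ) ∈ 𝔪' ∧ ∀ i ∈ J, lam i - (n i : integralClosure ℤ ℂ) ∈ 𝔪' := by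
  classical
  have hfd : FiniteDimensional ℂ (H →+ ℂ) := s41asl_finiteDimensional hH
  -- the operators on `V`
  have hV : ∀ i, ∀ c ∈ s41aslV K, s41aslPre (t i) c ∈ s41aslV K := by
    intro i c hc
    have hle : s41aslV K ≤ (s41aslV K).comap (s41aslPre (t i)) := by
      rw [s41aslV, Submodule.span_le]
      rintro _ ⟨k, hk, rfl⟩
      show s41aslPre (t i) (s41aslC k) ∈ s41aslV K
      rw [s41aslPre_apply, ← s41aslC_comp]
      exact s41aslC_mem_V (hK i k hk)
    exact hle hc
  obtain ⟨R, hR⟩ : ∃ R : ι → Module.End ℂ (s41aslV K),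
      ∀ i (v : s41aslV K), ((R i v : s41aslV K) : H →+ ℂ) = (v : H →+ ℂ).comp (t i) :=
    ⟨fun i => (s41aslPre (t i)).restrict (hV i), fun i v => rfl⟩
  have hRcomm : ∀ i j, R i * R j = R j * R i := by
    intro i j
    refine LinearMap.ext fun v => Subtype.ext ?_
    rw [Module.End.mul_apply, Module.End.mul_apply, hR, hR, hR, hR]
    have key : ∀ c ∈ s41aslV K, (c.comp (t j)).comp (t i) = (c.comp (t i)).comp (t j) := by
      intro c hc
      have : ((s41aslPre (t i)).comp (s41aslPre (t j))) c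
          = ((s41aslPre (t j)).comp (s41aslPre (t i))) c := by
        refine LinearMap.eqOn_span ?_ hc
        rintro _ ⟨k, hk, rfl⟩
        show ((s41aslC k).comp (t j)).comp (t i) = ((s41aslC k).comp (t i)).comp (t j)
        rw [← s41aslC_comp, ← s41aslC_comp, ← s41aslC_comp, ← s41aslC_comp, hcomm i j k hk]
      exact this
    exact key v v.2
  -- the commutative ring `T`
  obtain ⟨S, hS⟩ : ∃ S : Set (Module.End ℂ (s41aslV K)), S = Set.range R := ⟨_, rfl⟩
  have hSc : ∀ x ∈ S, ∀ y ∈ S, x * y = y * x := by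
    rw [hS]
    rintro _ ⟨i, rfl⟩ _ ⟨j, rfl⟩
    exact hRcomm i j
  have hcommT : IsMulCommutative (Subring.closure S) := Subring.isMulCommutative_closure hSc
  have hRS : ∀ i, R i ∈ Subring.closure S := fun i =>
    Subring.subset_closure (by rw [hS]; exact ⟨i, rfl⟩)
  -- the lattice `Q` inside `V` is stable under `T`
  have hInQ : ∀ x ∈ Subring.closure S, ∀ v : s41aslV K,
      (∃ k ∈ Q, (v : H →+ ℂ) = s41aslC k) → ∃ k ∈ Q, ((x v : s41aslV K) : H →+ ℂ) = s41aslC k := by
    intro x hx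
    induction hx using Subring.closure_induction with
    | mem x hx =>
      rw [hS] at hx
      obtain ⟨i, rfl⟩ := hx
      rintro v ⟨k, hk, hv⟩
      exact ⟨k.comp (t i), hQ i k hk, by rw [hR, hv, s41aslC_comp]⟩
    | zero =>
      rintro v -
      exact ⟨0, Q.zero_mem, by rw [s41aslC_zero]; rfl⟩
    | one =>
      rintro v hv
      exact hv
    | add x x' _ _ ihx ihx' =>
      rintro v hv
      obtain ⟨k, hk, e⟩ := ihx v hv
      obtain ⟨k', hk', e'⟩ := ihx' v hv
      refine ⟨k + k', Q.add_mem hk hk', ?_⟩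
      rw [LinearMap.add_apply, Submodule.coe_add, e, e', s41aslC_add]
    | neg x _ ihx =>
      rintro v hv
      obtain ⟨k, hk, e⟩ := ihx v hv
      refine ⟨-k, Q.neg_mem hk, ?_⟩
      rw [LinearMap.neg_apply, Submodule.coe_neg, e, s41aslC_neg]
    | mul x x' _ _ ihx ihx' =>
      rintro v hv
      rw [Module.End.mul_apply]
      exact ihx _ (ihx' v hv)
  -- the element `y` of `V`
  obtain ⟨yV, hyV⟩ : ∃ yV : s41aslV K, (yV : H →+ ℂ) = s41aslC y :=
    ⟨⟨s41aslC y, s41aslC_mem_V hy⟩, rfl⟩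
  -- the ideal `m₀`
  obtain ⟨τ, hτ⟩ : ∃ τ : ι → Subring.closure S, ∀ i, ((τ i : Subring.closure S) :
      Module.End ℂ (s41aslV K)) = R i := ⟨fun i => ⟨R i, hRS i⟩, fun i => rfl⟩
  obtain ⟨G, hG⟩ : ∃ G : Set (Subring.closure S),
      G = {g | g = (p : Subring.closure S) ∨ ∃ i ∈ J, g = τ i - (n i : Subring.closure S)} :=
    ⟨_, rfl⟩
  have hm₀ : ∀ x ∈ Ideal.span G, ∃ k ∈ Q,
      (((x : Module.End ℂ (s41aslV K)) yV : s41aslV K) : H →+ ℂ) = s41aslC k := by
    intro x hx
    induction hx using Submodule.span_induction with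
    | mem g hg =>
      rw [hG] at hg
      rcases hg with rfl | ⟨i, hi, rfl⟩
      · refine ⟨(p : ℤ) • y, hpQ y hy, ?_⟩
        rw [Subring.coe_natCast, Module.End.natCast_apply, s41aslC_zsmul, ← hyV, natCast_zsmul]
        rfl
      · refine ⟨y.comp (t i) - n i • y, heig i hi, ?_⟩
        rw [AddSubgroupClass.coe_sub, Subring.coe_intCast, hτ, LinearMap.sub_apply,
          Module.End.intCast_apply, Submodule.coe_sub, hR, AddSubgroupClass.coe_zsmul, hyV,
          s41aslC_sub, s41aslC_comp, s41aslC_zsmul]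
    | zero =>
      refine ⟨0, Q.zero_mem, ?_⟩
      rw [Subring.coe_zero, LinearMap.zero_apply, s41aslC_zero]
      rfl
    | add x x' _ _ ihx ihx' =>
      obtain ⟨k, hk, e⟩ := ihx
      obtain ⟨k', hk', e'⟩ := ihx'
      refine ⟨k + k', Q.add_mem hk hk', ?_⟩
      rw [Subring.coe_add, LinearMap.add_apply, Submodule.coe_add, e, e', s41aslC_add]
    | smul a x _ ihx =>
      rw [smul_eq_mul, Subring.coe_mul, Module.End.mul_apply]
      exact hInQ _ a.2 _ ihx
  have hm₀top : Ideal.span G ≠ ⊤ := by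
    intro htop
    have h1 : (1 : Subring.closure S) ∈ Ideal.span G := by rw [htop]; exact Submodule.mem_top
    obtain ⟨k, hk, e⟩ := hm₀ 1 h1
    rw [Subring.coe_one, Module.End.one_apply, hyV] at e
    rw [s41aslC_injective e] at hyQ
    exact hyQ hk
  -- the eigen-character
  obtain ⟨v, χ, hv, hχ, hlift⟩ := s41asl_exists_character (Subring.closure S).subtype
    Subtype.coe_injective (Ideal.span G) hm₀top
  have hc0 : (v : H →+ ℂ) ≠ 0 := fun h0 => hv (Subtype.ext h0)
  have hceig : ∀ i, (v : H →+ ℂ).comp (t i) = χ (τ i) • (v : H →+ ℂ) := by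
    intro i
    have := congrArg (fun u : s41aslV K => (u : H →+ ℂ)) (hχ (τ i))
    simp only [Subring.coe_subtype, hτ, hR, Submodule.coe_smul] at this
    exact this
  have hintτ : ∀ i, IsIntegral ℤ (χ (τ i)) := fun i =>
    s41asl_isIntegral_eigenvalue hH (t i) hc0 (hceig i)
  have hint : ∀ x : Subring.closure S, IsIntegral ℤ (χ x) := by
    rintro ⟨x, hx⟩
    induction hx using Subring.closure_induction with
    | mem x hx =>
      obtain ⟨i, rfl⟩ : ∃ i, R i = x := by rw [hS] at hx; exact hx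
      have e : (⟨R i, Subring.subset_closure hx⟩ : Subring.closure S) = τ i :=
        Subtype.ext (hτ i).symm
      rw [e]
      exact hintτ i
    | zero =>
      have : χ ⟨0, Subring.zero_mem _⟩ = 0 := map_zero χ
      rw [this]
      exact isIntegral_zero
    | one =>
      have : χ ⟨1, Subring.one_mem _⟩ = 1 := map_one χ
      rw [this]
      exact isIntegral_one
    | add x x' hx hx' ihx ihx' =>
      have : χ ⟨x + x', Subring.add_mem _ hx hx'⟩ = χ ⟨x, hx⟩ + χ ⟨x', hx'⟩ :=
        map_add χ ⟨x, hx⟩ ⟨x', hx'⟩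
      rw [this]
      exact ihx.add ihx'
    | neg x hx ihx =>
      have : χ ⟨-x, Subring.neg_mem _ hx⟩ = -χ ⟨x, hx⟩ := map_neg χ ⟨x, hx⟩
      rw [this]
      exact ihx.neg
    | mul x x' hx hx' ihx ihx' =>
      have : χ ⟨x * x', Subring.mul_mem _ hx hx'⟩ = χ ⟨x, hx⟩ * χ ⟨x', hx'⟩ :=
        map_mul χ ⟨x, hx⟩ ⟨x', hx'⟩
      rw [this]
      exact ihx.mul ihx'
  obtain ⟨χ', 𝔪', hχ', hmax, hmem⟩ := hlift hint
  refine ⟨(v : H →+ ℂ), fun i => χ' (τ i), 𝔪', hc0, ?_, ?_, hmax, ?_, ?_⟩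
  · intro h hh
    have key : ∀ c ∈ s41aslV K, c h = 0 := by
      intro c hc
      induction hc using Submodule.span_induction with
      | mem c hc =>
        obtain ⟨k, hk, rfl⟩ := hc
        rw [s41aslC_apply, hh k hk, Int.cast_zero]
      | zero => rfl
      | add c c' _ _ ihc ihc' =>
        rw [AddMonoidHom.add_apply, ihc, ihc', add_zero]
      | smul a c _ ihc =>
        rw [AddMonoidHom.smul_apply, ihc, smul_zero]
    exact key v v.2
  · intro i
    rw [hχ']
    exact hceig i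
  · have h1 : (p : Subring.closure S) ∈ Ideal.span G :=
      Ideal.subset_span (by rw [hG]; exact Or.inl rfl)
    have := hmem _ h1
    rwa [map_natCast] at this
  · intro i hi
    have h1 : τ i - (n i : Subring.closure S) ∈ Ideal.span G :=
      Ideal.subset_span (by rw [hG]; exact Or.inr ⟨i, hi, rfl⟩)
    have := hmem _ h1
    rwa [map_sub, map_intCast] at this

end Fermat.Agent.MR
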