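import Fermat.Agent.MR.Out.Lift
import Fermat.Agent.MR.Out.DS
import Fermat.Agent.S27
import Fermat.Agent.S21
import Fermat.Agent.S21.Assembly
import Fermat.Agent.V.Div.Modular

/-!
# Program MR, block `mro`, leaf (mro-DS): `Θ_p ∘ (mod p) : L_M → J₀(M)(ℚ̄)[p]` is ONTO (helper22)

* `mrol_dual_family` : (abstract) for a finitely generated abelian group `H` and `P ⊆ H`, a family
  `e j : H →+ ℤ` killing `P` with a dual family `b i ∈ H` (`e j (b i) = δ_ij`) spanning all complex
  characters killing `P`;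
* `mrol_two_mul_finrank_le` : `2 dim S₂(Γ₀(M)) ≤ r` for the family of `Γ₀(M)^ab` and its
  parabolic + elliptic classes (S21);
* `mrol_theta_onto` : under `MrolGenSpec M`, every `p`-torsion class of `J₀(M)(ℚ̄)` is
  `Θ (y mod p)` with `y ∈ Hom_pe(Γ₀(M)^ab, ℤ)`, for ANY injective additive
  `Θ : Hom_pe(Γ₀(M)^ab, ℤ/p) → J₀(M)(ℚ̄)` (counting: S27).
-/

set_option autoImplicit false
set_option linter.style.haveILetI false

noncomputable section

namespace Fermat.Agent.MR

open WeierstrassCurve CongruenceSubgroup Fermat.Agent.S16LB Fermat.Agent.G ModularCurve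
  ModularCurve.Period AlgebraicCurve Fermat.Agent.S41 Module
open scoped MatrixGroups BigOperators

/-! ## The abstract dual family -/

/-- **dual family.** For a finitely generated abelian group `H` and a set `P ⊆ H` there are
characters `e j : H →+ ℤ` killing `P` and elements `b i` with `e j (b i) = δ_ij` such that every
complex character killing `P` is `∑ φ(b j) e j`. -/
theorem mrol_dual_family {H : Type*} [AddCommGroup H] (hH : AddGroup.FG H) (P : Set H) :
    ∃ (r : ℕ) (e : Fin r → (H →+ ℤ)) (b : Fin r → H),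
      (∀ j, ∀ x ∈ P, e j x = 0) ∧ (∀ i j, e j (b i) = if i = j then 1 else 0) ∧
      ∀ φ : H →+ ℂ, (∀ x ∈ P, φ x = 0) → ∀ h : H, φ h = ∑ j, ((e j h : ℤ) : ℂ) * φ (b j) := by
  classical
  haveI : Module.Finite ℤ H := Module.Finite.iff_addGroup_fg.mpr hH
  let S : AddSubgroup H := AddSubgroup.closure P
  let π₁ : H →ₗ[ℤ] (H ⧸ S) := (QuotientAddGroup.mk' S).toIntLinearMap
  have hπ₁ : Function.Surjective π₁ := QuotientAddGroup.mk'_surjective S
  haveI : Module.Finite ℤ (H ⧸ S) := Module.Finite.of_surjective π₁ hπ₁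
  let T : Submodule ℤ (H ⧸ S) := Submodule.torsion ℤ (H ⧸ S)
  let π₂ : (H ⧸ S) →ₗ[ℤ] ((H ⧸ S) ⧸ T) := T.mkQ
  have hπ₂ : Function.Surjective π₂ := T.mkQ_surjective
  let π : H →ₗ[ℤ] ((H ⧸ S) ⧸ T) := π₂.comp π₁
  have hπ : Function.Surjective π := hπ₂.comp hπ₁
  haveI : Module.Finite ℤ ((H ⧸ S) ⧸ T) := Module.Finite.of_surjective π₂ hπ₂
  haveI : Module.IsTorsionFree ℤ ((H ⧸ S) ⧸ T) := Submodule.QuotientTorsion.instIsTorsionFree
  obtain ⟨r, β⟩ : Σ n : ℕ, Module.Basis (Fin n) ℤ ((H ⧸ S) ⧸ T) :=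
    Module.basisOfFiniteTypeTorsionFree'
  choose b hb using fun i => hπ (β i)
  refine ⟨r, fun j => ((β.coord j).comp π).toAddMonoidHom, b, ?_, ?_, ?_⟩
  · intro j x hx
    show β.coord j (π x) = 0
    have : π x = 0 := by
      show π₂ (π₁ x) = 0
      have h1 : π₁ x = 0 := by
        show (QuotientAddGroup.mk' S) x = 0
        rw [QuotientAddGroup.mk'_apply, QuotientAddGroup.eq_zero_iff]
        exact AddSubgroup.subset_closure hx
      rw [h1, map_zero]
    rw [this, map_zero]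
  · intro i j
    show β.coord j (π (b i)) = _
    rw [hb i, Module.Basis.coord_apply, Module.Basis.repr_self, Finsupp.single_apply]
  · intro φ hφ h
    -- descend `φ` to `H ⧸ S`
    have hSφ : S ≤ φ.ker := by
      rw [AddSubgroup.closure_le]
      intro x hx
      exact hφ x hx
    let φ₁ : (H ⧸ S) →+ ℂ := QuotientAddGroup.lift S φ hSφ
    -- descend to the torsion-free quotient
    have hTφ : T ≤ LinearMap.ker φ₁.toIntLinearMap := by
      intro x hx
      obtain ⟨a, ha⟩ := (Submodule.mem_torsion_iff x).mp hx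
      rw [LinearMap.mem_ker]
      have h1 : (a : ℤ) • φ₁ x = 0 := by
        rw [← map_zsmul, show (a : ℤ) • x = a • x from rfl, ha, map_zero]
      have ha0 : ((a : ℤ) : ℂ) ≠ 0 := by
        exact_mod_cast nonZeroDivisors.coe_ne_zero a
      rw [zsmul_eq_mul] at h1
      exact (mul_eq_zero.mp h1).resolve_left ha0
    let φ₂ : ((H ⧸ S) ⧸ T) →ₗ[ℤ] ℂ := T.liftQ φ₁.toIntLinearMap hTφ
    have hφ₂ : ∀ x, φ₂ (π x) = φ x := fun x => rfl
    have hsum : π h = ∑ j, (β.repr (π h) j) • β j := (β.sum_repr (π h)).symm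
    calc φ h = φ₂ (π h) := (hφ₂ h).symm
      _ = φ₂ (∑ j, (β.repr (π h) j) • β j) := by rw [← hsum]
      _ = ∑ j, (β.repr (π h) j) • φ₂ (β j) := by
          rw [map_sum]
          exact Finset.sum_congr rfl fun j _ => map_zsmul _ _ _
      _ = ∑ j, ((β.repr (π h) j : ℤ) : ℂ) * φ (b j) := by
          refine Finset.sum_congr rfl fun j _ => ?_
          rw [zsmul_eq_mul, ← hb j, hφ₂]

/-! ## The family for `Γ₀(M)^ab` -/

/-- the parabolic and elliptic classes of `Γ₀(M)^ab`. -/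
def mrolPE (M : ℕ) : Set (s16lbAb M) :=
  {x | ∃ γ : Gamma0 M, gprIsPE γ ∧ s16lbCls M (Additive.ofMul γ) = x}

theorem mrol_mem_homPE_iff {M : ℕ} {A : Type*} [AddCommGroup A] (x : s16lbAb M →+ A) :
    x ∈ gprHomPE M A ↔ ∀ h ∈ mrolPE M, x h = 0 := by
  constructor
  · rintro hx _ ⟨γ, hγ, rfl⟩
    exact hx γ hγ
  · intro hx γ hγ
    exact hx _ ⟨γ, hγ, rfl⟩

/-- **rank.** `2 dim S₂(Γ₀(M)) ≤ r` for any family spanning the complex `Hom_pe`. -/
theorem mrol_two_mul_finrank_le (M : ℕ) [NeZero M] {r : ℕ} (e : Fin r → (s16lbAb M →+ ℤ))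
    (b : Fin r → s16lbAb M)
    (hspan : ∀ φ : s16lbAb M →+ ℂ, (∀ x ∈ mrolPE M, φ x = 0) →
      ∀ h : s16lbAb M, φ h = ∑ j, ((e j h : ℤ) : ℂ) * φ (b j)) :
    2 * finrank ℂ (CuspForm (Gamma0 M) 2) ≤ r := by
  classical
  haveI : FiniteDimensional ℂ (CuspForm (Gamma0 M) 2) :=
    Fermat.Agent.S23.finiteDimensional_cuspForm M 2
  obtain ⟨hinj, hrange⟩ := Fermat.Agent.S21.result M
  let v : Fin r → (Additive (Gamma0 M) →+ ℂ) := fun j => (s41aslC (e j)).comp (s16lbCls M)
  have hle : LinearMap.range (periodHomPair M) ≤ Submodule.span ℂ (Set.range v) := by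
    rintro ψ hψ
    rw [hrange] at hψ
    have hpar : IsParabolicHom (Gamma0 M) ψ := mem_parabolicHoms_iff.mp hψ
    have hPE : s16lbDesc ψ ∈ gprHomPE M ℂ := gpr_mem_homPE_of_parabolic hpar
    have h1 := hspan (s16lbDesc ψ) ((mrol_mem_homPE_iff _).mp hPE)
    have h2 : ψ = ∑ j, (s16lbDesc ψ (b j)) • v j := by
      refine AddMonoidHom.ext fun γ => ?_
      rw [← s16lbDesc_cls ψ γ, h1 (s16lbCls M γ), AddMonoidHom.finsetSum_apply]
      refine Finset.sum_congr rfl fun j _ => ?_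
      rw [AddMonoidHom.smul_apply, AddMonoidHom.comp_apply, s41aslC_apply, smul_eq_mul, mul_comm]
    rw [h2]
    exact Submodule.sum_mem _ fun j _ =>
      Submodule.smul_mem _ _ (Submodule.subset_span ⟨j, rfl⟩)
  have h1 : finrank ℂ (LinearMap.range (periodHomPair M)) =
      finrank ℂ (CuspForm (Gamma0 M) 2 × CuspForm (Gamma0 M) 2) :=
    LinearMap.finrank_range_of_inj hinj
  have h2 : finrank ℂ (Submodule.span ℂ (Set.range v)) ≤ r := by
    have := finrank_range_le_card (R := ℂ) v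
    rwa [Fintype.card_fin] at this
  haveI : Module.Finite ℂ (Submodule.span ℂ (Set.range v)) :=
    Module.Finite.span_of_finite ℂ (Set.finite_range v)
  have h3 := Submodule.finrank_mono hle
  rw [h1, Module.finrank_prod] at h3
  omega

/-! ## The counting -/

/-- reduction mod `p` of an integral character killing the parabolic and elliptic classes. -/
theorem mrol_cast_mem {M : ℕ} (p : ℕ) {y : s16lbAb M →+ ℤ} (hy : y ∈ gprHomPE M ℤ) :
    (Int.castAddHom (ZMod p)).comp y ∈ gprHomPE M (ZMod p) := by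
  intro γ hγ
  rw [AddMonoidHom.comp_apply, hy γ hγ, map_zero]

/-- **(e), ONTO.** Under (mro-GEN), every `p`-torsion class of `J₀(M)(ℚ̄)` is `Θ (y mod p)`,
`y ∈ Hom_pe(Γ₀(M)^ab, ℤ)`, for any injective additive `Θ`. -/
theorem mrol_theta_onto {p M : ℕ} [NeZero M] (hp : p.Prime) (hgen : MrolGenSpec M)
    (Θ : gprHomPE M (ZMod p) →+ JZero M) (hΘ : Function.Injective Θ)
    (hΘp : ∀ χ, (p : ℤ) • Θ χ = 0) (x : JZero M) (hx : (p : ℤ) • x = 0) :
    ∃ (y : s16lbAb M →+ ℤ) (hy : y ∈ gprHomPE M ℤ),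
      Θ ⟨(Int.castAddHom (ZMod p)).comp y, mrol_cast_mem p hy⟩ = x := by
  classical
  haveI : Fact p.Prime := ⟨hp⟩
  haveI : NeZero p := ⟨hp.ne_zero⟩
  obtain ⟨r, e, b, he, hδ, hspan⟩ := mrol_dual_family (gpr_ab_fg M) (mrolPE M)
  have heL : ∀ j, e j ∈ gprHomPE M ℤ := fun j => (mrol_mem_homPE_iff _).mpr (he j)
  have hr : 2 * finrank ℂ (CuspForm (Gamma0 M) 2) ≤ r := mrol_two_mul_finrank_le M e b hspan
  -- the torsion subgroup and its cardinality
  haveI := Fermat.Agent.V.v27dv_isCurveOver_modular M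
  haveI := Fermat.Agent.V.v27dv_essFiniteType_modular M
  have hcard := Fermat.Agent.S27.result (AlgebraicClosure ℚ) (modularFunctionFieldBar M) p 1
  rw [pow_one, mul_one] at hcard
  have hfin : Finite ↥(Pic0.torsion (AlgebraicClosure ℚ) (modularFunctionFieldBar M) p) :=
    Nat.finite_of_card_ne_zero (by rw [hcard]; exact pow_ne_zero _ hp.ne_zero)
  -- the map `(ℤ/p)^r → J[p]`
  let lin : (Fin r → ZMod p) → (s16lbAb M →+ ℤ) := fun a => ∑ j, ((a j).val : ℤ) • e j
  have hlin : ∀ a, lin a ∈ gprHomPE M ℤ := fun a =>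
    (gprHomPE M ℤ).sum_mem fun j _ => (gprHomPE M ℤ).zsmul_mem (heL j) _
  let F : (Fin r → ZMod p) → ↥(Pic0.torsion (AlgebraicClosure ℚ) (modularFunctionFieldBar M) p) :=
    fun a => ⟨Θ ⟨(Int.castAddHom (ZMod p)).comp (lin a), mrol_cast_mem p (hlin a)⟩,
      Pic0.mem_torsion.mpr (hΘp _)⟩
  have hlin_b : ∀ a i, lin a (b i) = ((a i).val : ℤ) := by
    intro a i
    show (∑ j, ((a j).val : ℤ) • e j) (b i) = _
    rw [AddMonoidHom.finsetSum_apply, Finset.sum_eq_single i]
    · rw [AddMonoidHom.smul_apply, hδ i i, if_pos rfl, smul_eq_mul, mul_one]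
    · intro j _ hji
      rw [AddMonoidHom.smul_apply, hδ i j, if_neg (Ne.symm hji), smul_zero]
    · intro hi
      exact absurd (Finset.mem_univ i) hi
  have hFinj : Function.Injective F := by
    intro a a' haa
    have h1 : (⟨(Int.castAddHom (ZMod p)).comp (lin a), mrol_cast_mem p (hlin a)⟩ :
        gprHomPE M (ZMod p)) = ⟨(Int.castAddHom (ZMod p)).comp (lin a'),
          mrol_cast_mem p (hlin a')⟩ := hΘ (congrArg Subtype.val haa)
    have h2 : (Int.castAddHom (ZMod p)).comp (lin a) = (Int.castAddHom (ZMod p)).comp (lin a') :=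
      congrArg Subtype.val h1
    funext i
    have h3 := DFunLike.congr_fun h2 (b i)
    rw [AddMonoidHom.comp_apply, AddMonoidHom.comp_apply, hlin_b, hlin_b, Int.coe_castAddHom] at h3
    simp only [Int.cast_natCast, ZMod.natCast_zmod_val] at h3
    exact h3
  -- cardinalities
  have hcardle : Nat.card ↥(Pic0.torsion (AlgebraicClosure ℚ) (modularFunctionFieldBar M) p)
      ≤ Nat.card (Fin r → ZMod p) := by
    rw [hcard, Nat.card_eq_fintype_card, Fintype.card_fun, ZMod.card, Fintype.card_fin]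
    refine Nat.pow_le_pow_right hp.pos ?_
    have := hgen
    unfold MrolGenSpec at this
    omega
  have hFsurj : Function.Surjective F :=
    (Function.Injective.bijective_of_nat_card_le hFinj hcardle).2
  obtain ⟨a, ha⟩ := hFsurj ⟨x, Pic0.mem_torsion.mpr hx⟩
  exact ⟨lin a, hlin a, congrArg Subtype.val ha⟩

end Fermat.Agent.MR
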