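import Fermat.Agent.MR.Out.Main

/-!
# Program MR, block `mro`, leaf (mro-DS): the exit from the DESCENT CLAIM (helper22)

`mrol_exit_desc : MrolExitDescSpec`.  Input = the output of helper5's Galois descent (4204):
an equivariant additive `red : J₀(M)(ℚ̄) → Y`, a class `y` with `ξ = red y ≠ 0`, `p ξ = 0`,
`u ℓ ξ = a_ℓ ξ`, and

  (D)  every `t` in the ring generated by the `T_ℓ` (good `ℓ`) which kills `J₀(M)[p]`
       has `red (t y) = 0`.

Proof: `L = Hom_pe(Γ₀(M)^ab, ℤ)`, `A` = the commutative ring generated by the `T_ℓ` in `End L`,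
`I = (p, T_ℓ - a_ℓ) ⊆ A`.  If `I L = L` then `I = A` (Nakayama, `L` is a faithful finite
`A`-module), and transporting `1 ∈ I` through `Θ_p` (bijective onto `J₀(M)[p]`, `Count.lean`)
produces `t = 1 - t'` killing `J₀(M)[p]` with `red (t y) = ξ ≠ 0`, against (D).  So `I L ≠ L`
and `mrol_lift` (Deligne–Serre through `Q = I L`) + `mrol_es` give the eigenform.
-/

set_option autoImplicit false
set_option linter.style.haveILetI false

noncomputable section

namespace Fermat.Agent.MR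

open WeierstrassCurve CongruenceSubgroup Fermat.Agent.S16LB Fermat.Agent.G ModularCurve
  ModularCurve.Period AlgebraicCurve Fermat.Agent.S41 Module
open scoped MatrixGroups BigOperators IsMulCommutative

/-! ## Index type, operators -/

/-- the good primes: `ℓ` prime, `W` good at `ℓ`, `ℓ ∤ M`, `ℓ ≠ p`. -/
def mrolIdx (W : WeierstrassCurve ℤ) (p M : ℕ) : Type :=
  {ℓ : ℕ // ℓ.Prime ∧ W.IsGoodPrimeFor ℓ ∧ ¬ ℓ ∣ M ∧ ℓ ≠ p}

/-- `k ↦ k ∘ T_ℓ` on `L_M`. -/
def mrolTau (M : ℕ) [NeZero M] (ℓ : ℕ) : Module.End ℤ ↥(gprHomPE M ℤ) :=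
  AddMonoidHom.toIntLinearMap
    { toFun := fun k => ⟨k.1.comp (gprT M ℓ), mrol_stable M ℓ k.2⟩
      map_zero' := Subtype.ext (AddMonoidHom.zero_comp _)
      map_add' := fun _ _ => Subtype.ext (AddMonoidHom.add_comp _ _ _) }

theorem mrolTau_coe (M : ℕ) [NeZero M] (ℓ : ℕ) (k : ↥(gprHomPE M ℤ)) :
    ((mrolTau M ℓ k : ↥(gprHomPE M ℤ)) : s16lbAb M →+ ℤ) = k.1.comp (gprT M ℓ) := rfl

theorem mrolTau_comm (M : ℕ) [NeZero M] (ℓ ℓ' : ℕ) :
    mrolTau M ℓ * mrolTau M ℓ' = mrolTau M ℓ' * mrolTau M ℓ := by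
  refine LinearMap.ext fun k => Subtype.ext ?_
  rw [Module.End.mul_apply, Module.End.mul_apply, mrolTau_coe, mrolTau_coe, mrolTau_coe,
    mrolTau_coe]
  exact s41lat_gprT_comm M ℓ' ℓ k.2

/-! ## The abstract Nakayama step -/

/-- `L` a finite `ℤ`-module, `S` a commuting set of endomorphisms, `A` its closure, `I` an ideal
of `A` with `I L = L`: then `I = A`. -/
theorem mrol_nak {L : Type*} [AddCommGroup L] [Module.Finite ℤ L]
    (S : Set (Module.End ℤ L)) (hS : ∀ x ∈ S, ∀ y ∈ S, x * y = y * x) :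
    haveI : IsMulCommutative (Subring.closure S) := Subring.isMulCommutative_closure hS
    ∀ I : Ideal (Subring.closure S), (⊤ : Submodule (Subring.closure S) L) ≤ I • ⊤ → I = ⊤ := by
  haveI : IsMulCommutative (Subring.closure S) := Subring.isMulCommutative_closure hS
  intro I hI
  have hfg : (⊤ : Submodule (Subring.closure S) L).FG := by
    obtain ⟨s, hs⟩ := (Module.Finite.fg_top : (⊤ : Submodule ℤ L).FG)
    refine ⟨s, ?_⟩
    rw [eq_top_iff]
    intro k _
    have hk : k ∈ Submodule.span ℤ (s : Set L) := by rw [hs]; exact Submodule.mem_top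
    clear ‹k ∈ (⊤ : Submodule (Subring.closure S) L)›
    induction hk using Submodule.span_induction with
    | mem x hx => exact Submodule.subset_span hx
    | zero => exact Submodule.zero_mem _
    | add x y _ _ hx hy => exact Submodule.add_mem _ hx hy
    | smul n x _ hx =>
      have : n • x = ((n : ℤ) : Subring.closure S) • x := by
        rw [Subring.smul_def, Subring.coe_intCast]
        simp
      rw [this]
      exact Submodule.smul_mem _ _ hx
  obtain ⟨r, hr1, hr0⟩ :=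
    Submodule.exists_sub_one_mem_and_smul_eq_zero_of_fg_of_le_smul I ⊤ hfg hI
  have hr : r = 0 := by
    refine Subtype.ext (LinearMap.ext fun k => ?_)
    have := hr0 k Submodule.mem_top
    rw [Subring.smul_def] at this
    exact this
  rw [hr, zero_sub] at hr1
  rw [Ideal.eq_top_iff_one]
  have := I.neg_mem hr1
  rwa [neg_neg] at this

/-! ## From the Deligne–Serre output to the eigenform -/

theorem mrol_exit_of_eigen (W : WeierstrassCurve ℤ) {p M : ℕ} [NeZero M]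
    (c : s16lbAb M →+ ℂ) (lam : mrolIdx W p M → integralClosure ℤ ℂ)
    (𝔪' : Ideal (integralClosure ℤ ℂ)) (hc0 : c ≠ 0)
    (hkill : ∀ h : s16lbAb M, (∀ k ∈ gprHomPE M ℤ, k h = 0) → c h = 0)
    (hceig : ∀ i, c.comp (gprT M i.1) = (lam i : ℂ) • c) (hmax' : 𝔪'.IsMaximal)
    (hpm' : (p : integralClosure ℤ ℂ) ∈ 𝔪')
    (hcong' : ∀ i, lam i - ((W.apOfModel i.1 : ℤ) : integralClosure ℤ ℂ) ∈ 𝔪') :
    W.IsResiduallyModularOfLevel p M := by
  classical
  have hcPE : c ∈ gprHomPE M ℂ := fun γ hγ => hkill _ fun k hk => hk γ hγ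
  have hcpar : c.comp (s16lbCls M) ∈ parabolicHoms ℂ (Gamma0 M) ℂ := by
    rw [mem_parabolicHoms_iff]
    intro γ hγ
    rw [AddMonoidHom.comp_apply]
    refine hcPE γ ?_
    unfold gprIsPE
    rw [hγ]
  let PP : Set ℕ := {ℓ | ℓ.Prime ∧ W.IsGoodPrimeFor ℓ ∧ ¬ ℓ ∣ M ∧ ℓ ≠ p}
  let lam' : ℕ → ℂ := fun ℓ => if h : ℓ ∈ PP then ((lam ⟨ℓ, h⟩ : integralClosure ℤ ℂ) : ℂ) else 0
  obtain ⟨g, hg, hgT⟩ :=
    mrol_es M PP (fun ℓ hℓ => ⟨hℓ.1, hℓ.2.2.1⟩) c hcpar hc0 lam'
      (fun ℓ hℓ => by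
        show c.comp (gprT M ℓ) = lam' ℓ • c
        have : lam' ℓ = ((lam ⟨ℓ, hℓ⟩ : integralClosure ℤ ℂ) : ℂ) := dif_pos hℓ
        rw [this]
        exact hceig ⟨ℓ, hℓ⟩)
  refine ⟨g, 𝔪', hg, hmax', hpm', ?_⟩
  intro ℓ h1 h2 h3 h4
  have hℓ : ℓ ∈ PP := ⟨h1, h2, h3, h4⟩
  refine ⟨lam ⟨ℓ, hℓ⟩, ?_, hcong' ⟨ℓ, hℓ⟩⟩
  rw [hgT ℓ hℓ]
  show ((lam ⟨ℓ, hℓ⟩ : integralClosure ℤ ℂ) : ℂ) =
    (if h : ℓ ∈ PP then ((lam ⟨ℓ, h⟩ : integralClosure ℤ ℂ) : ℂ) else 0)
  rw [dif_pos hℓ]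

/-! ## The exit from the descent claim -/

/-- **(X4)** statement, kernel form: no operator on `Y` is needed, only that the `T_ℓ` preserve
`ker red` and that `red y` is an eigenvector in the sense `red (T_ℓ y) = a_ℓ red y`. -/
def MrolExitDescKerSpec : Prop :=
  ∀ (W : WeierstrassCurve ℤ) (p M : ℕ) [NeZero M], p.Prime → MrolGenSpec M →
    ∀ (Y : Type) [AddCommGroup Y] (red : JZero M →+ Y),
      (∀ (i : mrolIdx W p M) (w : JZero M), red w = 0 →
        red (heckeOperatorBar M ⟨i.1, i.2.1⟩ w) = 0) →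
      ∀ y : JZero M, red y ≠ 0 → (p : ℤ) • red y = 0 →
      (∀ i : mrolIdx W p M,
        red (heckeOperatorBar M ⟨i.1, i.2.1⟩ y) = (W.apOfModel i.1 : ℤ) • red y) →
      (∀ t ∈ Subring.closure
          (Set.range fun i : mrolIdx W p M => heckeOperatorBar M ⟨i.1, i.2.1⟩),
        (∀ x : JZero M, (p : ℤ) • x = 0 → t x = 0) → red (t y) = 0) →
      W.IsResiduallyModularOfLevel p M

/-- **(X4)** statement, operator form. -/
def MrolExitDescSpec : Prop :=
  ∀ (W : WeierstrassCurve ℤ) (p M : ℕ) [NeZero M], p.Prime → MrolGenSpec M →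
    ∀ (Y : Type) [AddCommGroup Y] (red : JZero M →+ Y) (u : ℕ → Y →+ Y),
      (∀ (i : mrolIdx W p M) (x : JZero M),
        red (heckeOperatorBar M ⟨i.1, i.2.1⟩ x) = u i.1 (red x)) →
      ∀ y : JZero M, red y ≠ 0 → (p : ℤ) • red y = 0 →
      (∀ i : mrolIdx W p M, u i.1 (red y) = (W.apOfModel i.1 : ℤ) • red y) →
      (∀ t ∈ Subring.closure
          (Set.range fun i : mrolIdx W p M => heckeOperatorBar M ⟨i.1, i.2.1⟩),
        (∀ x : JZero M, (p : ℤ) • x = 0 → t x = 0) → red (t y) = 0) →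
      W.IsResiduallyModularOfLevel p M

theorem mrol_exit_desc_ker : MrolExitDescKerSpec := by
  intro W p M _ hp hgen Y _ red hker y hy0 hyp heig hD
  classical
  obtain ⟨Θ, hinj, hΘ⟩ := gun_theta M p hp.pos
  have htors := mrol_theta_tors hp Θ
  -- `Φ : L → J[p]`
  let Φ : ↥(gprHomPE M ℤ) →+ JZero M := Θ.comp (mrolRedHom p M)
  have hΦ : ∀ k, Φ k = Θ (mrolRedHom p M k) := fun k => rfl
  have hΦonto : ∀ x : JZero M, (p : ℤ) • x = 0 → ∃ k, Φ k = x := by
    intro x hx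
    obtain ⟨y₁, hy₁, hxy₁⟩ := mrol_theta_onto hp hgen Θ hinj htors x hx
    exact ⟨⟨y₁, hy₁⟩, hxy₁⟩
  have hΦT : ∀ (i : mrolIdx W p M) (k : ↥(gprHomPE M ℤ)),
      Φ (mrolTau M i.1 k) = heckeOperatorBar M ⟨i.1, i.2.1⟩ (Φ k) := by
    intro i k
    obtain ⟨ℓ, h1, h2, h3, h4⟩ := i
    have hℓp : ¬ ℓ ∣ p := fun h => h4 ((Nat.prime_dvd_prime_iff_eq h1 hp).mp h)
    exact hΘ ℓ h1 h3 hℓp (mrolRedHom p M k) (mrolRedHom p M (mrolTau M ℓ k)) rfl
  have hΦp : ∀ k : ↥(gprHomPE M ℤ), (p : ℤ) • Φ k = 0 := fun k => htors _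
  -- the rings
  let S : Set (Module.End ℤ ↥(gprHomPE M ℤ)) := Set.range fun i : mrolIdx W p M => mrolTau M i.1
  have hS : ∀ x ∈ S, ∀ y ∈ S, x * y = y * x := by
    rintro _ ⟨i, rfl⟩ _ ⟨j, rfl⟩
    exact mrolTau_comm M i.1 j.1
  haveI : IsMulCommutative (Subring.closure S) := Subring.isMulCommutative_closure hS
  let 𝒯 : Subring (Module.End ℤ (JZero M)) := Subring.closure
    (Set.range fun i : mrolIdx W p M => heckeOperatorBar M ⟨i.1, i.2.1⟩)
  -- every element of `A` has a partner in `𝒯`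
  have hA : ∀ a ∈ Subring.closure S, ∃ s ∈ 𝒯,
      (∀ k : ↥(gprHomPE M ℤ), Φ (a k) = s (Φ k)) ∧ (∀ w : JZero M, red w = 0 → red (s w) = 0) := by
    intro a ha
    induction ha using Subring.closure_induction with
    | mem a ha =>
      obtain ⟨i, rfl⟩ := ha
      refine ⟨heckeOperatorBar M ⟨i.1, i.2.1⟩, Subring.subset_closure ⟨i, rfl⟩, hΦT i, ?_⟩
      intro w hw
      exact hker i w hw
    | zero =>
      exact ⟨0, 𝒯.zero_mem, fun k => by simp, fun w _ => by simp⟩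
    | one =>
      exact ⟨1, 𝒯.one_mem, fun k => by simp, fun w hw => by simpa using hw⟩
    | add a a' _ _ iha iha' =>
      obtain ⟨s, hs, h1, h2⟩ := iha
      obtain ⟨s', hs', h1', h2'⟩ := iha'
      refine ⟨s + s', 𝒯.add_mem hs hs', fun k => ?_, fun w hw => ?_⟩
      · rw [LinearMap.add_apply, map_add, h1, h1', LinearMap.add_apply]
      · rw [LinearMap.add_apply, map_add, h2 w hw, h2' w hw, add_zero]
    | neg a _ iha =>
      obtain ⟨s, hs, h1, h2⟩ := iha
      refine ⟨-s, 𝒯.neg_mem hs, fun k => ?_, fun w hw => ?_⟩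
      · rw [LinearMap.neg_apply, map_neg, h1, LinearMap.neg_apply]
      · rw [LinearMap.neg_apply, map_neg, h2 w hw, neg_zero]
    | mul a a' _ _ iha iha' =>
      obtain ⟨s, hs, h1, h2⟩ := iha
      obtain ⟨s', hs', h1', h2'⟩ := iha'
      refine ⟨s * s', 𝒯.mul_mem hs hs', fun k => ?_, fun w hw => ?_⟩
      · rw [Module.End.mul_apply, h1, h1', Module.End.mul_apply]
      · rw [Module.End.mul_apply]
        exact h2 _ (h2' w hw)
  -- the ideal `I`
  let τ : mrolIdx W p M → Subring.closure S := fun i =>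
    ⟨mrolTau M i.1, Subring.subset_closure ⟨i, rfl⟩⟩
  let G : Set (Subring.closure S) :=
    {g | g = (p : Subring.closure S) ∨ ∃ i, g = τ i - ((W.apOfModel i.1 : ℤ) : Subring.closure S)}
  have hI : ∀ x ∈ Ideal.span G, ∃ t ∈ 𝒯,
      (∀ k : ↥(gprHomPE M ℤ), Φ ((x : Module.End ℤ ↥(gprHomPE M ℤ)) k) = t (Φ k)) ∧
        red (t y) = 0 := by
    intro x hx
    induction hx using Submodule.span_induction with
    | mem g hg =>
      rcases hg with rfl | ⟨i, rfl⟩
      · refine ⟨(p : Module.End ℤ (JZero M)), natCast_mem 𝒯 p, fun k => ?_, ?_⟩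
        · rw [Subring.coe_natCast, Module.End.natCast_apply, Module.End.natCast_apply, map_nsmul]
        · rw [Module.End.natCast_apply, map_nsmul, ← natCast_zsmul, hyp]
      · refine ⟨heckeOperatorBar M ⟨i.1, i.2.1⟩ - ((W.apOfModel i.1 : ℤ) : Module.End ℤ (JZero M)),
          𝒯.sub_mem (Subring.subset_closure ⟨i, rfl⟩) (intCast_mem 𝒯 _), fun k => ?_, ?_⟩
        · rw [AddSubgroupClass.coe_sub, Subring.coe_intCast, LinearMap.sub_apply,
            Module.End.intCast_apply, map_sub, map_zsmul, LinearMap.sub_apply,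
            Module.End.intCast_apply]
          congr 1
          exact hΦT i k
        · rw [LinearMap.sub_apply, Module.End.intCast_apply, map_sub, map_zsmul, heig i, sub_self]
    | zero =>
      exact ⟨0, 𝒯.zero_mem, fun k => by simp, by simp⟩
    | add x x' _ _ ihx ihx' =>
      obtain ⟨t, ht, h1, h2⟩ := ihx
      obtain ⟨t', ht', h1', h2'⟩ := ihx'
      refine ⟨t + t', 𝒯.add_mem ht ht', fun k => ?_, ?_⟩
      · rw [Subring.coe_add, LinearMap.add_apply, map_add, h1, h1', LinearMap.add_apply]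
      · rw [LinearMap.add_apply, map_add, h2, h2', add_zero]
    | smul a x _ ihx =>
      obtain ⟨t, ht, h1, h2⟩ := ihx
      obtain ⟨s, hs, h3, h4⟩ := hA a.1 a.2
      refine ⟨s * t, 𝒯.mul_mem hs ht, fun k => ?_, ?_⟩
      · rw [smul_eq_mul, Subring.coe_mul, Module.End.mul_apply, h3, h1, Module.End.mul_apply]
      · rw [Module.End.mul_apply]
        exact h4 _ h2
  have hItop : Ideal.span G ≠ ⊤ := by
    intro htop
    obtain ⟨t, ht, h1, h2⟩ := hI 1 (by rw [htop]; exact Submodule.mem_top)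
    have h3 : red ((1 - t) y) = 0 := by
      refine hD (1 - t) (𝒯.sub_mem 𝒯.one_mem ht) fun x hx => ?_
      obtain ⟨k, rfl⟩ := hΦonto x hx
      rw [LinearMap.sub_apply, Module.End.one_apply, ← h1 k, Subring.coe_one,
        Module.End.one_apply, sub_self]
    rw [LinearMap.sub_apply, Module.End.one_apply, map_sub, h2, sub_zero] at h3
    exact hy0 h3
  -- Nakayama
  have hne : ¬ (⊤ : Submodule (Subring.closure S) ↥(gprHomPE M ℤ)) ≤ Ideal.span G • ⊤ :=
    fun h => hItop (mrol_nak S hS (Ideal.span G) h)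
  obtain ⟨y₀, hy₀⟩ : ∃ y₀ : ↥(gprHomPE M ℤ),
      y₀ ∉ Ideal.span G • (⊤ : Submodule (Subring.closure S) ↥(gprHomPE M ℤ)) := by
    by_contra h
    push Not at h
    exact hne fun k _ => h k
  -- the sublattice `Q = I L`
  let QL : Submodule (Subring.closure S) ↥(gprHomPE M ℤ) := Ideal.span G • ⊤
  let Q : AddSubgroup (s16lbAb M →+ ℤ) := QL.toAddSubgroup.map (gprHomPE M ℤ).subtype
  have hQ : ∀ k : ↥(gprHomPE M ℤ), k.1 ∈ Q ↔ k ∈ QL := by
    intro k
    constructor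
    · rintro ⟨k', hk', hkk⟩
      have : k' = k := Subtype.ext hkk
      rw [← this]
      exact hk'
    · intro hk
      exact ⟨k, hk, rfl⟩
  have hτQ : ∀ (a : Subring.closure S) (k : ↥(gprHomPE M ℤ)), a ∈ Ideal.span G → a • k ∈ QL :=
    fun a k ha => Submodule.smul_mem_smul ha Submodule.mem_top
  obtain ⟨c, lam, 𝔪', hc0, hkill, hceig, hmax', hpm', hcong'⟩ :=
    mrol_lift (gpr_ab_fg M) (fun i : mrolIdx W p M => gprT M i.1) (gprHomPE M ℤ)
      (fun i y hy => mrol_stable M i.1 hy) (fun i j y hy => s41lat_gprT_comm M i.1 j.1 hy)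
      Q
      (by
        rintro i _ ⟨k', hk', rfl⟩
        have : (τ i • k' : ↥(gprHomPE M ℤ)) ∈ QL := QL.smul_mem (τ i) hk'
        exact (hQ (τ i • k')).mpr this)
      (p := p)
      (by
        intro k hk
        have h1 : ((p : Subring.closure S) • (⟨k, hk⟩ : ↥(gprHomPE M ℤ))) ∈ QL :=
          hτQ _ _ (Ideal.subset_span (Or.inl rfl))
        have h2 := (hQ _).mpr h1
        have h3 : (((p : Subring.closure S) • (⟨k, hk⟩ : ↥(gprHomPE M ℤ)) :
            ↥(gprHomPE M ℤ)) : s16lbAb M →+ ℤ) = (p : ℤ) • k := by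
          rw [Subring.smul_def, Subring.coe_natCast]
          show ((((p : ℕ) : Module.End ℤ ↥(gprHomPE M ℤ)) (⟨k, hk⟩ : ↥(gprHomPE M ℤ)) :
            ↥(gprHomPE M ℤ)) : s16lbAb M →+ ℤ) = (p : ℤ) • k
          rw [Module.End.natCast_apply, natCast_zsmul]
          rfl
        rw [← h3]
        exact h2)
      Set.univ (fun i => W.apOfModel i.1) y₀.1 y₀.2
      (fun h => hy₀ ((hQ y₀).mp h))
      (by
        intro i _
        have h1 : ((τ i - ((W.apOfModel i.1 : ℤ) : Subring.closure S)) • y₀) ∈ QL :=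
          hτQ _ _ (Ideal.subset_span (Or.inr ⟨i, rfl⟩))
        have h2 := (hQ _).mpr h1
        have h3 : (((τ i - ((W.apOfModel i.1 : ℤ) : Subring.closure S)) • y₀ :
            ↥(gprHomPE M ℤ)) : s16lbAb M →+ ℤ)
            = y₀.1.comp (gprT M i.1) - (W.apOfModel i.1 : ℤ) • y₀.1 := by
          rw [Subring.smul_def, AddSubgroupClass.coe_sub, Subring.coe_intCast]
          show ((((mrolTau M i.1 - ((W.apOfModel i.1 : ℤ) : Module.End ℤ ↥(gprHomPE M ℤ))))
            y₀ : ↥(gprHomPE M ℤ)) : s16lbAb M →+ ℤ) = _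
          rw [LinearMap.sub_apply, Module.End.intCast_apply]
          rfl
        rw [← h3]
        exact h2)
  exact mrol_exit_of_eigen W c lam 𝔪' hc0 hkill hceig hmax' hpm'
    (fun i => hcong' i (Set.mem_univ _))

theorem mrol_exit_desc : MrolExitDescSpec := by
  intro W p M _ hp hgen Y _ red u hred y hy0 hyp heig hD
  refine mrol_exit_desc_ker W p M hp hgen Y red ?_ y hy0 hyp ?_ hD
  · intro i w hw
    rw [hred i w, hw, map_zero]
  · intro i
    rw [hred i y, heig i]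

end Fermat.Agent.MR
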