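import Mathlib
import Fermat.Agent.V.A.Main
import Fermat.Agent.FF.Genus
import Fermat.Agent.G.Red.Spec
import Fermat.Agent.S18.Core.Descend
import Fermat.Agent.G.Kron.Defs

/-!
# PROGRAM MR (S44), block `mro` (TRANSFER-OUT), leaf (d) : the FROBENIUS STRUCTURE of `F_k(N)`
(owner helper14, prefix `mrof`)

`k` a field, `F_k(N) = modularFunctionFieldFullC k N ⊆ k((q))`.

* `mrofBar k N τ : SemilinearAut k F_k(N)` : the COEFFICIENTWISE action of a ring automorphism `τ`
  of `k` (`mrofBar_coe`, `mrofBar_baseAut`, `mrofBarHom` : a group homomorphism);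
* `MrofCoeffwise k N g` : `g` acts coefficientwise; `mrof_eq_bar` : then `g = mrofBar k N (baseAut g)`;
* `mrof_frob` : a coefficientwise `g` with base `c ↦ c ^ (p ^ r)`, `r > 0`, over a field `k` which is
  a union of finite fields, is a FROBENIUS STRUCTURE `V27Frob p g (p ^ r)`;
* `mrofFix g` : the subgroup of `g`-fixed classes of `Pic0`;
  `mrof_specZeta`, `mrof_finite_fix` (GENERIC, any Prelude curve over an algebraically closed field
  of characteristic `p`) : the fixed classes of a Frobenius structure are FINITE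
  (no fixed place needed);
* `mrof_finite_fix_res` : THE INSTANCE at `k = ResidueField 𝔸`, `𝔸` over `p ≥ 5`, `p ∤ M`,
  hypothesis-free.
-/

set_option autoImplicit false
set_option linter.unusedSectionVars false
set_option linter.unusedVariables false
set_option linter.style.haveILetI false

noncomputable section

namespace Fermat.Agent.MR

open ModularCurve AlgebraicCurve IsLocalRing Fermat.Agent.V Fermat.Agent.V.RR Fermat.Agent.FF
  Fermat.Agent.G Fermat.Agent.S18

/-! ### the coefficientwise action -/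

section Bar

variable (k : Type*) [Field k] (N : ℕ)

/-- the coefficientwise action of a ring endomorphism of `k` on `F_k(N)` -/
def mrofHom (τ : k →+* k) : modularFunctionFieldFullC k N →+* modularFunctionFieldFullC k N where
  toFun x := ⟨coeffMap τ (x : LaurentSeries k), s18dd_coeffMap_mem_full τ N x.2⟩
  map_one' := Subtype.ext (map_one _)
  map_mul' x y := Subtype.ext (map_mul _ _ _)
  map_zero' := Subtype.ext (map_zero _)
  map_add' x y := Subtype.ext (map_add _ _ _)

theorem mrofHom_coe (τ : k →+* k) (x : modularFunctionFieldFullC k N) :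
    ((mrofHom k N τ x : modularFunctionFieldFullC k N) : LaurentSeries k) =
      coeffMap τ (x : LaurentSeries k) := rfl

theorem mrofHom_comp (σ τ : k →+* k) (x : modularFunctionFieldFullC k N) :
    mrofHom k N σ (mrofHom k N τ x) = mrofHom k N (σ.comp τ) x := by
  apply Subtype.ext
  rw [mrofHom_coe, mrofHom_coe, mrofHom_coe, coeffMap_coeffMap]

theorem mrofHom_id (x : modularFunctionFieldFullC k N) : mrofHom k N (RingHom.id k) x = x := by
  apply Subtype.ext
  rw [mrofHom_coe, coeffMap_id]

/-- the coefficientwise action of a ring automorphism of `k` on `F_k(N)`, as a ring automorphism -/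
def mrofEquiv (τ : k ≃+* k) : modularFunctionFieldFullC k N ≃+* modularFunctionFieldFullC k N where
  toFun := mrofHom k N (τ : k →+* k)
  invFun := mrofHom k N (τ.symm : k →+* k)
  left_inv x := by
    rw [mrofHom_comp]
    have h : ((τ.symm : k →+* k)).comp (τ : k →+* k) = RingHom.id k :=
      RingHom.ext fun c => τ.symm_apply_apply c
    rw [h, mrofHom_id]
  right_inv x := by
    rw [mrofHom_comp]
    have h : ((τ : k →+* k)).comp (τ.symm : k →+* k) = RingHom.id k :=
      RingHom.ext fun c => τ.apply_symm_apply c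
    rw [h, mrofHom_id]
  map_mul' := map_mul _
  map_add' := map_add _

theorem mrofEquiv_coe (τ : k ≃+* k) (x : modularFunctionFieldFullC k N) :
    ((mrofEquiv k N τ x : modularFunctionFieldFullC k N) : LaurentSeries k) =
      coeffMap (τ : k →+* k) (x : LaurentSeries k) := rfl

/-- **the coefficientwise semilinear automorphism `τ_*` of `F_k(N) / k`** -/
def mrofBar (τ : k ≃+* k) : SemilinearAut k (modularFunctionFieldFullC k N) :=
  ⟨(mrofEquiv k N τ, τ), fun c => by
    apply Subtype.ext
    show coeffMap (τ : k →+* k) (algebraMap k (LaurentSeries k) c) =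
      algebraMap k (LaurentSeries k) (τ c)
    exact coeffMap_algebraMap (τ : k →+* k) c⟩

@[simp]
theorem mrofBar_baseAut (τ : k ≃+* k) : SemilinearAut.baseAut (mrofBar k N τ) = τ := rfl

@[simp]
theorem mrofBar_toRingAut (τ : k ≃+* k) :
    SemilinearAut.toRingAut (mrofBar k N τ) = mrofEquiv k N τ := rfl

theorem mrofBar_coe (τ : k ≃+* k) (x : modularFunctionFieldFullC k N) :
    ((mrofBar k N τ • x : modularFunctionFieldFullC k N) : LaurentSeries k) =
      coeffMap (τ : k →+* k) (x : LaurentSeries k) := rfl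

theorem mrofBar_one : mrofBar k N (1 : k ≃+* k) = 1 := by
  apply Subtype.ext
  refine Prod.ext (RingEquiv.ext fun x => ?_) rfl
  apply Subtype.ext
  show coeffMap (RingHom.id k) (x : LaurentSeries k) = _
  rw [coeffMap_id]
  rfl

theorem mrofBar_mul (σ τ : k ≃+* k) :
    mrofBar k N (σ * τ) = mrofBar k N σ * mrofBar k N τ := by
  apply Subtype.ext
  refine Prod.ext (RingEquiv.ext fun x => ?_) rfl
  apply Subtype.ext
  show coeffMap ((σ * τ : k ≃+* k) : k →+* k) (x : LaurentSeries k) =
    coeffMap (σ : k →+* k) (coeffMap (τ : k →+* k) (x : LaurentSeries k))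
  rw [coeffMap_coeffMap]
  rfl

/-- `τ ↦ τ_*` as a group homomorphism -/
def mrofBarHom : (k ≃+* k) →* SemilinearAut k (modularFunctionFieldFullC k N) where
  toFun := mrofBar k N
  map_one' := mrofBar_one k N
  map_mul' := mrofBar_mul k N

@[simp]
theorem mrofBarHom_apply (τ : k ≃+* k) : mrofBarHom k N τ = mrofBar k N τ := rfl

theorem mrofBar_pow (τ : k ≃+* k) (m : ℕ) : mrofBar k N τ ^ m = mrofBar k N (τ ^ m) :=
  (map_pow (mrofBarHom k N) τ m).symm

theorem mrofBar_inv (τ : k ≃+* k) : (mrofBar k N τ)⁻¹ = mrofBar k N τ⁻¹ :=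
  (map_inv (mrofBarHom k N) τ).symm

/-- `g` acts coefficientwise on `F_k(N) ⊆ k((q))`. -/
def MrofCoeffwise (g : SemilinearAut k (modularFunctionFieldFullC k N)) : Prop :=
  ∀ x : modularFunctionFieldFullC k N,
    ((g • x : modularFunctionFieldFullC k N) : LaurentSeries k) =
      coeffMap ((SemilinearAut.baseAut g : k ≃+* k) : k →+* k) (x : LaurentSeries k)

theorem mrofBar_coeffwise (τ : k ≃+* k) : MrofCoeffwise k N (mrofBar k N τ) := fun _ => rfl

variable {k N}

/-- a coefficientwise semilinear automorphism is determined by its base automorphism -/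
theorem mrof_eq_bar {g : SemilinearAut k (modularFunctionFieldFullC k N)}
    (hg : MrofCoeffwise k N g) : g = mrofBar k N (SemilinearAut.baseAut g) := by
  apply Subtype.ext
  refine Prod.ext (RingEquiv.ext fun x => ?_) rfl
  apply Subtype.ext
  exact hg x

theorem MrofCoeffwise.pow {g : SemilinearAut k (modularFunctionFieldFullC k N)}
    (hg : MrofCoeffwise k N g) (m : ℕ) : MrofCoeffwise k N (g ^ m) := by
  rw [mrof_eq_bar hg, mrofBar_pow]
  exact mrofBar_coeffwise k N _

theorem MrofCoeffwise.mul {g h : SemilinearAut k (modularFunctionFieldFullC k N)}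
    (hg : MrofCoeffwise k N g) (hh : MrofCoeffwise k N h) : MrofCoeffwise k N (g * h) := by
  rw [mrof_eq_bar hg, mrof_eq_bar hh, ← mrofBar_mul]
  exact mrofBar_coeffwise k N _

theorem MrofCoeffwise.inv {g : SemilinearAut k (modularFunctionFieldFullC k N)}
    (hg : MrofCoeffwise k N g) : MrofCoeffwise k N g⁻¹ := by
  rw [mrof_eq_bar hg, mrofBar_inv]
  exact mrofBar_coeffwise k N _

end Bar

/-! ### the Frobenius structure -/

section Frob

variable {k : Type*} [Field k] {N : ℕ}

/-- a fixed point of `g` is fixed by every power of `g` -/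
theorem mrof_pow_smul_fixed {G α : Type*} [Monoid G] [MulAction G α] {g : G} {a : α}
    (h : g • a = a) (n : ℕ) : g ^ n • a = a := by
  induction n with
  | zero => rw [pow_zero, one_smul]
  | succ n ih => rw [pow_succ, mul_smul, h, ih]

/-- the fixed series of a coefficientwise ring endomorphism are stable under powers -/
theorem mrof_coeffMap_pow_fixed (τ : k ≃+* k) {m : ℕ} {x : LaurentSeries k}
    (h : coeffMap ((τ ^ m : k ≃+* k) : k →+* k) x = x) (n : ℕ) :
    coeffMap ((τ ^ (m * n) : k ≃+* k) : k →+* k) x = x := by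
  induction n with
  | zero =>
    rw [Nat.mul_zero, pow_zero]
    exact coeffMap_id x
  | succ n ih =>
    have e : ((τ ^ (m * (n + 1)) : k ≃+* k) : k →+* k) =
        ((τ ^ (m * n) : k ≃+* k) : k →+* k).comp ((τ ^ m : k ≃+* k) : k →+* k) := by
      rw [Nat.mul_succ, pow_add]
      rfl
    rw [e, ← coeffMap_coeffMap, h, ih]

/-- every element of `F_k(N)` is fixed by a positive power of the coefficientwise action of `τ`,
as soon as every element of `k` is. -/
theorem mrof_loc_series (τ : k ≃+* k)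
    (hτ : ∀ c : k, ∃ m : ℕ, 0 < m ∧ (τ ^ m) c = c) {x : LaurentSeries k}
    (hx : x ∈ modularFunctionFieldFullC k N) :
    ∃ m : ℕ, 0 < m ∧ coeffMap ((τ ^ m : k ≃+* k) : k →+* k) x = x := by
  unfold modularFunctionFieldFullC at hx
  induction hx using IntermediateField.adjoin_induction with
  | mem y hy =>
    obtain ⟨d, hd, -, rfl⟩ := hy
    haveI := hd
    exact ⟨1, one_pos, by rw [coeffMap_qExpand, coeffMap_jqModC]⟩
  | algebraMap c =>
    obtain ⟨m, hm, hc⟩ := hτ c
    refine ⟨m, hm, ?_⟩
    rw [coeffMap_algebraMap]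
    exact congrArg _ hc
  | add y z _ _ hy hz =>
    obtain ⟨m, hm, hy⟩ := hy
    obtain ⟨n, hn, hz⟩ := hz
    refine ⟨m * n, Nat.mul_pos hm hn, ?_⟩
    rw [map_add, mrof_coeffMap_pow_fixed τ hy n]
    have hz' := mrof_coeffMap_pow_fixed τ hz m
    rw [Nat.mul_comm] at hz'
    rw [hz']
  | inv y _ hy =>
    obtain ⟨m, hm, hy⟩ := hy
    exact ⟨m, hm, by rw [map_inv₀, hy]⟩
  | mul y z _ _ hy hz =>
    obtain ⟨m, hm, hy⟩ := hy
    obtain ⟨n, hn, hz⟩ := hz
    refine ⟨m * n, Nat.mul_pos hm hn, ?_⟩
    rw [map_mul, mrof_coeffMap_pow_fixed τ hy n]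
    have hz' := mrof_coeffMap_pow_fixed τ hz m
    rw [Nat.mul_comm] at hz'
    rw [hz']

/-- the local finiteness of a coefficientwise semilinear automorphism -/
theorem mrof_loc {g : SemilinearAut k (modularFunctionFieldFullC k N)}
    (hg : MrofCoeffwise k N g)
    (hτ : ∀ c : k, ∃ m : ℕ, 0 < m ∧ (SemilinearAut.baseAut g ^ m) c = c)
    (f : modularFunctionFieldFullC k N) : ∃ m : ℕ, 0 < m ∧ (g ^ m) • f = f := by
  obtain ⟨m, hm, h⟩ := mrof_loc_series (N := N) (SemilinearAut.baseAut g) hτ f.2
  refine ⟨m, hm, Subtype.ext ?_⟩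
  rw [hg.pow m f, v27_baseAut_pow]
  exact h

/-- **(d), the FROBENIUS STRUCTURE of `F_k(N)`** : a coefficientwise semilinear automorphism with
base `c ↦ c ^ (p ^ r)`, `r > 0`, over a field `k` which is a union of finite fields. -/
theorem mrof_frob {p : ℕ} (hk : V27fcAlg p k)
    {g : SemilinearAut k (modularFunctionFieldFullC k N)} (hg : MrofCoeffwise k N g)
    {r : ℕ} (hr : 0 < r) (hbase : ∀ c : k, SemilinearAut.baseAut g c = c ^ p ^ r) :
    V27Frob p g (p ^ r) where
  hQ := ⟨r, hr, rfl⟩
  base := hbase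
  loc := mrof_loc hg fun c => by
    obtain ⟨s, hs, hc⟩ := hk c
    refine ⟨s, hs, ?_⟩
    rw [← v27_baseAut_pow, v27_baseAut_pow_apply hbase, ← pow_mul, Nat.mul_comm]
    exact v27fc_pow_mul hc r

end Frob

/-! ### the fixed classes of a Frobenius structure are finite (generic) -/

section Generic

variable {k F : Type*} [Field k] [Field F] [Algebra k F]

/-- the subgroup of `g`-fixed classes of `Pic0` -/
def mrofFix (g : SemilinearAut k F) : AddSubgroup (Pic0 k F) where
  carrier := {x | g • x = x}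
  zero_mem' := (v27Phi g).map_zero
  add_mem' := fun {a b} ha hb => by
    show v27Phi g (a + b) = a + b
    rw [map_add]
    exact congrArg₂ (· + ·) ha hb
  neg_mem' := fun {a} ha => by
    show v27Phi g (-a) = -a
    rw [map_neg]
    exact congrArg (- ·) ha

theorem mem_mrofFix {g : SemilinearAut k F} {x : Pic0 k F} : x ∈ mrofFix g ↔ g • x = x := Iff.rfl

/-- the zeta function of a Frobenius structure with a fixed place (the closed chain of
`v27A_main`). -/
theorem mrof_specZeta (p : ℕ) [Fact p.Prime] [IsAlgClosed k] [CharP k p] [IsCurveOver k F]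
    [Algebra.EssFiniteType k F] {σ : SemilinearAut k F} {Q : ℕ} (hF : V27Frob p σ Q)
    (hv : ∃ v₀ : Place k F, σ • v₀ = v₀) : V27SpecZeta σ Q (genusFF k F) := by
  have hRR : V27RR k F (genusFF k F) := v27x_rr
  exact v27zs_specZeta_frob hF hv hRR (v27A_specOrbit hF) (v27A_specCount p hRR hF)
    (v27A_specPicDesc p hRR hF hv)

/-- **the fixed classes of a Frobenius structure are FINITE** (no fixed place needed). -/
theorem mrof_finite_fix (p : ℕ) [Fact p.Prime] [IsAlgClosed k] [CharP k p] [IsCurveOver k F]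
    [Algebra.EssFiniteType k F] {σ : SemilinearAut k F} {Q : ℕ} (hF : V27Frob p σ Q) :
    Finite ↥(mrofFix σ) := by
  haveI : PerfectField k := IsAlgClosed.perfectField k
  obtain ⟨v₀⟩ := v27x_nonempty_place (K := k) (F := F)
  obtain ⟨m, hm, hv⟩ := v27fo_place_orbit_finite σ hF.loc v₀
  have hZ := mrof_specZeta p (hF.pow hm) ⟨v₀, hv⟩
  haveI : Finite {x : Pic0 k F // (σ ^ m) • x = x} := hZ.1
  exact Finite.of_injective
    (fun x : ↥(mrofFix σ) =>
      (⟨x.1, mrof_pow_smul_fixed x.2 m⟩ : {x : Pic0 k F // (σ ^ m) • x = x}))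
    (fun a b h => Subtype.ext (congrArg (fun y : {x : Pic0 k F // (σ ^ m) • x = x} => y.1) h))

/-- the same, on the subtype of `V27SpecZeta`. -/
theorem mrof_finite_fix_subtype (p : ℕ) [Fact p.Prime] [IsAlgClosed k] [CharP k p]
    [IsCurveOver k F] [Algebra.EssFiniteType k F] {σ : SemilinearAut k F} {Q : ℕ}
    (hF : V27Frob p σ Q) : Finite {x : Pic0 k F // σ • x = x} :=
  mrof_finite_fix p hF

end Generic

/-! ### the instance at `k = ResidueField 𝔸` -/

section Res

local notation "Qb" => AlgebraicClosure ℚ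

variable {p : ℕ} [Fact p.Prime] (M : ℕ) [NeZero M] (A : ValuationSubring Qb)

/-- `k = 𝔸/𝔪` is a union of finite fields. -/
theorem mrof_alg_res (hA : A.LiesOverPrime p) : V27fcAlg p (ResidueField A) := by
  haveI : CharP (ResidueField A) p := s18ac_charP A hA
  letI : Algebra (ZMod p) (ResidueField A) := ZMod.algebra _ p
  haveI : Algebra.IsAlgebraic (ZMod p) (ResidueField A) := ffg_isAlgebraic_residue A
  exact v27fc_alg_of_isAlgebraic p (ResidueField A)

omit [NeZero M] in
/-- the Frobenius structure of `F_k(M)`, `k = 𝔸/𝔪` -/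
theorem mrof_frob_res (hA : A.LiesOverPrime p)
    {g : SemilinearAut (ResidueField A) (modularFunctionFieldFullC (ResidueField A) M)}
    (hg : MrofCoeffwise (ResidueField A) M g) {r : ℕ} (hr : 0 < r)
    (hbase : ∀ c : ResidueField A, SemilinearAut.baseAut g c = c ^ p ^ r) :
    V27Frob p g (p ^ r) :=
  mrof_frob (mrof_alg_res A hA) hg hr hbase

/-- **(d), THE INSTANCE** : over `k = 𝔸/𝔪`, `𝔸` over `p ≥ 5`, `p ∤ M`, the classes of
`Pic⁰(F_k(M))` fixed by the coefficientwise `p ^ r`-Frobenius, `r > 0`, form a FINITE group. -/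
theorem mrof_finite_fix_res (hpM : ¬ p ∣ M) (h5 : 5 ≤ p) (hA : A.LiesOverPrime p)
    (g : SemilinearAut (ResidueField A) (modularFunctionFieldFullC (ResidueField A) M))
    (hg : MrofCoeffwise (ResidueField A) M g) (r : ℕ) (hr : 0 < r)
    (hbase : ∀ c : ResidueField A, SemilinearAut.baseAut g c = c ^ p ^ r) :
    Finite ↥(mrofFix g) := by
  haveI : CharP (ResidueField A) p := s18ac_charP A hA
  haveI : IsAlgClosed (ResidueField A) := grd_isAlgClosed_residue A
  haveI := v27dv_isCurveOver_modular M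
  haveI : IsCurveOver (ResidueField A) (modularFunctionFieldFullC (ResidueField A) M) :=
    ffg_isCurveOver_modL M A hpM hA (grd_reductionInputs_large M A hpM hA h5)
  haveI : Algebra.EssFiniteType (ResidueField A)
      (modularFunctionFieldFullC (ResidueField A) M) := ffg_essFiniteType_modL M A hpM hA
  exact mrof_finite_fix p (mrof_frob_res M A hA hg hr hbase)

/-- the same for a Frobenius `τ` of `k` (`τ c = c ^ p`) and its powers. -/
theorem mrof_finite_fix_res_pow (hpM : ¬ p ∣ M) (h5 : 5 ≤ p) (hA : A.LiesOverPrime p)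
    (τ : ResidueField A ≃+* ResidueField A) (hτ : ∀ c : ResidueField A, τ c = c ^ p)
    {m : ℕ} (hm : 0 < m) :
    Finite ↥(mrofFix (mrofBar (ResidueField A) M τ ^ m)) := by
  refine mrof_finite_fix_res M A hpM h5 hA _
    ((mrofBar_coeffwise (ResidueField A) M τ).pow m) m hm fun c => ?_
  have h := v27_baseAut_pow_apply (σ := mrofBar (ResidueField A) M τ) (Q := p)
    (fun c => hτ c) m c
  exact h

end Res

/-! ### the decomposition group -/

section Dec

local notation "Qb" => AlgebraicClosure ℚ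
local notation "GQ" => (AlgebraicClosure ℚ ≃ₐ[ℚ] AlgebraicClosure ℚ)

variable (A : ValuationSubring Qb) (N : ℕ)

/-- **the coefficientwise action of the decomposition group of `𝔸` on `F_k(N)`, `k = 𝔸/𝔪`** :
`σ ↦ (σ̄)_*`, `σ̄` the automorphism of `k` induced by `σ` (Mathlib's action of
`A.decompositionSubgroup ℚ` on `ResidueField A`). -/
def mrofDec : A.decompositionSubgroup ℚ →*
    SemilinearAut (ResidueField A) (modularFunctionFieldFullC (ResidueField A) N) :=
  (mrofBarHom (ResidueField A) N).comp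
    (MulSemiringAction.toRingAut (A.decompositionSubgroup ℚ) (ResidueField A))

theorem mrofDec_baseAut (σ : A.decompositionSubgroup ℚ) (c : ResidueField A) :
    SemilinearAut.baseAut (mrofDec A N σ) c = σ • c := rfl

/-- `σ̄ (a mod 𝔪) = σ a mod 𝔪`. -/
theorem mrofDec_baseAut_residue (σ : A.decompositionSubgroup ℚ) (a : A) :
    SemilinearAut.baseAut (mrofDec A N σ) (residue A a) = residue A (σ • a) :=
  (ResidueField.residue_smul _ σ a).symm

theorem mrofDec_smul_coe (σ : A.decompositionSubgroup ℚ) (a : A) :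
    ((σ • a : A) : Qb) = (σ : GQ) (a : Qb) := rfl

theorem mrofDec_coeffwise (σ : A.decompositionSubgroup ℚ) :
    MrofCoeffwise (ResidueField A) N (mrofDec A N σ) :=
  mrofBar_coeffwise (ResidueField A) N _

theorem mrofDec_coe (σ : A.decompositionSubgroup ℚ)
    (x : modularFunctionFieldFullC (ResidueField A) N) :
    ((mrofDec A N σ • x : modularFunctionFieldFullC (ResidueField A) N) :
      LaurentSeries (ResidueField A)) =
      coeffMap ((MulSemiringAction.toRingAut (A.decompositionSubgroup ℚ) (ResidueField A) σ :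
        ResidueField A ≃+* ResidueField A) : ResidueField A →+* ResidueField A)
        (x : LaurentSeries (ResidueField A)) := rfl

/-- a ring endomorphism of `k` which is induced by `σ` on residues IS `σ̄` : the bridge to any
other definition of `σ̄` (e.g. `ResidueField.map` of the restriction of `σ` to `𝔸`). -/
theorem mrofDec_eq_of_residue (σ : A.decompositionSubgroup ℚ)
    (τ : ResidueField A →+* ResidueField A)
    (hτ : ∀ a : A, τ (residue A a) = residue A (σ • a)) (c : ResidueField A) :
    τ c = SemilinearAut.baseAut (mrofDec A N σ) c := by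
  obtain ⟨a, rfl⟩ := residue_surjective c
  rw [hτ, mrofDec_baseAut_residue]

/-- the coefficientwise action of such a `τ` is the action of `mrofDec A N σ`. -/
theorem mrofDec_smul_eq_of_residue (σ : A.decompositionSubgroup ℚ)
    (τ : ResidueField A →+* ResidueField A)
    (hτ : ∀ a : A, τ (residue A a) = residue A (σ • a))
    (x : modularFunctionFieldFullC (ResidueField A) N) :
    mrofDec A N σ • x = mrofHom (ResidueField A) N τ x := by
  apply Subtype.ext
  rw [mrofDec_coe, mrofHom_coe]
  exact coeffMap_congr (RingHom.ext fun c => (mrofDec_eq_of_residue A N σ τ hτ c).symm) _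

variable {p : ℕ} [Fact p.Prime]

/-- a Frobenius element at `p` acts on the constants as `c ↦ c ^ p`. -/
theorem mrofDec_baseAut_frob {σ : GQ} (hσ : A.IsFrobeniusAt σ p) (c : ResidueField A) :
    SemilinearAut.baseAut (mrofDec A N ⟨σ, hσ.mem_decompositionSubgroup⟩) c = c ^ p :=
  hσ.smul_residue_eq c

/-- **the Frobenius structure of `F_k(N)` attached to the `m`-th power of a Frobenius element.** -/
theorem mrof_frob_dec (hA : A.LiesOverPrime p) {σ : GQ} (hσ : A.IsFrobeniusAt σ p) {m : ℕ}
    (hm : 0 < m) :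
    V27Frob p (mrofDec A N ⟨σ, hσ.mem_decompositionSubgroup⟩ ^ m) (p ^ m) :=
  mrof_frob_res N A hA ((mrofDec_coeffwise A N _).pow m) hm
    (v27_baseAut_pow_apply (mrofDec_baseAut_frob A N hσ) m)

/-- **(d) for the consumer** : the classes of `Pic⁰(F_k(M))` fixed by the `m`-th power of a
Frobenius element at `p` form a FINITE group (`p ≥ 5`, `p ∤ M`, `m > 0`). -/
theorem mrof_finite_fix_dec (M : ℕ) [NeZero M] (hpM : ¬ p ∣ M) (h5 : 5 ≤ p)
    (hA : A.LiesOverPrime p) {σ : GQ} (hσ : A.IsFrobeniusAt σ p) {m : ℕ} (hm : 0 < m) :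
    Finite ↥(mrofFix (mrofDec A M ⟨σ, hσ.mem_decompositionSubgroup⟩ ^ m)) :=
  mrof_finite_fix_res M A hpM h5 hA _ ((mrofDec_coeffwise A M _).pow m) m hm
    (v27_baseAut_pow_apply (mrofDec_baseAut_frob A M hσ) m)

/-- `(σ̄_*)^m = (σ^m)‾_*`. -/
theorem mrofDec_pow (σ : A.decompositionSubgroup ℚ) (m : ℕ) :
    mrofDec A N σ ^ m = mrofDec A N (σ ^ m) := (map_pow (mrofDec A N) σ m).symm

end Dec

/-! ### the instance for main's `ghrCoeffAut` / `ghrFrob` (the objects of leaf (c), `MR/Out/RedGal`) -/

section Ghr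

variable {k : Type*} [Field k] (N : ℕ) [NeZero N]

theorem mrof_ghr_coeffwise (τ : k ≃+* k) : MrofCoeffwise k N (ghrCoeffAut N τ) := fun _ => rfl

/-- main's `ghrCoeffAut N τ` IS `mrofBar k N τ`. -/
theorem mrof_ghr_eq_bar (τ : k ≃+* k) : ghrCoeffAut N τ = mrofBar k N τ :=
  mrof_eq_bar (mrof_ghr_coeffwise N τ)

variable {ℓ : ℕ} [Fact ℓ.Prime] [CharP k ℓ] [PerfectRing k ℓ]

theorem mrof_ghrFrob_coeffwise : MrofCoeffwise k N (ghrFrob (k := k) N ℓ) :=
  mrof_ghr_coeffwise N _

theorem mrof_ghrFrob_base (c : k) :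
    SemilinearAut.baseAut (ghrFrob (k := k) N ℓ) c = c ^ ℓ := by
  show frobeniusEquiv k ℓ c = c ^ ℓ
  rw [frobeniusEquiv_apply, frobenius_def]

theorem mrof_ghrFrob_pow_base (m : ℕ) (c : k) :
    SemilinearAut.baseAut (ghrFrob (k := k) N ℓ ^ m) c = c ^ ℓ ^ m :=
  v27_baseAut_pow_apply (mrof_ghrFrob_base N) m c

/-- **the powers of main's coefficientwise Frobenius `ghrFrob N ℓ` are FROBENIUS STRUCTURES.** -/
theorem mrof_frob_ghr (hk : V27fcAlg ℓ k) {m : ℕ} (hm : 0 < m) :
    V27Frob ℓ (ghrFrob (k := k) N ℓ ^ m) (ℓ ^ m) :=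
  mrof_frob hk ((mrof_ghrFrob_coeffwise N).pow m) hm (mrof_ghrFrob_pow_base N m)

end Ghr

section GhrRes

local notation "Qb" => AlgebraicClosure ℚ

variable {p : ℕ} [Fact p.Prime] (M : ℕ) [NeZero M] (A : ValuationSubring Qb)
  [CharP (ResidueField A) p] [PerfectRing (ResidueField A) p]

/-- `V27Frob` for `(ghrFrob M p) ^ m` over `k = 𝔸/𝔪`. -/
theorem mrof_frob_ghr_res (hA : A.LiesOverPrime p) {m : ℕ} (hm : 0 < m) :
    V27Frob p (ghrFrob (k := ResidueField A) M p ^ m) (p ^ m) :=
  mrof_frob_ghr M (mrof_alg_res A hA) hm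

/-- **(d) in the literals of leaf (c)** : the subgroup of `Pic⁰(F_k(M))` fixed by
`(ghrFrob M p) ^ m` (`= Φ_Q`, `Q = p ^ m`, `m > 0`) is FINITE; `p ≥ 5`, `p ∤ M`, `𝔸` over `p`. -/
theorem mrof_finite_fix_ghr (hpM : ¬ p ∣ M) (h5 : 5 ≤ p) (hA : A.LiesOverPrime p) {m : ℕ}
    (hm : 0 < m) : Finite ↥(mrofFix (ghrFrob (k := ResidueField A) M p ^ m)) :=
  mrof_finite_fix_res M A hpM h5 hA _ ((mrof_ghrFrob_coeffwise M).pow m) m hm
    (mrof_ghrFrob_pow_base M m)

/-- the same as a finite SET of classes. -/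
theorem mrof_finite_fix_ghr_set (hpM : ¬ p ∣ M) (h5 : 5 ≤ p) (hA : A.LiesOverPrime p) {m : ℕ}
    (hm : 0 < m) :
    {x : JZeroC (ResidueField A) M | ghrFrob (k := ResidueField A) M p ^ m • x = x}.Finite := by
  haveI := mrof_finite_fix_ghr M A hpM h5 hA hm
  exact Set.toFinite (mrofFix (ghrFrob (k := ResidueField A) M p ^ m) :
    Set (JZeroC (ResidueField A) M))

end GhrRes

end Fermat.Agent.MR
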