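import Fermat.Agent.MR.Out.LiftSpec

/-!
# Program MR, block `mro` (TRANSFER-OUT), leaf (mro-DS): the integral exit (helper22)

* `mrol_es` : the Eichler-Shimura exit of `S41/ES/Main.lean` WITHOUT an operator `U_q`
  (any level `M`);
* `mrol_exit_int : MrolExitIntSpec` : `y ∈ Hom_pe(Γ₀(M)^ab, ℤ)` not divisible by `p`, an
  eigenvector mod `p` of the `T_ℓ` with eigenvalues `a_ℓ(W)` ⟹ `W.IsResiduallyModularOfLevel p M`;
* `mrol_frey : MrolFreySpec`.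
-/

set_option autoImplicit false

noncomputable section

namespace Fermat.Agent.MR

open WeierstrassCurve CongruenceSubgroup Fermat.Agent.S16LB Fermat.Agent.G ModularCurve
  ModularCurve.Period ModularFormClass Fermat.Agent.S41 Fermat.Agent.S49 Fermat.Agent.S21 Module
open scoped MatrixGroups

/-! ## The Eichler-Shimura exit without `U_q` -/

/-- **ES, output step, no `U_q`.** A nonzero parabolic class which is an eigenvector of the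
cohomological `T_ℓ`, `ℓ ∈ PP`, gives a normalised eigenform with `a_ℓ = lam ℓ`, `ℓ ∈ PP`. -/
theorem mrol_es (M : ℕ) [NeZero M] (PP : Set ℕ)
    (hPP : ∀ ℓ ∈ PP, ℓ.Prime ∧ ¬ ℓ ∣ M) (φ : s16lbAb M →+ ℂ)
    (hpar : φ.comp (s16lbCls M) ∈ parabolicHoms ℂ (Gamma0 M) ℂ) (hφ : φ ≠ 0)
    (lam : ℕ → ℂ) (hT : ∀ ℓ ∈ PP, φ.comp (gprT M ℓ) = lam ℓ • φ) :
    ∃ g : CuspForm (Gamma0 M) 2, g.IsNormalizedEigenform ∧
      ∀ ℓ ∈ PP, qCoeff ⇑g ℓ = lam ℓ := by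
  -- the pair of forms
  have hrange : φ.comp (s16lbCls M) ∈ LinearMap.range (periodHomPair M) := by
    rw [(Fermat.Agent.S21.result M).2]; exact hpar
  obtain ⟨⟨f, g⟩, hfg⟩ := hrange
  -- the joint eigenspace
  let E : Submodule ℂ (CuspForm (Gamma0 M) 2) :=
    { carrier := {h | ∀ ℓ (hℓ : ℓ ∈ PP),
          CuspForm.heckeTLin 2 (hPP ℓ hℓ).1 (hPP ℓ hℓ).2 h = lam ℓ • h}
      add_mem' := by
        intro a b ha hb ℓ hℓ
        rw [map_add, ha ℓ hℓ, hb ℓ hℓ, smul_add]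
      zero_mem' := by
        intro ℓ hℓ
        rw [map_zero, smul_zero]
      smul_mem' := by
        intro c a ha ℓ hℓ
        rw [map_smul, ha ℓ hℓ, smul_comm] }
  have hmemE : ∀ h : CuspForm (Gamma0 M) 2, h ∈ E ↔
      ∀ ℓ (hℓ : ℓ ∈ PP), CuspForm.heckeTLin 2 (hPP ℓ hℓ).1 (hPP ℓ hℓ).2 h = lam ℓ • h :=
    fun h => Iff.rfl
  have hfE : f ∈ E ∧ g ∈ E := by
    have hTfg : ∀ ℓ (hℓ : ℓ ∈ PP),
        CuspForm.heckeTLin 2 (hPP ℓ hℓ).1 (hPP ℓ hℓ).2 f = lam ℓ • f ∧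
        CuspForm.heckeTLin 2 (hPP ℓ hℓ).1 (hPP ℓ hℓ).2 g = lam ℓ • g := fun ℓ hℓ =>
      s41es_eigen_pair M (s41es_compat_T M (hPP ℓ hℓ).1 (hPP ℓ hℓ).2) φ (lam ℓ) (hT ℓ hℓ) f g hfg
    exact ⟨fun ℓ hℓ => (hTfg ℓ hℓ).1, fun ℓ hℓ => (hTfg ℓ hℓ).2⟩
  have hE : E ≠ ⊥ := by
    intro hbot
    have hf0 : f = 0 := by
      have := hfE.1; rw [hbot, Submodule.mem_bot] at this; exact this
    have hg0 : g = 0 := by
      have := hfE.2; rw [hbot, Submodule.mem_bot] at this; exact this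
    apply hφ
    have h0 : φ.comp (s16lbCls M) = 0 := by
      rw [← hfg, hf0, hg0]
      exact map_zero _
    refine s16lbAb_ext fun γ => ?_
    have := DFunLike.congr_fun h0 γ
    simpa using this
  -- stability under the Hecke ring
  have hst : ∀ t : HT M, ∀ w ∈ E, rho M t w ∈ E := by
    intro t w hw
    rw [hmemE] at hw ⊢
    intro ℓ hℓ
    have h1 := rho_comm (rho M)
      (CuspForm.heckeAlgebra.T (hPP ℓ hℓ).1 (hPP ℓ hℓ).2 (Set.notMem_empty ℓ)) t w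
    rw [rho_apply, CuspForm.heckeAlgebra.coe_T, hw ℓ hℓ, map_smul] at h1
    exact h1
  obtain ⟨v, χ, hvE, hv0, hχ⟩ := s41es_exists_eigen M E hE hst
  obtain ⟨g₀, hg₀, hcoef⟩ := s41es_exists_normalized M hv0 hχ
  have hinj : Function.Injective fun c : ℂ => c • v := smul_left_injective ℂ hv0
  rw [hmemE] at hvE
  refine ⟨g₀, hg₀, fun ℓ hℓ => ?_⟩
  rw [hcoef ℓ (hPP ℓ hℓ).1]
  simp only [lamOf, dif_pos (hPP ℓ hℓ).1, dif_neg (hPP ℓ hℓ).2]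
  apply hinj
  simp only
  rw [← hχ, rho_apply, CuspForm.heckeAlgebra.coe_T, hvE ℓ hℓ]

/-! ## The lattice `L_M = Hom_pe(Γ₀(M)^ab, ℤ)` and its operators -/

theorem mrol_stable (M : ℕ) [NeZero M] (ℓ : ℕ) {y : s16lbAb M →+ ℤ} (hy : y ∈ gprHomPE M ℤ) :
    y.comp (gprT M ℓ) ∈ gprHomPE M ℤ :=
  s41hk_comp_mem_homPE _ (fun _ hx => gprT_mem_PE _ _ hx) hy

/-! ## The integral exit -/

/-- **(mro-DS), integral exit.** -/
theorem mrol_exit_int : MrolExitIntSpec := by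
  intro W p M _ hp y hy hyp heig
  classical
  -- Deligne–Serre lifting
  let J : Set ℕ := {ℓ | ℓ.Prime ∧ W.IsGoodPrimeFor ℓ ∧ ¬ ℓ ∣ M ∧ ℓ ≠ p}
  let n : ℕ → ℤ := fun ℓ => W.apOfModel ℓ
  obtain ⟨c, lam, 𝔪', hc0, hkill, hceig, hmax', hpm', hcong'⟩ :=
    s41as_lift (gpr_ab_fg M) (fun ℓ : ℕ => gprT M ℓ) (gprHomPE M ℤ)
      (fun ℓ y hy => mrol_stable M ℓ hy) (fun ℓ ℓ' y hy => s41lat_gprT_comm M ℓ ℓ' hy)
      (fun m y hm h => s41lat_mem_of_smul hm h) hp J n y hy hyp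
      (by
        rintro ℓ ⟨h1, h2, h3, h4⟩
        exact heig ℓ h1 h2 h3 h4)
  -- `c` is parabolic
  have hcPE : c ∈ gprHomPE M ℂ := fun γ hγ => hkill _ fun k hk => hk γ hγ
  have hcpar : c.comp (s16lbCls M) ∈ parabolicHoms ℂ (Gamma0 M) ℂ := by
    rw [mem_parabolicHoms_iff]
    intro γ hγ
    rw [AddMonoidHom.comp_apply]
    refine hcPE γ ?_
    unfold gprIsPE
    rw [hγ]
  -- Eichler–Shimura
  obtain ⟨g, hg, hgT⟩ :=
    mrol_es M {ℓ | ℓ.Prime ∧ ¬ ℓ ∣ M} (fun ℓ hℓ => hℓ) c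
      hcpar hc0 (fun ℓ => (lam ℓ : ℂ)) (fun ℓ _ => hceig ℓ)
  refine ⟨g, 𝔪', hg, hmax', hpm', ?_⟩
  intro ℓ h1 h2 h3 h4
  refine ⟨lam ℓ, (hgT ℓ ⟨h1, h3⟩).symm, ?_⟩
  exact hcong' ℓ ⟨h1, h2, h3, h4⟩

/-- **(mro-DS), Frey form.** -/
theorem mrol_frey : MrolFreySpec := by
  intro P W hW M h
  obtain ⟨f, 𝔪, hf, hmax, hpm, hcong⟩ := h
  exact ⟨f, W, 𝔪, hf, hW, hmax, hpm, hcong⟩

end Fermat.Agent.MR
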