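import Fermat.Agent.MR.Out.Count

/-!
# Program MR, block `mro`, leaf (mro-DS): the exits (helper22)

Everything is under the hypothesis `MrolGenSpec M` ((mro-GEN), `genusFF ≤ dim S₂`).

* `mrol_theta : MrolThetaSpec` : `Θ_p : Hom_pe(Γ₀(M)^ab, ℤ/p) → J₀(M)(ℚ̄)` injective, ONTO the
  `p`-torsion, `T_ℓ`-equivariant; and `mod p : L_M → Hom_pe(Γ₀(M)^ab, ℤ/p)` is ONTO;
* `mrol_exit_modp : MrolExitModpSpec` : a nonzero eigen-character mod `p` ⟹ residually modular;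
* `mrol_main : MrolMainSpec` : an eigenclass in the image of `J₀(M)[p]` under an equivariant
  additive map ⟹ residually modular;
* `mrol_exit_J : MrolExitJSpec` : an eigenclass in `J₀(M)(ℚ̄)[p]` ⟹ residually modular.
-/

set_option autoImplicit false
set_option linter.style.haveILetI false

noncomputable section

namespace Fermat.Agent.MR

open WeierstrassCurve CongruenceSubgroup Fermat.Agent.S16LB Fermat.Agent.G ModularCurve
  ModularCurve.Period AlgebraicCurve Fermat.Agent.S41 Module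
open scoped MatrixGroups BigOperators

/-! ## Statements -/

/-- **(e)** `Θ_p` is bijective onto the `p`-torsion and `mod p` is onto. -/
def MrolThetaSpec : Prop :=
  ∀ (p M : ℕ) [NeZero M], p.Prime → MrolGenSpec M →
    (∃ Θ : gprHomPE M (ZMod p) →+ JZero M, Function.Injective Θ ∧
      (∀ x : JZero M, (p : ℤ) • x = 0 → ∃ χ, Θ χ = x) ∧ (∀ χ, (p : ℤ) • Θ χ = 0) ∧
      ∀ (ℓ : ℕ) (hℓ : ℓ.Prime) (_ : ¬ ℓ ∣ M) (_ : ¬ ℓ ∣ p) (χ χ' : gprHomPE M (ZMod p)),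
        (χ' : s16lbAb M →+ ZMod p) = (χ : s16lbAb M →+ ZMod p).comp (gprT M ℓ) →
          Θ χ' = heckeOperatorBar M ⟨ℓ, hℓ⟩ (Θ χ)) ∧
    ∀ c : s16lbAb M →+ ZMod p, c ∈ gprHomPE M (ZMod p) →
      ∃ y : s16lbAb M →+ ℤ, y ∈ gprHomPE M ℤ ∧ (Int.castAddHom (ZMod p)).comp y = c

/-- **(X1)** the exit for a nonzero eigen-character mod `p`. -/
def MrolExitModpSpec : Prop :=
  ∀ (W : WeierstrassCurve ℤ) (p M : ℕ) [NeZero M], p.Prime → MrolGenSpec M →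
    ∀ c : s16lbAb M →+ ZMod p, c ∈ gprHomPE M (ZMod p) → c ≠ 0 →
      (∀ ℓ : ℕ, ℓ.Prime → W.IsGoodPrimeFor ℓ → ¬ ℓ ∣ M → ℓ ≠ p →
        c.comp (gprT M ℓ) = (W.apOfModel ℓ : ℤ) • c) →
      W.IsResiduallyModularOfLevel p M

/-- **(X2)** the exit for an eigenclass in `J₀(M)(ℚ̄)[p]`. -/
def MrolExitJSpec : Prop :=
  ∀ (W : WeierstrassCurve ℤ) (p M : ℕ) [NeZero M], p.Prime → MrolGenSpec M →
    ∀ x : JZero M, (p : ℤ) • x = 0 → x ≠ 0 →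
      (∀ (ℓ : ℕ) (hℓ : ℓ.Prime), W.IsGoodPrimeFor ℓ → ¬ ℓ ∣ M → ℓ ≠ p →
        heckeOperatorBar M ⟨ℓ, hℓ⟩ x = (W.apOfModel ℓ : ℤ) • x) →
      W.IsResiduallyModularOfLevel p M

/-! ## `Θ_p` -/

theorem mrol_theta_tors {p M : ℕ} [NeZero M] (hp : p.Prime)
    (Θ : gprHomPE M (ZMod p) →+ JZero M) (χ : gprHomPE M (ZMod p)) : (p : ℤ) • Θ χ = 0 := by
  haveI : Fact p.Prime := ⟨hp⟩
  rw [← map_zsmul]
  have : (p : ℤ) • χ = 0 := by
    refine Subtype.ext (AddMonoidHom.ext fun a => ?_)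
    rw [AddSubgroup.coe_zsmul, AddMonoidHom.smul_apply, natCast_zsmul, AddSubgroup.coe_zero,
      AddMonoidHom.zero_apply, nsmul_eq_mul, ZMod.natCast_self, zero_mul]
  rw [this, map_zero]

theorem mrol_theta : MrolThetaSpec := by
  intro p M _ hp hgen
  obtain ⟨Θ, hinj, hΘ⟩ := gun_theta M p hp.pos
  have htors := mrol_theta_tors hp Θ
  refine ⟨⟨Θ, hinj, fun x hx => ?_, htors, hΘ⟩, fun c hc => ?_⟩
  · obtain ⟨y, hy, hxy⟩ := mrol_theta_onto hp hgen Θ hinj htors x hx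
    exact ⟨_, hxy⟩
  · obtain ⟨y, hy, hxy⟩ := mrol_theta_onto hp hgen Θ hinj htors (Θ ⟨c, hc⟩) (htors _)
    exact ⟨y, hy, congrArg Subtype.val (hinj hxy)⟩

/-! ## The exit for characters mod `p` -/

theorem mrol_exit_modp : MrolExitModpSpec := by
  intro W p M _ hp hgen c hc hc0 heig
  obtain ⟨-, hlift⟩ := mrol_theta p M hp hgen
  obtain ⟨y, hy, rfl⟩ := hlift c hc
  refine mrol_exit_int W p M hp y hy ?_ ?_
  · rintro ⟨z, rfl⟩
    exact hc0 (s41lat_cast_smul p z)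
  · intro ℓ h1 h2 h3 h4
    refine s41lat_exists_smul_of_cast hp.ne_zero _ ?_
    have := heig ℓ h1 h2 h3 h4
    refine AddMonoidHom.ext fun a => ?_
    have h5 := DFunLike.congr_fun this a
    simp only [AddMonoidHom.comp_apply, AddMonoidHom.smul_apply, Int.coe_castAddHom] at h5
    simp only [AddMonoidHom.comp_apply, AddMonoidHom.sub_apply, AddMonoidHom.smul_apply,
      AddMonoidHom.zero_apply, Int.coe_castAddHom, Int.cast_sub, h5, smul_eq_mul, Int.cast_mul,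
      zsmul_eq_mul, sub_self]

/-! ## The main exit -/

/-- reduction mod `p` on `L_M`, as an additive map. -/
def mrolRedHom (p M : ℕ) : ↥(gprHomPE M ℤ) →+ ↥(gprHomPE M (ZMod p)) where
  toFun y := ⟨(Int.castAddHom (ZMod p)).comp y.1, mrol_cast_mem p y.2⟩
  map_zero' := Subtype.ext (AddMonoidHom.comp_zero _)
  map_add' _ _ := Subtype.ext (AddMonoidHom.comp_add _ _ _)

theorem mrol_main : MrolMainSpec := by
  intro W p M _ hp hgen Y _ red u hred ξ hξ hlift heig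
  classical
  obtain ⟨x, hx, rfl⟩ := hlift
  obtain ⟨Θ, hinj, hΘ⟩ := gun_theta M p hp.pos
  have htors := mrol_theta_tors hp Θ
  obtain ⟨y₀, hy₀, hxy₀⟩ := mrol_theta_onto hp hgen Θ hinj htors x hx
  -- the map `ρ : L_M → Y`
  let ρ : ↥(gprHomPE M ℤ) →+ Y := red.comp (Θ.comp (mrolRedHom p M))
  have hρ : ∀ k : ↥(gprHomPE M ℤ), ρ k = red (Θ (mrolRedHom p M k)) := fun k => rfl
  let Q : AddSubgroup (s16lbAb M →+ ℤ) := ρ.ker.map (gprHomPE M ℤ).subtype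
  have hQ : ∀ k : s16lbAb M →+ ℤ, k ∈ Q ↔ ∃ hk : k ∈ gprHomPE M ℤ, ρ ⟨k, hk⟩ = 0 := by
    intro k
    constructor
    · rintro ⟨k', hk', rfl⟩
      exact ⟨k'.2, hk'⟩
    · rintro ⟨hk, h0⟩
      exact ⟨⟨k, hk⟩, h0, rfl⟩
  -- the index type
  let ι : Type := {ℓ : ℕ // ℓ.Prime ∧ W.IsGoodPrimeFor ℓ ∧ ¬ ℓ ∣ M ∧ ℓ ≠ p}
  -- equivariance of `ρ`
  have hρT : ∀ (i : ι) (k : ↥(gprHomPE M ℤ)),
      ρ ⟨k.1.comp (gprT M i.1), mrol_stable M i.1 k.2⟩ = u i.1 (ρ k) := by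
    intro i k
    obtain ⟨ℓ, h1, h2, h3, h4⟩ := i
    rw [hρ, hρ]
    have hℓp : ¬ ℓ ∣ p := fun h => h4 ((Nat.prime_dvd_prime_iff_eq h1 hp).mp h)
    have := hΘ ℓ h1 h3 hℓp (mrolRedHom p M k)
      (mrolRedHom p M ⟨k.1.comp (gprT M ℓ), mrol_stable M ℓ k.2⟩) rfl
    rw [this, hred ℓ h1 h2 h3 h4 _ (htors _)]
  obtain ⟨c, lam, 𝔪', hc0, hkill, hceig, hmax', hpm', hcong'⟩ :=
    mrol_lift (gpr_ab_fg M) (fun i : ι => gprT M i.1) (gprHomPE M ℤ)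
      (fun i y hy => mrol_stable M i.1 hy) (fun i j y hy => s41lat_gprT_comm M i.1 j.1 hy)
      Q
      (by
        intro i k hk
        obtain ⟨hkK, hk0⟩ := (hQ k).mp hk
        refine (hQ _).mpr ⟨mrol_stable M i.1 hkK, ?_⟩
        rw [hρT i ⟨k, hkK⟩, hk0, map_zero])
      (p := p)
      (by
        intro k hk
        refine (hQ _).mpr ⟨(gprHomPE M ℤ).zsmul_mem hk _, ?_⟩
        rw [hρ]
        have : mrolRedHom p M ⟨(p : ℤ) • k, (gprHomPE M ℤ).zsmul_mem hk _⟩ = 0 :=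
          Subtype.ext (s41lat_cast_smul p k)
        rw [this, map_zero, map_zero])
      Set.univ (fun i => W.apOfModel i.1) y₀ hy₀
      (by
        intro h
        obtain ⟨hk, h0⟩ := (hQ y₀).mp h
        apply hξ
        rw [← hxy₀]
        exact h0)
      (by
        intro i _
        refine (hQ _).mpr ⟨(gprHomPE M ℤ).sub_mem (mrol_stable M i.1 hy₀)
          ((gprHomPE M ℤ).zsmul_mem hy₀ _), ?_⟩
        have e : (⟨y₀.comp (gprT M i.1) - (W.apOfModel i.1 : ℤ) • y₀,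
            (gprHomPE M ℤ).sub_mem (mrol_stable M i.1 hy₀)
              ((gprHomPE M ℤ).zsmul_mem hy₀ _)⟩ : ↥(gprHomPE M ℤ)) =
            ⟨y₀.comp (gprT M i.1), mrol_stable M i.1 hy₀⟩
              - (W.apOfModel i.1 : ℤ) • (⟨y₀, hy₀⟩ : ↥(gprHomPE M ℤ)) := rfl
        rw [e, map_sub, map_zsmul, hρT i ⟨y₀, hy₀⟩]
        have hρy : ρ ⟨y₀, hy₀⟩ = red x := by rw [hρ]; exact congrArg red hxy₀
        rw [hρy, heig i.1 i.2.1 i.2.2.1 i.2.2.2.1 i.2.2.2.2, sub_self])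
  -- `c` is parabolic
  have hcPE : c ∈ gprHomPE M ℂ := fun γ hγ => hkill _ fun k hk => hk γ hγ
  have hcpar : c.comp (s16lbCls M) ∈ parabolicHoms ℂ (Gamma0 M) ℂ := by
    rw [mem_parabolicHoms_iff]
    intro γ hγ
    rw [AddMonoidHom.comp_apply]
    refine hcPE γ ?_
    unfold gprIsPE
    rw [hγ]
  -- Eichler–Shimura
  let PP : Set ℕ := {ℓ | ℓ.Prime ∧ W.IsGoodPrimeFor ℓ ∧ ¬ ℓ ∣ M ∧ ℓ ≠ p}
  let lam' : ℕ → ℂ := fun ℓ => if h : ℓ ∈ PP then ((lam ⟨ℓ, h⟩ : integralClosure ℤ ℂ) : ℂ) else 0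
  obtain ⟨g, hg, hgT⟩ :=
    mrol_es M PP (fun ℓ hℓ => ⟨hℓ.1, hℓ.2.2.1⟩) c hcpar hc0 lam'
      (fun ℓ hℓ => by
        show c.comp (gprT M ℓ) = lam' ℓ • c
        have : lam' ℓ = ((lam ⟨ℓ, hℓ⟩ : integralClosure ℤ ℂ) : ℂ) := dif_pos hℓ
        rw [this]
        exact hceig ⟨ℓ, hℓ⟩)
  refine ⟨g, 𝔪', hg, hmax', hpm', ?_⟩
  intro ℓ h1 h2 h3 h4
  have hℓ : ℓ ∈ PP := ⟨h1, h2, h3, h4⟩
  refine ⟨lam ⟨ℓ, hℓ⟩, ?_, hcong' ⟨ℓ, hℓ⟩ (Set.mem_univ _)⟩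
  rw [hgT ℓ hℓ]
  show ((lam ⟨ℓ, hℓ⟩ : integralClosure ℤ ℂ) : ℂ) =
    (if h : ℓ ∈ PP then ((lam ⟨ℓ, h⟩ : integralClosure ℤ ℂ) : ℂ) else 0)
  rw [dif_pos hℓ]

/-! ## The exit for an eigenclass in `J₀(M)[p]` -/

theorem mrol_exit_J : MrolExitJSpec := by
  intro W p M _ hp hgen x hx hx0 heig
  classical
  let u : ℕ → JZero M →+ JZero M := fun ℓ =>
    if hℓ : ℓ.Prime then (heckeOperatorBar M ⟨ℓ, hℓ⟩).toAddMonoidHom else 0
  have hu : ∀ (ℓ : ℕ) (hℓ : ℓ.Prime) (z : JZero M), u ℓ z = heckeOperatorBar M ⟨ℓ, hℓ⟩ z := by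
    intro ℓ hℓ z
    show (if hℓ : ℓ.Prime then (heckeOperatorBar M ⟨ℓ, hℓ⟩).toAddMonoidHom else 0) z = _
    rw [dif_pos hℓ]
    rfl
  refine mrol_main W p M hp hgen (JZero M) (AddMonoidHom.id _) u ?_ x hx0 ⟨x, hx, rfl⟩ ?_
  · intro ℓ hℓ _ _ _ z _
    rw [AddMonoidHom.id_apply, AddMonoidHom.id_apply, hu ℓ hℓ]
  · intro ℓ h1 h2 h3 h4
    rw [hu ℓ h1, heig ℓ h1 h2 h3 h4]

end Fermat.Agent.MR
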