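import Mathlib
import Fermat.Agent.G.Kron.Main

/-!
# PROGRAM MR, block `mro` (transfer-out), leaf (c) : DECOMPOSITION-GROUP EQUIVARIANCE of the
reduction map `reductionModL 𝔸 N : J₀(N)(ℚ̄) → Pic⁰(F_k(N))`

Owner: helper4.  Namespace `Fermat.Agent.MR`, prefix `mrog`.

Main has the inertia case (`ghr_I3`) and the Frobenius case on divisors (`ghrm_red_frob`); the same
two ingredients (`ghrg_mapDomain_smul_integral` for ANY `τ` in the decomposition group, and the
vanishing principle `ghrm_vanish`) give the general statement, for EVERY `τ ∈ D_𝔸` and EVERY level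
`N` (no hypothesis on `N`, `𝔸`: if the Prelude's `ReductionInputsModL 𝔸 N` fails, both sides are `0`).

* `mrogRes 𝔸 τ : k ≃+* k`  : the automorphism of the residue field `k = 𝔸/𝔪` induced by `τ ∈ D_𝔸`;
* `mrogBar 𝔸 N τ := ghrCoeffAut N (mrogRes 𝔸 τ)` : its COEFFICIENTWISE action on `F_k(N) ⊂ k((q))`,
  a `SemilinearAut k F_k(N)` (so it acts on places, divisors, `Pic0` by the Prelude instances);
* `mrog_red_dec_principal`, `mrog_red_dec_div` : `r_* (τ D) = τ̄ (r_* D)` on principal divisors /
  on divisors of degree `0`, for any place reduction `r`;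
* **`mrog_red_dec`** : `reductionModL 𝔸 N (τ • x) = mrogBar 𝔸 N τ • reductionModL 𝔸 N x`;
* `mrogBar_one`, `mrogBar_mul`, `mrogBar_pow` : `τ ↦ mrogBar 𝔸 N τ` is multiplicative;
* `mrog_bar_frob` : a Frobenius element at `ℓ` induces main's `ghrFrob N ℓ`;
* **`mrog_red_frob_pow`** : `reductionModL 𝔸 N (σ ^ m • x) = (ghrFrob N ℓ) ^ m • reductionModL 𝔸 N x`
  for a Frobenius element `σ` at `ℓ`;
* **`mrog_red_fixed`** : if `σ ^ m • x = x` then `reductionModL 𝔸 N x` is fixed by `(ghrFrob N ℓ) ^ m`
  (= the `Q`-Frobenius `Φ_Q`, `Q = ℓ ^ m`, of `Pic⁰(F_k(N))`).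
-/

set_option autoImplicit false
set_option linter.unusedSectionVars false
set_option linter.unusedVariables false
set_option synthInstance.maxHeartbeats 400000

noncomputable section

namespace Fermat.Agent.MR

open ModularCurve AlgebraicCurve IsLocalRing Fermat.Agent.G Fermat.Agent.S18

local notation "Qb" => AlgebraicClosure ℚ

variable (A : ValuationSubring Qb)

/-- the automorphism of the residue field induced by an element of the decomposition group. -/
def mrogRes (τ : A.decompositionSubgroup ℚ) : ResidueField A ≃+* ResidueField A :=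
  MulSemiringAction.toRingAut (A.decompositionSubgroup ℚ) (ResidueField A) τ

theorem mrogRes_coe (τ : A.decompositionSubgroup ℚ) :
    ((mrogRes A τ : ResidueField A ≃+* ResidueField A) : ResidueField A →+* ResidueField A) =
      getDecRes A τ := rfl

theorem mrogRes_apply (τ : A.decompositionSubgroup ℚ) (x : ResidueField A) :
    mrogRes A τ x = τ • x := rfl

theorem mrogRes_one : mrogRes A 1 = RingEquiv.refl _ := by
  ext x; rw [mrogRes_apply, one_smul]; rfl

theorem mrogRes_mul (σ τ : A.decompositionSubgroup ℚ) :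
    mrogRes A (σ * τ) = (mrogRes A τ).trans (mrogRes A σ) := by
  ext x
  rw [mrogRes_apply, mul_smul]
  rfl

variable (N : ℕ) [NeZero N]

/-- the coefficientwise action on `F_k(N)` of the residue automorphism of `τ ∈ D_𝔸`. -/
def mrogBar (τ : A.decompositionSubgroup ℚ) :
    SemilinearAut (ResidueField A) (modularFunctionFieldFullC (ResidueField A) N) :=
  ghrCoeffAut N (mrogRes A τ)

theorem coe_mrogBar_smul (τ : A.decompositionSubgroup ℚ)
    (x : modularFunctionFieldFullC (ResidueField A) N) :
    ((mrogBar A N τ • x : modularFunctionFieldFullC (ResidueField A) N) :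
      LaurentSeries (ResidueField A)) =
      coeffMap (getDecRes A τ) (x : LaurentSeries (ResidueField A)) := rfl

variable {A N}
variable (r : Place Qb (modularFunctionFieldBar N) →
  Place (ResidueField A) (modularFunctionFieldFullC (ResidueField A) N))

/-- `r_* (τ D) = τ̄ (r_* D)` on PRINCIPAL divisors, `τ` in the decomposition group. -/
theorem mrog_red_dec_principal (hr : IsPlaceReductionModL A N r)
    (hgen : PrincipalGeneratedByIntegral A (residue A) N)
    (τ : A.decompositionSubgroup ℚ)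
    (D : Divisor Qb (modularFunctionFieldBar N))
    (hD : D ∈ Divisor.principal (K := Qb) (F := modularFunctionFieldBar N)) :
    Finsupp.mapDomain r (arithmeticGalois (modularFunctionFieldFull N) (τ : Qb ≃ₐ[ℚ] Qb) • D) =
      mrogBar A N τ • Finsupp.mapDomain r D := by
  refine AddMonoidHom.eqOn_closure
    (f := (Finsupp.mapDomain.addMonoidHom r).comp
      (DistribSMul.toAddMonoidHom (Divisor Qb (modularFunctionFieldBar N))
        (arithmeticGalois (modularFunctionFieldFull N) (τ : Qb ≃ₐ[ℚ] Qb))))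
    (g := (DistribSMul.toAddMonoidHom
        (Divisor (ResidueField A) (modularFunctionFieldFullC (ResidueField A) N))
        (mrogBar A N τ)).comp (Finsupp.mapDomain.addMonoidHom r))
    ?_ (hgen hD)
  rintro E ⟨y, hy, hyk, hne, hDy⟩
  have hgood : S18Good N A y := ⟨hy, hyk⟩
  show Finsupp.mapDomain r (arithmeticGalois (modularFunctionFieldFull N) (τ : Qb ≃ₐ[ℚ] Qb) • E) =
    mrogBar A N τ • Finsupp.mapDomain r E
  ext Q
  have h1 := ghrg_mapDomain_smul_integral r hr τ y hgood hne E hDy Q
  have h2 := ghrg_smul_div (mrogBar A N τ) (Finsupp.mapDomain r E)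
    (⟨coeffMap (residue A) y, hyk⟩ : modularFunctionFieldFullC (ResidueField A) N)
    (hr.2 y hy hyk hne E hDy) Q
  have h3 : (⟨coeffMap (getDecRes A τ) (coeffMap (residue A) y),
      s18dd_coeffMap_mem_full (getDecRes A τ) N hgood.2⟩ :
        modularFunctionFieldFullC (ResidueField A) N) =
      mrogBar A N τ •
        (⟨coeffMap (residue A) y, hyk⟩ : modularFunctionFieldFullC (ResidueField A) N) :=
    Subtype.ext rfl
  rw [h3] at h1
  exact h1.trans h2.symm

/-- `r_* (τ D) = τ̄ (r_* D)` on divisors of DEGREE `0`, `τ` in the decomposition group. -/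
theorem mrog_red_dec_div (hr : IsPlaceReductionModL A N r)
    (hgen : PrincipalGeneratedByIntegral A (residue A) N)
    (τ : A.decompositionSubgroup ℚ)
    (D : Divisor Qb (modularFunctionFieldBar N))
    (hD : D ∈ Divisor.degZero (K := Qb) (F := modularFunctionFieldBar N)) :
    Finsupp.mapDomain r (arithmeticGalois (modularFunctionFieldFull N) (τ : Qb ≃ₐ[ℚ] Qb) • D) =
      mrogBar A N τ • Finsupp.mapDomain r D := by
  have key := ghrm_vanish N
    ((reductionDivAlong r).comp (ghrmGal N (τ : Qb ≃ₐ[ℚ] Qb)) -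
      (ghrmAct N A (mrogBar A N τ)).comp (reductionDivAlong r))
    (fun D hD => by
      show Finsupp.mapDomain r
        (arithmeticGalois (modularFunctionFieldFull N) (τ : Qb ≃ₐ[ℚ] Qb) • D) -
        mrogBar A N τ • Finsupp.mapDomain r D = 0
      rw [mrog_red_dec_principal r hr hgen τ D hD, sub_self])
    2 (fun P => by
      show ghrNorm1 (Finsupp.mapDomain r
        (arithmeticGalois (modularFunctionFieldFull N) (τ : Qb ≃ₐ[ℚ] Qb) •
          Finsupp.single P (1 : ℤ)) -
          mrogBar A N τ • Finsupp.mapDomain r (Finsupp.single P (1 : ℤ))) ≤ 2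
      rw [SemilinearAut.smul_single, Finsupp.mapDomain_single, Finsupp.mapDomain_single,
        SemilinearAut.smul_single]
      refine (ghrm_norm1_sub_le _ _).trans ?_
      rw [ghrm_norm1_single, ghrm_norm1_single]
      simp) D hD
  exact sub_eq_zero.mp key

variable (A N)

/-- **(c) DECOMPOSITION-GROUP EQUIVARIANCE of the reduction map**, no hypothesis. -/
theorem mrog_red_dec (τ : A.decompositionSubgroup ℚ) (x : JZero N) :
    reductionModL A N ((τ : Qb ≃ₐ[ℚ] Qb) • x) = mrogBar A N τ • reductionModL A N x := by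
  by_cases h : ReductionInputsModL A N
  · obtain ⟨D, rfl⟩ := Pic0.mk_surjective x
    rw [galois_smul_pic0_def, SemilinearAut.pic0_smul_mk, reductionModL_mk h, reductionModL_mk h,
      SemilinearAut.pic0_smul_mk]
    congr 1
    apply Subtype.ext
    rw [coe_reductionDegZeroAlong, SemilinearAut.coe_degZeroSMulHom,
      SemilinearAut.coe_degZeroSMulHom, coe_reductionDegZeroAlong]
    exact mrog_red_dec_div (placeReductionModL h) (isPlaceReductionModL_placeReductionModL h)
      h.choose_spec.2 τ D D.2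
  · rw [reductionModL_of_not h, AddMonoidHom.zero_apply, AddMonoidHom.zero_apply, smul_zero]

/-- the same for `σ : G_ℚ` with a proof of `σ ∈ D_𝔸`. -/
theorem mrog_red_dec' (σ : Qb ≃ₐ[ℚ] Qb) (hσ : σ ∈ A.decompositionSubgroup ℚ) (x : JZero N) :
    reductionModL A N (σ • x) = mrogBar A N ⟨σ, hσ⟩ • reductionModL A N x :=
  mrog_red_dec A N ⟨σ, hσ⟩ x

/-! ### multiplicativity of `τ ↦ τ̄` -/

theorem mrogBar_one : mrogBar A N 1 = 1 := by
  apply Subtype.ext
  refine Prod.ext (RingEquiv.ext fun x => Subtype.ext ?_) (RingEquiv.ext fun x => ?_)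
  · show coeffMap (getDecRes A 1) (x : LaurentSeries (ResidueField A)) = _
    have : getDecRes A 1 = RingHom.id _ :=
      RingHom.ext fun a => one_smul (A.decompositionSubgroup ℚ) a
    rw [this, coeffMap_id]
    rfl
  · exact one_smul (A.decompositionSubgroup ℚ) x

theorem mrogBar_mul (σ τ : A.decompositionSubgroup ℚ) :
    mrogBar A N (σ * τ) = mrogBar A N σ * mrogBar A N τ := by
  apply Subtype.ext
  refine Prod.ext (RingEquiv.ext fun x => Subtype.ext ?_) (RingEquiv.ext fun x => ?_)
  · show coeffMap (getDecRes A (σ * τ)) (x : LaurentSeries (ResidueField A)) =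
      coeffMap (getDecRes A σ) (coeffMap (getDecRes A τ) (x : LaurentSeries (ResidueField A)))
    rw [coeffMap_coeffMap]
    congr 1
    exact RingHom.ext fun a => mul_smul σ τ a
  · exact mul_smul σ τ x

theorem mrogBar_pow (σ : A.decompositionSubgroup ℚ) (m : ℕ) :
    mrogBar A N (σ ^ m) = mrogBar A N σ ^ m := by
  induction m with
  | zero => rw [pow_zero, pow_zero]; exact mrogBar_one A N
  | succ m ih => rw [pow_succ, pow_succ, mrogBar_mul, ih]

/-! ### Frobenius elements -/

section Frob

variable {ℓ : ℕ} [Fact ℓ.Prime] [CharP (ResidueField A) ℓ] [PerfectRing (ResidueField A) ℓ]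

/-- a Frobenius element at `ℓ` induces the coefficientwise Frobenius `ghrFrob N ℓ` of `F_k(N)`. -/
theorem mrog_bar_frob (σ : Qb ≃ₐ[ℚ] Qb) (hσ : A.IsFrobeniusAt σ ℓ) :
    mrogBar A N ⟨σ, hσ.mem_decompositionSubgroup⟩ = ghrFrob (k := ResidueField A) N ℓ := by
  have h := ghrg_getDecRes_of_isFrobeniusAt A σ hσ
  have h' : mrogRes A ⟨σ, hσ.mem_decompositionSubgroup⟩ = frobeniusEquiv (ResidueField A) ℓ :=
    RingEquiv.ext fun x => congrArg (fun f : ResidueField A →+* ResidueField A => f x) h
  unfold mrogBar ghrFrob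
  rw [h']

/-- **Frobenius equivariance** : `red (σ • x) = Frob • red x` for a Frobenius element `σ` at `ℓ`. -/
theorem mrog_red_frob (σ : Qb ≃ₐ[ℚ] Qb) (hσ : A.IsFrobeniusAt σ ℓ) (x : JZero N) :
    reductionModL A N (σ • x) = ghrFrob (k := ResidueField A) N ℓ • reductionModL A N x := by
  rw [← mrog_bar_frob A N σ hσ]
  exact mrog_red_dec A N ⟨σ, hσ.mem_decompositionSubgroup⟩ x

/-- **`red (σ ^ m • x) = Frob ^ m • red x`** for a Frobenius element `σ` at `ℓ`. -/
theorem mrog_red_frob_pow (σ : Qb ≃ₐ[ℚ] Qb) (hσ : A.IsFrobeniusAt σ ℓ) (m : ℕ) (x : JZero N) :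
    reductionModL A N ((σ ^ m) • x) =
      (ghrFrob (k := ResidueField A) N ℓ) ^ m • reductionModL A N x := by
  rw [← mrog_bar_frob A N σ hσ, ← mrogBar_pow]
  have h := mrog_red_dec A N
    ((⟨σ, hσ.mem_decompositionSubgroup⟩ : A.decompositionSubgroup ℚ) ^ m) x
  rw [Subgroup.coe_pow] at h
  exact h

/-- **fixed points** : if `σ ^ m` fixes `x` (e.g. `σ ^ m ∈ G_K`, `x ∈ J₀(N)(K)`), then the reduction of
`x` is fixed by `Frob ^ m`, the `ℓ ^ m`-Frobenius of `Pic⁰(F_k(N))`. -/
theorem mrog_red_fixed (σ : Qb ≃ₐ[ℚ] Qb) (hσ : A.IsFrobeniusAt σ ℓ) (m : ℕ) (x : JZero N)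
    (hx : (σ ^ m) • x = x) :
    (ghrFrob (k := ResidueField A) N ℓ) ^ m • reductionModL A N x = reductionModL A N x := by
  rw [← mrog_red_frob_pow A N σ hσ m x, hx]

/-- the base automorphism of `Frob ^ m` is `c ↦ c ^ (ℓ ^ m)`. -/
theorem mrog_frob_pow_base (m : ℕ) (c : ResidueField A) :
    SemilinearAut.baseAut ((ghrFrob (k := ResidueField A) N ℓ) ^ m) c = c ^ ℓ ^ m := by
  induction m generalizing c with
  | zero => simp
  | succ m ih =>
    rw [pow_succ, SemilinearAut.baseAut_mul]
    show SemilinearAut.baseAut ((ghrFrob (k := ResidueField A) N ℓ) ^ m)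
      (SemilinearAut.baseAut (ghrFrob (k := ResidueField A) N ℓ) c) = _
    rw [ih]
    show (frobeniusEquiv (ResidueField A) ℓ c) ^ ℓ ^ m = _
    rw [frobeniusEquiv_apply, frobenius_def, ← pow_mul, pow_succ, mul_comm]

end Frob

end Fermat.Agent.MR
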