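import Mathlib
import Fermat.Agent.MR.Out.RedGal
import Fermat.Agent.MR.Out.Frob

/-!
# PROGRAM MR, block `mro` (transfer-out) : THE JUNCTION of leaf (c) (`MR/Out/RedGal.lean`, helper4) and
leaf (d) (`MR/Out/Frob.lean`, helper14)

Owner: helper4.  Namespace `Fermat.Agent.MR`, prefix `mrog`.

* `mrog_coeffwise`, `mrogBar_eq_bar` : `mrogBar A N τ` acts coefficientwise (helper14's
  `MrofCoeffwise`), hence `mrogBar A N τ = mrofBar k N (mrogRes A τ)`;
* `mrog_red_dec_bar` : `reductionModL A N (τ • x) = mrofBar k N (mrogRes A τ) • reductionModL A N x`;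
* `mrog_frob_pow_coeffwise` : `(ghrFrob N ℓ) ^ m` acts coefficientwise;
* **`mrog_fix_finite`** : for `p ≥ 5`, `p ∤ M`, `𝔸` over `p`, `m > 0` : the group
  `mrofFix ((ghrFrob M p) ^ m)` of classes of `Pic⁰(F_k(M))` fixed by the `p ^ m`-Frobenius is FINITE;
* **`mrog_red_mem_fix`** : if `σ` is a Frobenius element at `p` and `σ ^ m • x = x`, then
  `reductionModL A M x ∈ mrofFix ((ghrFrob M p) ^ m)`.
-/

set_option autoImplicit false
set_option linter.unusedSectionVars false
set_option linter.unusedVariables false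
set_option synthInstance.maxHeartbeats 400000

noncomputable section

namespace Fermat.Agent.MR

open ModularCurve AlgebraicCurve IsLocalRing Fermat.Agent.G Fermat.Agent.S18

local notation "Qb" => AlgebraicClosure ℚ

variable (A : ValuationSubring Qb) (N : ℕ) [NeZero N]

/-- `mrogBar A N τ` acts coefficientwise. -/
theorem mrog_coeffwise (τ : A.decompositionSubgroup ℚ) :
    MrofCoeffwise (ResidueField A) N (mrogBar A N τ) := fun _ => rfl

/-- `mrogBar A N τ` is helper14's `mrofBar` of the residue automorphism of `τ`. -/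
theorem mrogBar_eq_bar (τ : A.decompositionSubgroup ℚ) :
    mrogBar A N τ = mrofBar (ResidueField A) N (mrogRes A τ) :=
  mrof_eq_bar (mrog_coeffwise A N τ)

/-- (c) in helper14's spelling. -/
theorem mrog_red_dec_bar (τ : A.decompositionSubgroup ℚ) (x : JZero N) :
    reductionModL A N ((τ : Qb ≃ₐ[ℚ] Qb) • x) =
      mrofBar (ResidueField A) N (mrogRes A τ) • reductionModL A N x := by
  rw [← mrogBar_eq_bar]
  exact mrog_red_dec A N τ x

section Frob

variable {ℓ : ℕ} [Fact ℓ.Prime] [CharP (ResidueField A) ℓ] [PerfectRing (ResidueField A) ℓ]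

/-- `Frob ^ m` acts coefficientwise. -/
theorem mrog_frob_pow_coeffwise (m : ℕ) :
    MrofCoeffwise (ResidueField A) N ((ghrFrob (k := ResidueField A) N ℓ) ^ m) :=
  MrofCoeffwise.pow (fun _ => rfl) m

/-- **finiteness of the fixed classes of the `ℓ ^ m`-Frobenius** (`ℓ ≥ 5`, `ℓ ∤ N`, `m > 0`). -/
theorem mrog_fix_finite (hℓN : ¬ ℓ ∣ N) (h5 : 5 ≤ ℓ) (hA : A.LiesOverPrime ℓ) {m : ℕ}
    (hm : 0 < m) :
    Finite ↥(mrofFix ((ghrFrob (k := ResidueField A) N ℓ) ^ m)) :=
  mrof_finite_fix_res N A hℓN h5 hA _ (mrog_frob_pow_coeffwise A N m) m hm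
    (mrog_frob_pow_base A N m)

/-- **the reduction of a class fixed by `σ ^ m` is fixed by `Frob ^ m`.** -/
theorem mrog_red_mem_fix (σ : Qb ≃ₐ[ℚ] Qb) (hσ : A.IsFrobeniusAt σ ℓ) (m : ℕ) (x : JZero N)
    (hx : (σ ^ m) • x = x) :
    reductionModL A N x ∈ mrofFix ((ghrFrob (k := ResidueField A) N ℓ) ^ m) :=
  mem_mrofFix.mpr (mrog_red_fixed A N σ hσ m x hx)

end Frob

end Fermat.Agent.MR
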