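import Fermat.Agent.MR.Out.RedSpec
import Fermat.Agent.FF.IntPts
import Fermat.Agent.V.Div.Modular

/-!
# Program MR, block `mro`, leaf (mro-RED): (C-β) PULL-BACK PRESERVES THE DIVISORS WITH TRIVIAL
REDUCTION (helper5, prefix `mror`)

Generic form `mror_pull_ker`: two levels `N`, `N'` prime to `p`, a `ℚ̄`-embedding
`φ : F(N) → F(N')` lying over a `k`-embedding `φk : F_k(N) → F_k(N')` (i.e. `φ` maps the Gauss
ring into the Gauss ring and commutes with the reductions), both integral; `r`, `r'` ANY place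
reductions in the sense of the Prelude (`IsPlaceReductionModL`).  Then

  `r_* E = 0  ⟹  r'_* (φ^* E) = 0`.

Proof (no characteristic-`p` divisor theory): `J₀(N)(ℚ̄)` is divisible, so for every `n > 0` there
are `D` and a Gauss-normalised `x` with `n D = E + div x`; then `n r_* D = div x̄`, and
`r'_* φ^* (div x) = div (φk x̄)`, whose coefficients `e(w) ord_{w|} x̄` are divisible by `n`.  So
`r'_* φ^* E` is divisible by every `n > 0` in the free abelian group of divisors, hence zero.

* `mror_mapDomain_gauss` : `r_* (div x) = div (x̄)` for every `x` of the Gauss ring with `x̄ ≠ 0`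
  and ANY place reduction `r`.
-/

set_option autoImplicit false
set_option linter.unusedSectionVars false
set_option linter.unusedVariables false
set_option linter.style.haveILetI false
set_option synthInstance.maxHeartbeats 400000

noncomputable section

namespace Fermat.Agent.MR

open ModularCurve AlgebraicCurve IsLocalRing Fermat.Agent.G Fermat.Agent.S18 Fermat.Agent.S24
  Fermat.Agent.FF HahnSeries

local notation "Qb" => AlgebraicClosure ℚ

/-! ### divisibility in free abelian groups -/

theorem mror_int_zero_of_dvd {z : ℤ} (h : ∀ n : ℕ, 0 < n → (n : ℤ) ∣ z) : z = 0 :=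
  Int.eq_zero_of_dvd_of_natAbs_lt_natAbs (h (z.natAbs + 1) (Nat.succ_pos _))
    (by rw [Int.natAbs_natCast]; exact Nat.lt_succ_self _)

theorem mror_finsupp_zero_of_dvd {X : Type*} (D : X →₀ ℤ)
    (h : ∀ n : ℕ, 0 < n → ∃ Y : X →₀ ℤ, D = n • Y) : D = 0 := by
  ext w
  rw [Finsupp.zero_apply]
  apply mror_int_zero_of_dvd
  intro n hn
  obtain ⟨Y, hY⟩ := h n hn
  refine ⟨Y w, ?_⟩
  rw [hY, Finsupp.smul_apply, nsmul_eq_mul]

/-! ### the divisor formula on the Gauss ring, for ANY place reduction -/

section Gauss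

variable (N : ℕ) [NeZero N] (A : ValuationSubring Qb)
variable (r : Place Qb (modularFunctionFieldBar N) →
  Place (ResidueField A) (modularFunctionFieldFullC (ResidueField A) N))

theorem mror_coeffMap_subtype_ne_zero {y : LaurentSeries A}
    (hy : coeffMap (residue A) y ≠ 0) : coeffMap A.subtype y ≠ 0 := by
  intro h0
  apply hy
  have h2 : y = 0 := by
    ext n
    have := congrArg (fun s => HahnSeries.coeff s n) h0
    simpa using this
  rw [h2, map_zero]

/-- `r_* (div x) = div x̄`. -/
theorem mror_mapDomain_gauss (hr : IsPlaceReductionModL A N r) (x : ↥(grdO N A))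
    (hx0 : grdRed N A x ≠ 0) (D : Divisor Qb (modularFunctionFieldBar N))
    (hD : ∀ P, D P = P.ord (x : modularFunctionFieldBar N))
    (Q : Place (ResidueField A) (modularFunctionFieldFullC (ResidueField A) N)) :
    Finsupp.mapDomain r D Q = Q.ord (grdRed N A x) := by
  obtain ⟨a, b, ha, hb, hb0, hx⟩ := x.2
  have hP : HasPrincipalDivisors Qb (modularFunctionFieldBar N) :=
    (isSepGen_jBar N).hasPrincipalDivisors
  have hredx := grdRed_eq N A x a b hb0 hx
  -- the reductions
  have hspec : grdRed N A x * hb.spec = ha.spec := by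
    apply Subtype.ext
    show ((grdRed N A x : modularFunctionFieldFullC (ResidueField A) N) :
      LaurentSeries (ResidueField A)) * coeffMap (residue A) b = coeffMap (residue A) a
    rw [hredx, div_mul_cancel₀ _ hb0]
  have hbs0 : hb.spec ≠ 0 := fun h => hb0 (congrArg Subtype.val h)
  have has0 : ha.spec ≠ 0 := by
    rw [← hspec]
    exact mul_ne_zero hx0 hbs0
  have ha0 : coeffMap (residue A) a ≠ 0 := fun h => has0 (Subtype.ext h)
  -- the generic elements
  have hgen : (x : modularFunctionFieldBar N) * hb.gen = ha.gen := Subtype.ext hx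
  have hbg0 : hb.gen ≠ 0 := fun h =>
    mror_coeffMap_subtype_ne_zero A hb0 (congrArg Subtype.val h)
  have hag0 : ha.gen ≠ 0 := fun h =>
    mror_coeffMap_subtype_ne_zero A ha0 (congrArg Subtype.val h)
  have hxg0 : (x : modularFunctionFieldBar N) ≠ 0 := by
    intro h
    rw [h, zero_mul] at hgen
    exact hag0 hgen.symm
  obtain ⟨Da, hDa, -⟩ := hP.exists_divisor ha.gen hag0
  obtain ⟨Db, hDb, -⟩ := hP.exists_divisor hb.gen hbg0
  have hDab : D = Da - Db := by
    ext P
    rw [Finsupp.sub_apply, hD, hDa, hDb, ← hgen, P.ord_mul hxg0 hbg0]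
    ring
  have h1 := hr.2 a ha.1 ha.2 ha0 Da hDa Q
  have h2 := hr.2 b hb.1 hb.2 hb0 Db hDb Q
  rw [hDab, Finsupp.mapDomain_sub, Finsupp.sub_apply, h1, h2]
  have h3 : Q.ord ha.spec = Q.ord (grdRed N A x) + Q.ord hb.spec := by
    rw [← hspec, Q.ord_mul hx0 hbs0]
  show Q.ord ha.spec - Q.ord hb.spec = _
  rw [h3]
  ring

end Gauss

/-! ### the decomposition `n D = E + div x` -/

section Decomp

variable (N : ℕ) [NeZero N] {p : ℕ} [Fact p.Prime] (A : ValuationSubring Qb)
variable (r : Place Qb (modularFunctionFieldBar N) →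
  Place (ResidueField A) (modularFunctionFieldFullC (ResidueField A) N))

/-- for a divisor `E` of degree `0` and `n > 0`: `n D = E + div x` with `x` Gauss-normalised. -/
theorem mror_exists_decomp (hpN : ¬ p ∣ N) (hA : A.LiesOverPrime p)
    (E : Divisor Qb (modularFunctionFieldBar N)) (hE : Divisor.degree E = 0)
    (n : ℕ) (hn : 0 < n) :
    ∃ (D : Divisor Qb (modularFunctionFieldBar N)) (x : ↥(grdO N A)),
      Divisor.degree D = 0 ∧ grdRed N A x ≠ 0 ∧
      ∀ P, (n • D - E) P = P.ord (x : modularFunctionFieldBar N) := by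
  obtain ⟨z, hz⟩ := Fermat.Agent.V.v27dv_JZero_divisible N n hn
    (Pic0.mk (⟨E, hE⟩ : Divisor.degZero (K := Qb) (F := modularFunctionFieldBar N)))
  obtain ⟨D, rfl⟩ := Pic0.mk_surjective z
  have h1 : (Pic0.mk (n • D - ⟨E, hE⟩) : JZero N) = 0 := by
    show (QuotientAddGroup.mk (n • D - ⟨E, hE⟩) : JZero N) = 0
    rw [QuotientAddGroup.mk_sub, QuotientAddGroup.mk_nsmul]
    exact sub_eq_zero.2 hz
  have h2 : ((n • D - ⟨E, hE⟩ : Divisor.degZero (K := Qb) (F := modularFunctionFieldBar N)) :
      Divisor Qb (modularFunctionFieldBar N)) ∈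
      Divisor.principal (K := Qb) (F := modularFunctionFieldBar N) := by
    have := (QuotientAddGroup.eq_zero_iff _).1 h1
    exact this
  obtain ⟨f, hf0, hford⟩ := h2
  obtain ⟨c, hc, hmem, hred⟩ := ffip_scale N A hpN hA f hf0
  refine ⟨(D : Divisor Qb (modularFunctionFieldBar N)), ⟨_, hmem⟩, D.2, hred, fun P => ?_⟩
  have hc' : algebraMap Qb (modularFunctionFieldBar N) c ≠ 0 := (_root_.map_ne_zero _).2 hc
  show _ = P.ord (algebraMap Qb (modularFunctionFieldBar N) c * f)
  rw [P.ord_mul hc' hf0, PlaceOrd.ord_algebraMap, zero_add, ← hford P]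
  rfl

end Decomp

/-! ### the generic (C-φ) -/

section Pull

variable (N N' : ℕ) [NeZero N] [NeZero N'] {p : ℕ} [Fact p.Prime] (A : ValuationSubring Qb)

/-- **(C-φ)** pull-back along a level map preserves the divisors with trivial reduction. -/
theorem mror_pull_ker (hpN : ¬ p ∣ N) (hA : A.LiesOverPrime p)
    (φ : modularFunctionFieldBar N →ₐ[Qb] modularFunctionFieldBar N')
    (hφ : φ.toRingHom.IsIntegral)
    (φk : modularFunctionFieldFullC (ResidueField A) N →ₐ[ResidueField A]
      modularFunctionFieldFullC (ResidueField A) N')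
    (hφk : φk.toRingHom.IsIntegral)
    (hlev : ∀ (f : modularFunctionFieldBar N) (hf : f ∈ grdO N A),
      ∃ h : φ f ∈ grdO N' A, grdRed N' A ⟨φ f, h⟩ = φk (grdRed N A ⟨f, hf⟩))
    [HasPrincipalDivisors Qb (modularFunctionFieldBar N')]
    (r : Place Qb (modularFunctionFieldBar N) →
      Place (ResidueField A) (modularFunctionFieldFullC (ResidueField A) N))
    (hr : IsPlaceReductionModL A N r)
    (r' : Place Qb (modularFunctionFieldBar N') →
      Place (ResidueField A) (modularFunctionFieldFullC (ResidueField A) N'))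
    (hr' : IsPlaceReductionModL A N' r')
    (E : Divisor Qb (modularFunctionFieldBar N)) (hE : Finsupp.mapDomain r E = 0) :
    Finsupp.mapDomain r' (Divisor.pullbackAlong φ hφ E) = 0 := by
  apply mror_finsupp_zero_of_dvd
  intro n hn
  have hdeg : Divisor.degree E = 0 := by
    have := degree_mapDomain_of_deg_eq hr.1 E
    rw [hE, map_zero] at this
    exact this.symm
  obtain ⟨D, x, hD0, hx0, hord⟩ := mror_exists_decomp N A hpN hA E hdeg n hn
  -- level `N`: `n r_* D = div x̄`
  have h1 : ∀ Q, (n : ℤ) * Finsupp.mapDomain r D Q = Q.ord (grdRed N A x) := by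
    intro Q
    have := mror_mapDomain_gauss N A r hr x hx0 (n • D - E) hord Q
    rw [Finsupp.mapDomain_sub, hE, sub_zero, Finsupp.mapDomain_smul, Finsupp.smul_apply,
      nsmul_eq_mul] at this
    exact this
  -- level `N'`
  obtain ⟨hx', hredx'⟩ := hlev x x.2
  have h2 : ∀ w, (Divisor.pullbackAlong φ hφ (n • D - E)) w =
      w.ord ((⟨φ x, hx'⟩ : ↥(grdO N' A)) : modularFunctionFieldBar N') := by
    intro w
    rw [Divisor.pullbackAlong_apply, hord, ← Place.ord_restrictAlong]
  have hφx0 : grdRed N' A ⟨φ x, hx'⟩ ≠ 0 := by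
    rw [hredx']
    exact (_root_.map_ne_zero φk).2 hx0
  have h3 : ∀ w', Finsupp.mapDomain r' (Divisor.pullbackAlong φ hφ (n • D - E)) w' =
      (n : ℤ) * ((Place.ramificationIndexAlong φk w' : ℤ) *
        Finsupp.mapDomain r D (w'.restrictAlong φk hφk)) := by
    intro w'
    rw [mror_mapDomain_gauss N' A r' hr' ⟨φ x, hx'⟩ hφx0 _ h2 w', hredx',
      Place.ord_restrictAlong φk hφk, ← h1]
    ring
  -- the quotient by `n`
  let Y' : Divisor (ResidueField A) (modularFunctionFieldFullC (ResidueField A) N') :=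
    (Finsupp.mapDomain r' (Divisor.pullbackAlong φ hφ (n • D - E))).mapRange
      (fun z : ℤ => z / (n : ℤ)) (by simp)
  have hY' : Finsupp.mapDomain r' (Divisor.pullbackAlong φ hφ (n • D - E)) = n • Y' := by
    ext w'
    rw [Finsupp.smul_apply, nsmul_eq_mul, Finsupp.mapRange_apply, h3 w']
    have hn0 : (n : ℤ) ≠ 0 := by exact_mod_cast hn.ne'
    rw [Int.mul_ediv_cancel_left _ hn0]
  refine ⟨Finsupp.mapDomain r' (Divisor.pullbackAlong φ hφ D) - Y', ?_⟩
  rw [smul_sub, ← hY', map_sub, Finsupp.mapDomain_sub, map_nsmul, Finsupp.mapDomain_smul]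
  abel

end Pull

end Fermat.Agent.MR
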